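import Fermat.Agent.S53.Defs

/-!
# S53 / RG1-frame (owner: helper39)

`exists_frame`: an absolutely irreducible residual representation admits a "frame":
a basis in which some `ρ g0` has first column `(0, 1)` and some commutator entry
`[ρ g0, ρ g1]_{i0 j0}` is nonzero.
-/

set_option autoImplicit false

namespace Fermat.Agent.S53

open IsLocalRing TensorProduct

/-- An absolutely irreducible residual representation has two non-commuting operators. -/
theorem h39_exists_not_commute {k : Type} [Field k] (ρbar : ResidualGaloisRep k)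
    (habs : ρbar.IsAbsolutelyIrreducible) :
    ∃ g0 g1 : GQ, ρbar.ρ g0 * ρbar.ρ g1 ≠ ρbar.ρ g1 * ρbar.ρ g0 := by
  classical
  by_contra hcon
  push Not at hcon
  -- notation
  set K := AlgebraicClosure k with hK
  set ρ' := ρbar.baseChange K with hρ'
  have hfr : Module.finrank K ρ'.V = 2 := ρ'.finrank_eq
  have : Module.Finite K ρ'.V := inferInstance
  have : Nontrivial ρ'.V := Module.nontrivial_of_finrank_pos (R := K) (by rw [hfr]; norm_num)
  have hρ'app : ∀ σ : GQ, ρ'.ρ σ = (ρbar.ρ σ).baseChange K := fun σ => rfl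
  have hcomm : ∀ σ τ : GQ, ρ'.ρ σ * ρ'.ρ τ = ρ'.ρ τ * ρ'.ρ σ := by
    intro σ τ
    rw [← map_mul, ← map_mul]
    show ρ'.ρ (σ * τ) = ρ'.ρ (τ * σ)
    rw [hρ'app, hρ'app, map_mul, map_mul, hcon σ τ]
  have hirr : ρ'.IsIrreducible := habs
  by_cases hsc : ∀ σ : GQ, ∃ c : K, ρ'.ρ σ = c • (1 : Module.End K ρ'.V)
  · -- all scalar: any line is stable
    obtain ⟨v, hv⟩ := exists_ne (0 : ρ'.V)
    have hstab : ∀ σ : GQ, ∀ x ∈ Submodule.span K {v}, ρ'.ρ σ x ∈ Submodule.span K {v} := by
      intro σ x hx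
      obtain ⟨c, hc⟩ := hsc σ
      rw [hc]
      simpa using Submodule.smul_mem _ c hx
    rcases hirr (Submodule.span K {v}) hstab with h | h
    · exact hv ((Submodule.span_singleton_eq_bot).1 h)
    · have h1 : Module.finrank K (Submodule.span K {v}) = 1 := finrank_span_singleton hv
      rw [h, finrank_top, hfr] at h1
      omega
  · push Not at hsc
    obtain ⟨σ₀, hσ₀⟩ := hsc
    obtain ⟨μ, hμ⟩ := Module.End.exists_eigenvalue (ρ'.ρ σ₀)
    have hstab : ∀ σ : GQ, ∀ x ∈ Module.End.eigenspace (ρ'.ρ σ₀) μ,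
        ρ'.ρ σ x ∈ Module.End.eigenspace (ρ'.ρ σ₀) μ := by
      intro σ x hx
      rw [Module.End.mem_eigenspace_iff] at hx ⊢
      have := congrArg (fun f : Module.End K ρ'.V => f x) (hcomm σ₀ σ)
      simp only [Module.End.mul_apply] at this
      rw [this, hx, map_smul]
    rcases hirr _ hstab with h | h
    · exact hμ h
    · apply hσ₀ μ
      refine LinearMap.ext fun x => ?_
      have hx : x ∈ Module.End.eigenspace (ρ'.ρ σ₀) μ := by rw [h]; trivial
      rw [Module.End.mem_eigenspace_iff] at hx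
      simpa using hx

theorem exists_frame {k : Type} [Field k] (ρbar : ResidualGaloisRep k)
    (habs : ρbar.IsAbsolutelyIrreducible) :
    ∃ (rbar : GQ → Matrix (Fin 2) (Fin 2) k) (g0 g1 : GQ) (i0 j0 : Fin 2),
      HasMatrixRes ρbar rbar ∧ rbar g0 0 0 = 0 ∧ rbar g0 1 0 = 1 ∧
      (rbar g0 * rbar g1 - rbar g1 * rbar g0) i0 j0 ≠ 0 := by
  classical
  obtain ⟨g0, g1, hne⟩ := h39_exists_not_commute ρbar habs
  -- `ρ g0` is not a scalar, so some `v, ρ g0 v` are linearly independent
  have hv : ∃ v : ρbar.V, LinearIndependent k ![v, ρbar.ρ g0 v] := by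
    by_contra hcon
    push Not at hcon
    obtain ⟨a, ha⟩ := LinearMap.exists_eq_smul_id_of_forall_notLinearIndependent
      (f := ρbar.ρ g0) hcon
    apply hne
    rw [ha]
    ext x
    simp
  obtain ⟨v, hv⟩ := hv
  have hcard : Fintype.card (Fin 2) = Module.finrank k ρbar.V := by
    rw [ρbar.finrank_eq]; rfl
  set b : Module.Basis (Fin 2) k ρbar.V := basisOfLinearIndependentOfCardEqFinrank hv hcard with hb
  have hb0 : b 0 = v := by
    rw [hb, coe_basisOfLinearIndependentOfCardEqFinrank]; rfl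
  have hb1 : b 1 = ρbar.ρ g0 v := by
    rw [hb, coe_basisOfLinearIndependentOfCardEqFinrank]; rfl
  refine ⟨fun σ => LinearMap.toMatrix b b (ρbar.ρ σ), g0, g1, ?_⟩
  have h00 : LinearMap.toMatrix b b (ρbar.ρ g0) 0 0 = 0 := by
    rw [LinearMap.toMatrix_apply, hb0, ← hb1, Module.Basis.repr_self]
    simp
  have h10 : LinearMap.toMatrix b b (ρbar.ρ g0) 1 0 = 1 := by
    rw [LinearMap.toMatrix_apply, hb0, ← hb1, Module.Basis.repr_self]
    simp
  have hcommne : LinearMap.toMatrix b b (ρbar.ρ g0) * LinearMap.toMatrix b b (ρbar.ρ g1)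
      - LinearMap.toMatrix b b (ρbar.ρ g1) * LinearMap.toMatrix b b (ρbar.ρ g0) ≠ 0 := by
    intro h
    apply hne
    rw [sub_eq_zero, ← LinearMap.toMatrix_mul, ← LinearMap.toMatrix_mul] at h
    exact (LinearMap.toMatrix b b).injective h
  have hex : ∃ i0 j0 : Fin 2, (LinearMap.toMatrix b b (ρbar.ρ g0) * LinearMap.toMatrix b b (ρbar.ρ g1)
      - LinearMap.toMatrix b b (ρbar.ρ g1) * LinearMap.toMatrix b b (ρbar.ρ g0)) i0 j0 ≠ 0 := by
    by_contra hcon
    push Not at hcon
    apply hcommne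
    ext i j
    exact hcon i j
  obtain ⟨i0, j0, hij⟩ := hex
  exact ⟨i0, j0, ⟨b, fun σ => rfl⟩, h00, h10, hij⟩

end Fermat.Agent.S53
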