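import Mathlib
import Fermat.Prelude.Def_GaloisRep_DeformationRingData
import Fermat.Prelude.Def_GaloisRep_DeformationCondition

/-!
# S53 — shared definitions (owner: helper53)

Everything lives in `namespace Fermat.Agent.S53`.  All module owners import THIS file and
prove the statement(s) of their task with exactly the signature given in `tasks.spec`.
-/

set_option autoImplicit false

namespace Fermat.Agent.S53

open IsLocalRing

/-- The absolute Galois group of `ℚ`, as used by the frozen definitions. -/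
abbrev GQ : Type := AlgebraicClosure ℚ ≃ₐ[ℚ] AlgebraicClosure ℚ

/-- `ρ` is given by the matrices `r σ` with respect to some basis of its module. -/
def HasMatrix {A : Type} [CommRing A] [IsLocalRing A] (ρ : GaloisRepAdic A)
    (r : GQ → Matrix (Fin 2) (Fin 2) A) : Prop :=
  ∃ b : Module.Basis (Fin 2) A ρ.V, ∀ σ : GQ, LinearMap.toMatrix b b (ρ.ρ σ) = r σ

/-- Residual version of `HasMatrix`. -/
def HasMatrixRes {k : Type} [Field k] (ρ : ResidualGaloisRep k)
    (r : GQ → Matrix (Fin 2) (Fin 2) k) : Prop :=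
  ∃ b : Module.Basis (Fin 2) k ρ.V, ∀ σ : GQ, LinearMap.toMatrix b b (ρ.ρ σ) = r σ

/-- Matrix-level adic continuity. -/
def MatCont {A : Type} [CommRing A] [IsLocalRing A] (r : GQ → Matrix (Fin 2) (Fin 2) A) : Prop :=
  ∀ n : ℕ, ∃ L : IntermediateField ℚ (AlgebraicClosure ℚ), FiniteDimensional ℚ L ∧
    ∀ σ : GQ, (∀ x ∈ L, σ x = x) → ∀ i j, (r σ - 1) i j ∈ maximalIdeal A ^ n

/-- Rigid (normal-form) matrix lifts of a fixed frame `rt` (entries in `𝒪`),
relative to two group elements `g0 g1` and a matrix position `(i0, j0)`. -/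
structure IsRigid {𝒪 : Type} [CommRing 𝒪] {A : Type} [CommRing A] [IsLocalRing A] [Algebra 𝒪 A]
    (rt : GQ → Matrix (Fin 2) (Fin 2) 𝒪) (g0 g1 : GQ) (i0 j0 : Fin 2)
    (r : GQ → Matrix (Fin 2) (Fin 2) A) : Prop where
  res : ∀ σ i j, r σ i j - algebraMap 𝒪 A (rt σ i j) ∈ maximalIdeal A
  g0_00 : r g0 0 0 = 0
  g0_10 : r g0 1 0 = 1
  g1 : r g1 i0 j0 = algebraMap 𝒪 A (rt g1 i0 j0)

/-- The `𝒪`-algebra structure on `k[ε]` used by `GaloisRep.TangentFinite` (same term). -/
@[reducible] noncomputable def dualAlg (𝒪 : Type) [CommRing 𝒪] [IsLocalRing 𝒪] :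
    Algebra 𝒪 (DualNumber (ResidueField 𝒪)) :=
  ((algebraMap (ResidueField 𝒪) (DualNumber (ResidueField 𝒪))).comp
    (algebraMap 𝒪 (ResidueField 𝒪))).toAlgebra

end Fermat.Agent.S53
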