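import Mathlib
import Fermat.Agent.S53.Defs

set_option autoImplicit false

namespace Fermat.Agent.S53

open IsLocalRing

section ART
variable (𝒪 : Type) [CommRing 𝒪] [IsLocalRing 𝒪]

/-- `𝒪`-algebra maps into a local `𝒪`-algebra `B` whose structure map is local and whose residue
field is hit by `𝒪` are local.  (NB: the hypotheses are on the TARGET `B`.) -/
theorem isLocalHom_of_algHom {A B : Type} [CommRing A] [IsLocalRing A] [Algebra 𝒪 A]
    [CommRing B] [IsLocalRing B] [Algebra 𝒪 B]
    (hBs : Function.Surjective (residue B ∘ algebraMap 𝒪 B))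
    (hB : IsLocalHom (algebraMap 𝒪 B))
    (φ : A →ₐ[𝒪] B) : IsLocalHom (φ : A →+* B) := by
  constructor
  intro a ha
  by_contra hna
  have ha' : IsUnit (φ a) := ha
  obtain ⟨c, hc⟩ := hBs (residue B (φ a))
  have hc' : residue B (algebraMap 𝒪 B c) = residue B (φ a) := hc
  have hmem : algebraMap 𝒪 B c - φ a ∈ maximalIdeal B := by
    rw [← Ideal.Quotient.eq]
    exact hc'
  have hcu : IsUnit (algebraMap 𝒪 B c) := by
    by_contra hcn
    have h1 : algebraMap 𝒪 B c ∈ maximalIdeal B := (mem_maximalIdeal _).mpr hcn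
    have h2 : φ a ∈ maximalIdeal B := by
      have := (maximalIdeal B).sub_mem h1 hmem
      simpa using this
    exact (mem_maximalIdeal _).mp h2 ha'
  have hcu' : IsUnit c := hB.map_nonunit c hcu
  have hAu : IsUnit (algebraMap 𝒪 A c - a) := by
    by_contra hn
    have h1 : algebraMap 𝒪 A c - a ∈ maximalIdeal A := (mem_maximalIdeal _).mpr hn
    have h2 : a ∈ maximalIdeal A := (mem_maximalIdeal _).mpr hna
    have h3 : algebraMap 𝒪 A c ∈ maximalIdeal A := by
      have := (maximalIdeal A).add_mem h1 h2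
      simpa using this
    exact (mem_maximalIdeal _).mp h3 (hcu'.map (algebraMap 𝒪 A))
  have hBu : IsUnit (φ (algebraMap 𝒪 A c - a)) := hAu.map φ
  rw [map_sub, AlgHom.commutes] at hBu
  exact (mem_maximalIdeal _).mp hmem hBu

/-- Any ring hom out of an artinian local ring into a nontrivial ring is local. -/
theorem isLocalHom_of_isArtinianRing {A B : Type} [CommRing A] [IsLocalRing A] [IsArtinianRing A]
    [CommRing B] [Nontrivial B] (φ : A →+* B) : IsLocalHom φ := by
  constructor
  intro a ha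
  by_contra hna
  have h2 : a ∈ maximalIdeal A := (mem_maximalIdeal _).mpr hna
  obtain ⟨n, hn⟩ := (isArtinianRing_iff_isNilpotent_maximalIdeal A).mp inferInstance
  have h3 : a ^ n ∈ maximalIdeal A ^ n := Ideal.pow_mem_pow h2 n
  rw [hn] at h3
  have h4 : a ^ n = 0 := by simpa using h3
  have h5 : (φ a) ^ n = 0 := by rw [← map_pow, h4, map_zero]
  have h6 : IsUnit ((φ a) ^ n) := ha.pow n
  rw [h5] at h6
  exact not_isUnit_zero h6

theorem finite_of_isArtinianTestAlgebra [Finite (ResidueField 𝒪)]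
    {A : Type} [CommRing A] [IsLocalRing A] [Algebra 𝒪 A]
    (hA : GaloisRep.IsArtinianTestAlgebra 𝒪 A) : Finite A := by
  have := hA.isArtinian
  have := hA.isLocalHom
  -- the residue field of `A` is finite
  have hfin : Finite (ResidueField A) := by
    have hsurj : Function.Surjective (ResidueField.map (algebraMap 𝒪 A)) := by
      intro y
      obtain ⟨c, hc⟩ := hA.residue_surjective y
      exact ⟨residue 𝒪 c, by simpa using hc⟩
    exact Finite.of_surjective _ hsurj
  have hfin' : Finite (A ⧸ maximalIdeal A) := hfin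
  obtain ⟨n, hn⟩ := (isArtinianRing_iff_isNilpotent_maximalIdeal A).mp inferInstance
  have h1 : Finite (A ⧸ maximalIdeal A ^ n) :=
    Ideal.finite_quotient_pow (IsNoetherian.noetherian (maximalIdeal A)) n
  rw [hn] at h1
  have h2 : Finite (A ⧸ (⊥ : Ideal A)) := h1
  exact Finite.of_equiv _ (RingEquiv.quotientBot A).toEquiv

theorem isArtinianTestAlgebra_quotient_pow
    {A : Type} [CommRing A] [IsLocalRing A] [IsNoetherianRing A] [Algebra 𝒪 A]
    (hloc : IsLocalHom (algebraMap 𝒪 A))
    (hsurj : Function.Surjective (residue A ∘ algebraMap 𝒪 A)) (n : ℕ) (_hn : 1 ≤ n)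
    [IsLocalRing (A ⧸ maximalIdeal A ^ n)] :
    GaloisRep.IsArtinianTestAlgebra 𝒪 (A ⧸ maximalIdeal A ^ n) := by
  -- images of elements of the maximal ideal are non-units
  have hnil : ∀ x ∈ maximalIdeal A,
      Ideal.Quotient.mk (maximalIdeal A ^ n) x ∈ maximalIdeal (A ⧸ maximalIdeal A ^ n) := by
    intro x hx
    rw [mem_maximalIdeal]
    intro hu
    have h1 : x ^ n ∈ maximalIdeal A ^ n := Ideal.pow_mem_pow hx n
    have h2 : (Ideal.Quotient.mk (maximalIdeal A ^ n) x) ^ n = 0 := by
      rw [← map_pow]; exact Ideal.Quotient.eq_zero_iff_mem.mpr h1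
    have h3 := hu.pow n
    rw [h2] at h3
    exact not_isUnit_zero h3
  refine ⟨⟨?_⟩, ?_, ?_⟩
  · intro c hc
    by_contra hcn
    have h1 : algebraMap 𝒪 A c ∈ maximalIdeal A := by
      rw [mem_maximalIdeal]
      intro hu
      exact hcn (hloc.map_nonunit c hu)
    exact (mem_maximalIdeal _).mp (hnil _ h1) hc
  · intro y
    obtain ⟨z, rfl⟩ := residue_surjective y
    obtain ⟨a, rfl⟩ := Ideal.Quotient.mk_surjective z
    obtain ⟨c, hc⟩ := hsurj (residue A a)
    refine ⟨c, ?_⟩
    have hc' : residue A (algebraMap 𝒪 A c) = residue A a := hc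
    have hmem : algebraMap 𝒪 A c - a ∈ maximalIdeal A := by
      rw [← Ideal.Quotient.eq]; exact hc'
    have h1 := hnil _ hmem
    rw [map_sub] at h1
    show residue _ (algebraMap 𝒪 (A ⧸ maximalIdeal A ^ n) c) = residue _ _
    exact Ideal.Quotient.eq.mpr h1
  · rw [isArtinianRing_iff_isNilpotent_maximalIdeal]
    refine ⟨n, ?_⟩
    rw [Ideal.zero_eq_bot, eq_bot_iff]
    have hle : maximalIdeal (A ⧸ maximalIdeal A ^ n)
        ≤ (maximalIdeal A).map (Ideal.Quotient.mk (maximalIdeal A ^ n)) := by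
      intro y hy
      obtain ⟨a, rfl⟩ := Ideal.Quotient.mk_surjective y
      apply Ideal.mem_map_of_mem
      rw [mem_maximalIdeal]
      intro hu
      exact (mem_maximalIdeal _).mp hy (hu.map _)
    calc maximalIdeal (A ⧸ maximalIdeal A ^ n) ^ n
        ≤ ((maximalIdeal A).map (Ideal.Quotient.mk (maximalIdeal A ^ n))) ^ n := Ideal.pow_right_mono hle n
      _ = (maximalIdeal A ^ n).map (Ideal.Quotient.mk (maximalIdeal A ^ n)) := (Ideal.map_pow _ _ _).symm
      _ = ⊥ := by rw [Ideal.map_quotient_self]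

end ART

end Fermat.Agent.S53
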