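import Mathlib
import Fermat.Agent.S53.Defs

/-!
# S53 — task M1-mat (owner: helper36): matrix API for `GaloisRepAdic`
-/

set_option autoImplicit false

namespace Fermat.Agent.S53

open IsLocalRing
open scoped TensorProduct

section M1

variable {A : Type} [CommRing A] [IsLocalRing A]

theorem exists_hasMatrix (ρ : GaloisRepAdic A) : ∃ r, HasMatrix ρ r :=
  ⟨fun σ => LinearMap.toMatrix (Module.finBasisOfFinrankEq A ρ.V ρ.finrank_eq)
      (Module.finBasisOfFinrankEq A ρ.V ρ.finrank_eq) (ρ.ρ σ),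
    Module.finBasisOfFinrankEq A ρ.V ρ.finrank_eq, fun _ => rfl⟩

theorem HasMatrix.map_one {ρ : GaloisRepAdic A} {r : GQ → Matrix (Fin 2) (Fin 2) A}
    (h : HasMatrix ρ r) : r 1 = 1 := by
  obtain ⟨b, hb⟩ := h
  rw [← hb 1, _root_.map_one, LinearMap.toMatrix_one]

theorem HasMatrix.map_mul {ρ : GaloisRepAdic A} {r : GQ → Matrix (Fin 2) (Fin 2) A}
    (h : HasMatrix ρ r) (σ τ : GQ) : r (σ * τ) = r σ * r τ := by
  obtain ⟨b, hb⟩ := h
  rw [← hb (σ * τ), ← hb σ, ← hb τ, _root_.map_mul, LinearMap.toMatrix_mul]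

omit [IsLocalRing A] in
/-- coordinates of an element of `I • ⊤` lie in `I`. -/
theorem m1_repr_mem_of_mem_smul_top {V : Type} [AddCommGroup V] [Module A V]
    (b : Module.Basis (Fin 2) A V) (I : Ideal A) {x : V}
    (hx : x ∈ I • (⊤ : Submodule A V)) (i : Fin 2) : b.repr x i ∈ I := by
  refine Submodule.smul_induction_on (p := fun x => b.repr x i ∈ I) hx ?_ ?_
  · intro a ha w _
    rw [map_smul, Finsupp.smul_apply, smul_eq_mul]
    exact I.mul_mem_right _ ha
  · intro x y hx hy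
    rw [map_add, Finsupp.add_apply]
    exact I.add_mem hx hy

omit [IsLocalRing A] in
/-- an element all of whose coordinates lie in `I` lies in `I • ⊤`. -/
theorem m1_mem_smul_top_of_repr_mem {V : Type} [AddCommGroup V] [Module A V]
    (b : Module.Basis (Fin 2) A V) (I : Ideal A) {x : V}
    (hx : ∀ i, b.repr x i ∈ I) : x ∈ I • (⊤ : Submodule A V) := by
  rw [← b.sum_repr x]
  exact Submodule.sum_mem _ fun i _ => Submodule.smul_mem_smul (hx i) Submodule.mem_top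

theorem HasMatrix.matCont {ρ : GaloisRepAdic A} {r : GQ → Matrix (Fin 2) (Fin 2) A}
    (h : HasMatrix ρ r) : MatCont r := by
  obtain ⟨b, hb⟩ := h
  intro n
  obtain ⟨L, hL, h1⟩ := ρ.isAdicContinuous n
  refine ⟨L, hL, fun σ hσ i j => ?_⟩
  have h2 := m1_repr_mem_of_mem_smul_top b (maximalIdeal A ^ n) (h1 σ hσ (b j)) i
  rw [Matrix.sub_apply, ← hb σ, LinearMap.toMatrix_apply, Matrix.one_apply]
  rw [map_sub, Finsupp.sub_apply, Module.Basis.repr_self, Finsupp.single_apply] at h2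
  simpa [eq_comm] using h2

theorem HasMatrix.isEquiv {ρ ρ' : GaloisRepAdic A} {r : GQ → Matrix (Fin 2) (Fin 2) A}
    (h : HasMatrix ρ r) (h' : HasMatrix ρ' r) : ρ.IsEquiv ρ' := by
  obtain ⟨b, hb⟩ := h
  obtain ⟨b', hb'⟩ := h'
  refine ⟨⟨b.equiv b' (Equiv.refl _), fun σ x => ?_⟩⟩
  have key : (b.equiv b' (Equiv.refl _)).toLinearMap ∘ₗ ρ.ρ σ =
      ρ'.ρ σ ∘ₗ (b.equiv b' (Equiv.refl _)).toLinearMap := by
    refine b.ext fun j => ?_
    have e1 : ρ.ρ σ (b j) = ∑ i, r σ i j • b i := by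
      conv_lhs => rw [← b.sum_repr (ρ.ρ σ (b j))]
      refine Finset.sum_congr rfl fun i _ => ?_
      rw [← hb σ, LinearMap.toMatrix_apply]
    have e2 : ρ'.ρ σ (b' j) = ∑ i, r σ i j • b' i := by
      conv_lhs => rw [← b'.sum_repr (ρ'.ρ σ (b' j))]
      refine Finset.sum_congr rfl fun i _ => ?_
      rw [← hb' σ, LinearMap.toMatrix_apply]
    simp only [LinearMap.coe_comp, LinearEquiv.coe_coe, Function.comp_apply, e1, map_sum,
      map_smul, Module.Basis.equiv_apply, Equiv.refl_apply, e2]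
  exact LinearMap.congr_fun key x

theorem HasMatrix.of_isEquiv {ρ ρ' : GaloisRepAdic A} {r : GQ → Matrix (Fin 2) (Fin 2) A}
    (h : HasMatrix ρ r) (e : ρ.IsEquiv ρ') : HasMatrix ρ' r := by
  obtain ⟨b, hb⟩ := h
  obtain ⟨e⟩ := e
  refine ⟨b.map e.toLinearEquiv, fun σ => ?_⟩
  rw [← hb σ]
  ext i j
  rw [LinearMap.toMatrix_apply, LinearMap.toMatrix_apply, Module.Basis.map_apply,
    Module.Basis.map_repr, LinearEquiv.trans_apply, ← e.map_apply, LinearEquiv.symm_apply_apply]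

theorem HasMatrix.conj {ρ : GaloisRepAdic A} {r : GQ → Matrix (Fin 2) (Fin 2) A}
    (h : HasMatrix ρ r) (X Y : Matrix (Fin 2) (Fin 2) A) (hXY : X * Y = 1) (hYX : Y * X = 1) :
    HasMatrix ρ (fun σ => X * r σ * Y) := by
  obtain ⟨b, hb⟩ := h
  have h1 : Matrix.toLin b b Y ∘ₗ Matrix.toLin b b X = LinearMap.id := by
    rw [← Matrix.toLin_mul, hYX, Matrix.toLin_one]
  have h2 : Matrix.toLin b b X ∘ₗ Matrix.toLin b b Y = LinearMap.id := by
    rw [← Matrix.toLin_mul, hXY, Matrix.toLin_one]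
  refine ⟨b.map (LinearEquiv.ofLinearMap (Matrix.toLin b b Y) (Matrix.toLin b b X) h1 h2),
    fun σ => ?_⟩
  rw [LinearMap.toMatrix_map_left, LinearMap.toMatrix_map_right]
  show _ = X * r σ * Y
  rw [← hb σ]
  rw [LinearMap.toMatrix_comp b b b, LinearMap.toMatrix_comp b b b, Matrix.mul_assoc]
  congr 1
  · exact LinearMap.toMatrix_toLin b b X
  · congr 1
    exact LinearMap.toMatrix_toLin b b Y

theorem HasMatrix.exists_conj {ρ : GaloisRepAdic A} {r r' : GQ → Matrix (Fin 2) (Fin 2) A}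
    (h : HasMatrix ρ r) (h' : HasMatrix ρ r') :
    ∃ X Y : Matrix (Fin 2) (Fin 2) A, X * Y = 1 ∧ Y * X = 1 ∧ ∀ σ, r' σ = X * r σ * Y := by
  obtain ⟨b, hb⟩ := h
  obtain ⟨b', hb'⟩ := h'
  refine ⟨b'.toMatrix b, b.toMatrix b', Module.Basis.toMatrix_mul_toMatrix_flip _ _,
    Module.Basis.toMatrix_mul_toMatrix_flip _ _, fun σ => ?_⟩
  rw [← hb σ, ← hb' σ, basis_toMatrix_mul_linearMap_toMatrix_mul_basis_toMatrix]

theorem HasMatrix.baseChangeAlong {B : Type} [CommRing B] [IsLocalRing B] (φ : A →+* B)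
    (hφ : IsLocalHom φ) {ρ : GaloisRepAdic A} {r : GQ → Matrix (Fin 2) (Fin 2) A}
    (h : HasMatrix ρ r) : HasMatrix (ρ.baseChangeAlong φ hφ) (fun σ => (r σ).map φ) := by
  obtain ⟨b, hb⟩ := h
  let _ : Algebra A B := φ.toAlgebra
  refine ⟨Algebra.TensorProduct.basis B b, fun σ => ?_⟩
  show LinearMap.toMatrix (Algebra.TensorProduct.basis B b) (Algebra.TensorProduct.basis B b)
    ((ρ.ρ σ).baseChange B) = (r σ).map φ
  rw [← hb σ]
  exact LinearMap.toMatrix_baseChange B (ρ.ρ σ) b b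

theorem exists_rep_of_matrix (r : GQ → Matrix (Fin 2) (Fin 2) A) (h1 : r 1 = 1)
    (hmul : ∀ σ τ, r (σ * τ) = r σ * r τ) (hc : MatCont r) :
    ∃ ρ : GaloisRepAdic A, HasMatrix ρ r := by
  refine ⟨{ V := Fin 2 → A
            finrank_eq := by simp
            ρ := { toFun := fun σ => Matrix.toLin' (r σ)
                   map_one' := by rw [h1, Matrix.toLin'_one]; rfl
                   map_mul' := fun σ τ => by rw [hmul, Matrix.toLin'_mul]; rfl }
            isAdicContinuous := ?_ }, Pi.basisFun A (Fin 2), fun σ => ?_⟩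
  · intro n
    obtain ⟨L, hL, hr⟩ := hc n
    refine ⟨L, hL, fun σ hσ v => ?_⟩
    refine m1_mem_smul_top_of_repr_mem (Pi.basisFun A (Fin 2)) _ fun i => ?_
    have e : (Matrix.toLin' (r σ)) v - v = (r σ - 1).mulVec v := by
      rw [Matrix.sub_mulVec, Matrix.one_mulVec, Matrix.toLin'_apply]
    show (Pi.basisFun A (Fin 2)).repr ((Matrix.toLin' (r σ)) v - v) i ∈ maximalIdeal A ^ n
    rw [e, Pi.basisFun_repr]
    simp only [Matrix.mulVec, dotProduct]
    exact Ideal.sum_mem _ fun j _ => Ideal.mul_mem_right _ _ (hr σ hσ i j)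
  · show LinearMap.toMatrix (Pi.basisFun A (Fin 2)) (Pi.basisFun A (Fin 2))
      (Matrix.toLin' (r σ)) = r σ
    rw [LinearMap.toMatrix_eq_toMatrix', LinearMap.toMatrix'_toLin']

end M1

end Fermat.Agent.S53
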