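import Fermat.Agent.S53.Defs

/-!
# S53 — task M2 (owner: helper43): matrices of residual representations
-/

set_option autoImplicit false

namespace Fermat.Agent.S53

open IsLocalRing
open scoped TensorProduct

section M2
variable {k : Type} [Field k]

theorem exists_hasMatrixRes (ρ : ResidualGaloisRep k) : ∃ r, HasMatrixRes ρ r :=
  ⟨fun σ => LinearMap.toMatrix (Module.finBasisOfFinrankEq k ρ.V ρ.finrank_eq)
      (Module.finBasisOfFinrankEq k ρ.V ρ.finrank_eq) (ρ.ρ σ),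
    Module.finBasisOfFinrankEq k ρ.V ρ.finrank_eq, fun _ => rfl⟩

theorem HasMatrixRes.isEquiv {ρ ρ' : ResidualGaloisRep k} {r : GQ → Matrix (Fin 2) (Fin 2) k}
    (h : HasMatrixRes ρ r) (h' : HasMatrixRes ρ' r) : ρ.IsEquiv ρ' := by
  obtain ⟨b, hb⟩ := h
  obtain ⟨b', hb'⟩ := h'
  refine ⟨⟨b.equiv b' (Equiv.refl _), fun σ x => ?_⟩⟩
  have h1 : ρ.ρ σ = Matrix.toLin b b (r σ) := by
    rw [← hb σ, Matrix.toLin_toMatrix]
  have h2 : ρ'.ρ σ = Matrix.toLin b' b' (r σ) := by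
    rw [← hb' σ, Matrix.toLin_toMatrix]
  have key : ((b.equiv b' (Equiv.refl _)).toLinearMap ∘ₗ ρ.ρ σ) =
      (ρ'.ρ σ ∘ₗ (b.equiv b' (Equiv.refl _)).toLinearMap) := by
    apply b.ext
    intro j
    simp only [LinearMap.coe_comp, LinearEquiv.coe_coe, Function.comp_apply, h1, h2,
      Matrix.toLin_self, map_sum, map_smul, Module.Basis.equiv_apply, Equiv.refl_apply]
  exact LinearMap.congr_fun key x

theorem HasMatrixRes.of_isEquiv {ρ ρ' : ResidualGaloisRep k} {r : GQ → Matrix (Fin 2) (Fin 2) k}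
    (h : HasMatrixRes ρ r) (e : ρ.IsEquiv ρ') : HasMatrixRes ρ' r := by
  obtain ⟨b, hb⟩ := h
  obtain ⟨e⟩ := e
  refine ⟨b.map e.toLinearEquiv, fun σ => ?_⟩
  rw [← hb σ]
  ext i j
  simp only [LinearMap.toMatrix_apply, Module.Basis.map_apply, Module.Basis.map_repr,
    LinearEquiv.trans_apply]
  rw [← e.map_apply, LinearEquiv.symm_apply_apply]

theorem HasMatrixRes.exists_conj {ρ : ResidualGaloisRep k} {r r' : GQ → Matrix (Fin 2) (Fin 2) k}
    (h : HasMatrixRes ρ r) (h' : HasMatrixRes ρ r') :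
    ∃ X Y : Matrix (Fin 2) (Fin 2) k, X * Y = 1 ∧ Y * X = 1 ∧ ∀ σ, r' σ = X * r σ * Y := by
  obtain ⟨b, hb⟩ := h
  obtain ⟨b', hb'⟩ := h'
  refine ⟨b'.toMatrix b, b.toMatrix b', Module.Basis.toMatrix_mul_toMatrix_flip b' b,
    Module.Basis.toMatrix_mul_toMatrix_flip b b', fun σ => ?_⟩
  rw [← hb σ, ← hb' σ, basis_toMatrix_mul_linearMap_toMatrix_mul_basis_toMatrix]

theorem HasMatrixRes.baseChangeAlong {k' : Type} [Field k'] (ψ : k →+* k')
    {ρ : ResidualGaloisRep k} {r : GQ → Matrix (Fin 2) (Fin 2) k} (h : HasMatrixRes ρ r) :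
    HasMatrixRes (ρ.baseChangeAlong ψ) (fun σ => (r σ).map ψ) := by
  obtain ⟨b, hb⟩ := h
  letI : Algebra k k' := ψ.toAlgebra
  have key : ∀ σ : GQ, LinearMap.toMatrix (Algebra.TensorProduct.basis k' b)
      (Algebra.TensorProduct.basis k' b) ((ρ.ρ σ).baseChange k') = (r σ).map ψ := by
    intro σ
    rw [← hb σ]
    exact LinearMap.toMatrix_baseChange (A := k') (ρ.ρ σ) b b
  exact ⟨Algebra.TensorProduct.basis k' b, key⟩

theorem HasMatrix.residual {A : Type} [CommRing A] [IsLocalRing A] {ρ : GaloisRepAdic A}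
    {r : GQ → Matrix (Fin 2) (Fin 2) A} (h : HasMatrix ρ r) :
    HasMatrixRes ρ.residual (fun σ => (r σ).map (IsLocalRing.residue A)) := by
  obtain ⟨b, hb⟩ := h
  have key : ∀ σ : GQ, LinearMap.toMatrix (Algebra.TensorProduct.basis (ResidueField A) b)
      (Algebra.TensorProduct.basis (ResidueField A) b) ((ρ.ρ σ).baseChange (ResidueField A)) =
        (r σ).map (IsLocalRing.residue A) := by
    intro σ
    rw [← hb σ]
    exact LinearMap.toMatrix_baseChange (A := ResidueField A) (ρ.ρ σ) b b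
  exact ⟨Algebra.TensorProduct.basis (ResidueField A) b, key⟩

theorem hasMatrix_ofResidualGaloisRep {ρ : ResidualGaloisRep k}
    {r : GQ → Matrix (Fin 2) (Fin 2) k} (h : HasMatrixRes ρ r) :
    HasMatrix (GaloisRepAdic.ofResidualGaloisRep ρ) r := by
  obtain ⟨b, hb⟩ := h
  exact ⟨b, hb⟩
end M2

end Fermat.Agent.S53
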