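import Mathlib
import Fermat.Agent.S53.Defs
import Fermat.Agent.S53.Mat
import Fermat.Agent.S53.MatRes
import Fermat.Agent.S53.Art

/-!
# S53 — good ideals of the polynomial ring on matrix entries (owner: helper53)
-/

set_option autoImplicit false

namespace Fermat.Agent.S53

open IsLocalRing GaloisRep

/-- A rigidification frame: entrywise lifts `rt` of the residual matrices, two group elements
and a matrix position. -/
structure Frame (𝒪 : Type) [CommRing 𝒪] [IsLocalRing 𝒪] where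
  rt : GQ → Matrix (Fin 2) (Fin 2) 𝒪
  g0 : GQ
  g1 : GQ
  i0 : Fin 2
  j0 : Fin 2
  h00 : rt g0 0 0 ∈ maximalIdeal 𝒪
  h10 : rt g0 1 0 - 1 ∈ maximalIdeal 𝒪
  hne : IsUnit ((rt g0 * rt g1 - rt g1 * rt g0) i0 j0)

section basic

variable (𝒪 : Type) [CommRing 𝒪]

/-- The polynomial ring on the matrix entries of all group elements. -/
abbrev Lam : Type := MvPolynomial (GQ × Fin 2 × Fin 2) 𝒪

/-- The tautological matrices. -/
noncomputable def taut (σ : GQ) : Matrix (Fin 2) (Fin 2) (Lam 𝒪) :=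
  Matrix.of fun i j => (MvPolynomial.X (σ, i, j) : Lam 𝒪)

lemma taut_apply (σ : GQ) (i j : Fin 2) : taut 𝒪 σ i j = MvPolynomial.X (σ, i, j) := rfl

variable {𝒪}

/-- Evaluation of polynomials at a family of matrices. -/
noncomputable def evMat {A : Type} [CommRing A] [Algebra 𝒪 A]
    (r : GQ → Matrix (Fin 2) (Fin 2) A) : Lam 𝒪 →ₐ[𝒪] A :=
  MvPolynomial.aeval (fun p : GQ × Fin 2 × Fin 2 => r p.1 p.2.1 p.2.2)

@[simp] lemma evMat_X {A : Type} [CommRing A] [Algebra 𝒪 A]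
    (r : GQ → Matrix (Fin 2) (Fin 2) A) (σ : GQ) (i j : Fin 2) :
    (evMat r : Lam 𝒪 →ₐ[𝒪] A) (MvPolynomial.X (σ, i, j)) = r σ i j := by
  unfold evMat
  rw [MvPolynomial.aeval_X]

lemma taut_map_evMat {A : Type} [CommRing A] [Algebra 𝒪 A]
    (r : GQ → Matrix (Fin 2) (Fin 2) A) (σ : GQ) :
    (taut 𝒪 σ).map (evMat r : Lam 𝒪 →ₐ[𝒪] A) = r σ := by
  ext i j
  simp [taut_apply]

lemma evMat_comp {A B : Type} [CommRing A] [Algebra 𝒪 A] [CommRing B] [Algebra 𝒪 B]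
    (r : GQ → Matrix (Fin 2) (Fin 2) A) (φ : A →ₐ[𝒪] B) :
    φ.comp (evMat r : Lam 𝒪 →ₐ[𝒪] A) = evMat (fun σ => (r σ).map φ) := by
  apply MvPolynomial.algHom_ext
  rintro ⟨σ, i, j⟩
  simp

lemma evMat_taut_map {A : Type} [CommRing A] [Algebra 𝒪 A] (φ : Lam 𝒪 →ₐ[𝒪] A) :
    evMat (fun σ => (taut 𝒪 σ).map φ) = φ := by
  apply MvPolynomial.algHom_ext
  rintro ⟨σ, i, j⟩
  simp [taut_apply]

end basic

section frame

variable {𝒪 : Type} [CommRing 𝒪] [IsLocalRing 𝒪] (F : Frame 𝒪)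

/-- Evaluation at the residual matrices. -/
noncomputable def Frame.evk : Lam 𝒪 →ₐ[𝒪] ResidueField 𝒪 :=
  evMat (fun σ => (F.rt σ).map (residue 𝒪))

lemma Frame.evk_X (σ : GQ) (i j : Fin 2) :
    F.evk (MvPolynomial.X (σ, i, j)) = residue 𝒪 (F.rt σ i j) := by
  unfold Frame.evk
  rw [evMat_X]
  rfl

lemma Frame.evk_C (c : 𝒪) : F.evk (MvPolynomial.C c) = residue 𝒪 c := by
  rw [← MvPolynomial.algebraMap_eq, AlgHom.commutes]
  rfl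

lemma Frame.evk_surjective : Function.Surjective F.evk := by
  intro y
  obtain ⟨c, rfl⟩ := IsLocalRing.residue_surjective y
  exact ⟨MvPolynomial.C c, F.evk_C c⟩

/-- The maximal ideal of `Lam 𝒪` cut out by the residual representation. -/
noncomputable def Frame.mLam : Ideal (Lam 𝒪) := RingHom.ker F.evk

instance Frame.mLam_isMaximal : F.mLam.IsMaximal :=
  RingHom.ker_isMaximal_of_surjective _ F.evk_surjective

lemma Frame.mem_mLam {x : Lam 𝒪} : x ∈ F.mLam ↔ F.evk x = 0 := RingHom.mem_ker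

lemma Frame.X_sub_C_mem (σ : GQ) (i j : Fin 2) :
    MvPolynomial.X (σ, i, j) - MvPolynomial.C (F.rt σ i j) ∈ F.mLam := by
  rw [F.mem_mLam, map_sub, F.evk_X, F.evk_C, sub_self]

lemma Frame.C_mem_mLam {c : 𝒪} : MvPolynomial.C c ∈ F.mLam ↔ c ∈ maximalIdeal 𝒪 := by
  rw [F.mem_mLam, F.evk_C, IsLocalRing.residue_eq_zero_iff]

lemma Frame.exists_sub_C_mem (x : Lam 𝒪) : ∃ c : 𝒪, x - MvPolynomial.C c ∈ F.mLam := by
  obtain ⟨c, hc⟩ := IsLocalRing.residue_surjective (F.evk x)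
  exact ⟨c, by rw [F.mem_mLam, map_sub, F.evk_C, hc, sub_self]⟩

/-- Quotients of `Lam 𝒪` by ideals between a power of `mLam` and `mLam` are local. -/
lemma Frame.isLocalRing_quot {𝔞 : Ideal (Lam 𝒪)} (h1 : 𝔞 ≤ F.mLam) {N : ℕ}
    (h2 : F.mLam ^ N ≤ 𝔞) : IsLocalRing (Lam 𝒪 ⧸ 𝔞) := by
  have hsurj : Function.Surjective (Ideal.Quotient.mk 𝔞) := Ideal.Quotient.mk_surjective
  have hmax : (F.mLam.map (Ideal.Quotient.mk 𝔞)).IsMaximal :=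
    Ideal.IsMaximal.map_of_surjective_of_ker_le hsurj (by rwa [Ideal.mk_ker])
  refine IsLocalRing.of_unique_max_ideal ⟨_, hmax, fun M hM => ?_⟩
  have hM' : (M.comap (Ideal.Quotient.mk 𝔞)).IsMaximal :=
    Ideal.comap_isMaximal_of_surjective _ hsurj
  have hle : F.mLam ≤ M.comap (Ideal.Quotient.mk 𝔞) := by
    apply Ideal.IsPrime.le_of_pow_le (n := N)
    refine h2.trans ?_
    intro x hx
    rw [Ideal.mem_comap, Ideal.Quotient.eq_zero_iff_mem.mpr hx]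
    exact M.zero_mem
  have heq : F.mLam = M.comap (Ideal.Quotient.mk 𝔞) :=
    Ideal.IsMaximal.eq_of_le inferInstance hM'.ne_top hle
  rw [heq, Ideal.map_comap_of_surjective _ hsurj]

lemma Frame.maximalIdeal_quot {𝔞 : Ideal (Lam 𝒪)} (h1 : 𝔞 ≤ F.mLam)
    [IsLocalRing (Lam 𝒪 ⧸ 𝔞)] :
    maximalIdeal (Lam 𝒪 ⧸ 𝔞) = F.mLam.map (Ideal.Quotient.mk 𝔞) := by
  have hmax : (F.mLam.map (Ideal.Quotient.mk 𝔞)).IsMaximal :=
    Ideal.IsMaximal.map_of_surjective_of_ker_le Ideal.Quotient.mk_surjective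
      (by rwa [Ideal.mk_ker])
  exact (IsLocalRing.eq_maximalIdeal hmax).symm

lemma Frame.mk_mem_maximalIdeal_iff {𝔞 : Ideal (Lam 𝒪)} (h1 : 𝔞 ≤ F.mLam)
    [IsLocalRing (Lam 𝒪 ⧸ 𝔞)] (x : Lam 𝒪) :
    Ideal.Quotient.mk 𝔞 x ∈ maximalIdeal (Lam 𝒪 ⧸ 𝔞) ↔ x ∈ F.mLam := by
  rw [F.maximalIdeal_quot h1]
  exact Ideal.mem_quotient_iff_mem h1

lemma Frame.maximalIdeal_quot_pow_eq_bot {𝔞 : Ideal (Lam 𝒪)} (h1 : 𝔞 ≤ F.mLam) {N : ℕ}
    (h2 : F.mLam ^ N ≤ 𝔞) [IsLocalRing (Lam 𝒪 ⧸ 𝔞)] :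
    maximalIdeal (Lam 𝒪 ⧸ 𝔞) ^ N = ⊥ := by
  rw [F.maximalIdeal_quot h1, ← Ideal.map_pow, Ideal.map_eq_bot_iff_le_ker, Ideal.mk_ker]
  exact h2

/-- Such a quotient, when finite, is an Artinian test algebra. -/
lemma Frame.isArtinianTestAlgebra_quot {𝔞 : Ideal (Lam 𝒪)} (h1 : 𝔞 ≤ F.mLam)
    [Finite (Lam 𝒪 ⧸ 𝔞)] [IsLocalRing (Lam 𝒪 ⧸ 𝔞)] :
    IsArtinianTestAlgebra 𝒪 (Lam 𝒪 ⧸ 𝔞) where
  isLocalHom := by
    refine ⟨fun c hc => ?_⟩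
    by_contra hcu
    have hc' : c ∈ maximalIdeal 𝒪 := (IsLocalRing.mem_maximalIdeal c).mpr hcu
    have h3 : Ideal.Quotient.mk 𝔞 (MvPolynomial.C c) ∈ maximalIdeal (Lam 𝒪 ⧸ 𝔞) :=
      (F.mk_mem_maximalIdeal_iff h1 _).mpr (F.C_mem_mLam.mpr hc')
    exact (IsLocalRing.mem_maximalIdeal _).mp h3 hc
  residue_surjective := by
    intro y
    obtain ⟨z, rfl⟩ := IsLocalRing.residue_surjective y
    obtain ⟨x, rfl⟩ := Ideal.Quotient.mk_surjective z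
    obtain ⟨c, hc⟩ := F.exists_sub_C_mem x
    refine ⟨c, ?_⟩
    have h3 : Ideal.Quotient.mk 𝔞 (x - MvPolynomial.C c) ∈ maximalIdeal (Lam 𝒪 ⧸ 𝔞) :=
      (F.mk_mem_maximalIdeal_iff h1 _).mpr hc
    rw [map_sub, ← IsLocalRing.residue_eq_zero_iff, map_sub, sub_eq_zero] at h3
    exact h3.symm
  isArtinian := inferInstance

end frame

section defo

variable {𝒪 : Type} [CommRing 𝒪] [IsLocalRing 𝒪]
  (𝒟 : ∀ ⦃A : Type⦄ [CommRing A] [IsLocalRing A] [Algebra 𝒪 A], GaloisRepAdic A → Prop)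
  (F : Frame 𝒪)

/-- `r` is a rigid matrix deformation of type `𝒟` over `A`. -/
def Frame.IsDefo (A : Type) [CommRing A] [IsLocalRing A] [Algebra 𝒪 A]
    (r : GQ → Matrix (Fin 2) (Fin 2) A) : Prop :=
  IsRigid F.rt F.g0 F.g1 F.i0 F.j0 r ∧ ∃ ρ : GaloisRepAdic A, 𝒟 ρ ∧ HasMatrix ρ r

variable {𝒟 F}

/-- Rigidity is preserved by local algebra maps. -/
lemma isRigid_map {A B : Type} [CommRing A] [IsLocalRing A] [Algebra 𝒪 A]
    [CommRing B] [IsLocalRing B] [Algebra 𝒪 B] (φ : A →ₐ[𝒪] B)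
    (hφ : IsLocalHom (φ : A →+* B)) {r : GQ → Matrix (Fin 2) (Fin 2) A}
    (hr : IsRigid F.rt F.g0 F.g1 F.i0 F.j0 r) :
    IsRigid F.rt F.g0 F.g1 F.i0 F.j0 (fun σ => (r σ).map φ) where
  res σ i j := by
    have h := map_nonunit (φ : A →+* B) _ (hr.res σ i j)
    rw [map_sub] at h
    simpa using h
  g0_00 := by simp [hr.g0_00]
  g0_10 := by simp [hr.g0_10]
  g1 := by simp [hr.g1]

/-- Rigidity is reflected by injective local algebra maps. -/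
lemma isRigid_of_map_injective {A B : Type} [CommRing A] [IsLocalRing A] [Algebra 𝒪 A]
    [CommRing B] [IsLocalRing B] [Algebra 𝒪 B] (φ : A →ₐ[𝒪] B)
    (hinj : Function.Injective φ) {r : GQ → Matrix (Fin 2) (Fin 2) A}
    (hr : IsRigid F.rt F.g0 F.g1 F.i0 F.j0 (fun σ => (r σ).map φ)) :
    IsRigid F.rt F.g0 F.g1 F.i0 F.j0 r where
  res σ i j := by
    have h := hr.res σ i j
    rw [Matrix.map_apply, ← AlgHom.commutes φ, ← map_sub] at h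
    rw [IsLocalRing.mem_maximalIdeal, mem_nonunits_iff] at h ⊢
    exact fun hu => h (hu.map φ)
  g0_00 := hinj (by simpa using hr.g0_00)
  g0_10 := hinj (by simpa using hr.g0_10)
  g1 := hinj (by simpa using hr.g1)

/-- (D1) Push-forward of rigid deformations along maps of Artinian test algebras. -/
lemma Frame.IsDefo.map (h𝒟 : IsDeformationCondition 𝒪 𝒟)
    {A B : Type} [CommRing A] [IsLocalRing A] [Algebra 𝒪 A]
    [CommRing B] [IsLocalRing B] [Algebra 𝒪 B]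
    (hA : IsArtinianTestAlgebra 𝒪 A) (hB : IsArtinianTestAlgebra 𝒪 B) (φ : A →ₐ[𝒪] B)
    {r : GQ → Matrix (Fin 2) (Fin 2) A} (hr : F.IsDefo 𝒟 A r) :
    F.IsDefo 𝒟 B (fun σ => (r σ).map φ) := by
  have hφ : IsLocalHom (φ : A →+* B) :=
    isLocalHom_of_algHom 𝒪 hB.residue_surjective hB.isLocalHom φ
  obtain ⟨hrig, ρ, hρ, hm⟩ := hr
  exact ⟨isRigid_map φ hφ hrig, ρ.baseChangeAlong (φ : A →+* B) hφ,
    h𝒟.baseChangeAlong hA hB φ hφ hρ, hm.baseChangeAlong (φ : A →+* B) hφ⟩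

/-- (D2) Rigid deformations descend along injective maps of Artinian test algebras. -/
lemma Frame.IsDefo.of_injective (h𝒟 : IsDeformationCondition 𝒪 𝒟)
    {A B : Type} [CommRing A] [IsLocalRing A] [Algebra 𝒪 A]
    [CommRing B] [IsLocalRing B] [Algebra 𝒪 B]
    (hA : IsArtinianTestAlgebra 𝒪 A) (hB : IsArtinianTestAlgebra 𝒪 B) (φ : A →ₐ[𝒪] B)
    (hinj : Function.Injective φ)
    {r : GQ → Matrix (Fin 2) (Fin 2) A} (hr : F.IsDefo 𝒟 B (fun σ => (r σ).map φ)) :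
    F.IsDefo 𝒟 A r := by
  have hφ : IsLocalHom (φ : A →+* B) :=
    isLocalHom_of_algHom 𝒪 hB.residue_surjective hB.isLocalHom φ
  obtain ⟨hrig, ρB, hρB, hmB⟩ := hr
  have hmapinj : Function.Injective (fun M : Matrix (Fin 2) (Fin 2) A => M.map φ) :=
    Matrix.map_injective hinj
  have h1 : r 1 = 1 := hmapinj (by
    have := hmB.map_one
    simpa using this)
  have hmul : ∀ σ τ, r (σ * τ) = r σ * r τ := fun σ τ => hmapinj (by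
    have := hmB.map_mul σ τ
    simpa [Matrix.map_mul] using this)
  have hc : MatCont r := by
    haveI := hB.isArtinian
    obtain ⟨N, hN⟩ := IsArtinianRing.isNilpotent_jacobson_bot (R := B)
    rw [IsLocalRing.jacobson_eq_maximalIdeal ⊥ bot_ne_top] at hN
    obtain ⟨L, hL, hL'⟩ := hmB.matCont N
    intro n
    refine ⟨L, hL, fun σ hσ i j => ?_⟩
    have h3 := hL' σ hσ i j
    rw [hN, Ideal.zero_eq_bot, Ideal.mem_bot] at h3
    have h4 : (r σ - 1) i j = 0 := hinj (by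
      rw [map_zero, ← h3]
      by_cases hij : i = j <;> simp [Matrix.sub_apply, Matrix.one_apply, hij])
    rw [h4]
    exact Ideal.zero_mem _
  obtain ⟨ρA, hmA⟩ := exists_rep_of_matrix r h1 hmul hc
  refine ⟨isRigid_of_map_injective φ hinj hrig, ρA, ?_, hmA⟩
  refine h𝒟.of_baseChangeAlong_injective hA hB φ hφ hinj ?_
  exact h𝒟.of_isEquiv hB (hmB.isEquiv (hmA.baseChangeAlong (φ : A →+* B) hφ)) hρB

end defo

section good

variable {𝒪 : Type} [CommRing 𝒪] [IsLocalRing 𝒪]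
  (𝒟 : ∀ ⦃A : Type⦄ [CommRing A] [IsLocalRing A] [Algebra 𝒪 A], GaloisRepAdic A → Prop)
  (F : Frame 𝒪)

/-- The tautological matrices modulo an ideal. -/
noncomputable def tautQ (𝔞 : Ideal (Lam 𝒪)) (σ : GQ) : Matrix (Fin 2) (Fin 2) (Lam 𝒪 ⧸ 𝔞) :=
  (taut 𝒪 σ).map (Ideal.Quotient.mk 𝔞)

lemma tautQ_apply (𝔞 : Ideal (Lam 𝒪)) (σ : GQ) (i j : Fin 2) :
    tautQ 𝔞 σ i j = Ideal.Quotient.mk 𝔞 (MvPolynomial.X (σ, i, j)) := rfl

/-- Good ideals: finite local quotient on which the tautological matrices form a rigid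
deformation of type `𝒟`. -/
def Frame.Good (𝔞 : Ideal (Lam 𝒪)) : Prop :=
  𝔞 ≤ F.mLam ∧ (∃ N : ℕ, F.mLam ^ N ≤ 𝔞) ∧ Finite (Lam 𝒪 ⧸ 𝔞) ∧
    ∃ _ : IsLocalRing (Lam 𝒪 ⧸ 𝔞), F.IsDefo 𝒟 (Lam 𝒪 ⧸ 𝔞) (tautQ 𝔞)

variable {𝒟 F}

lemma Frame.Good.le {𝔞 : Ideal (Lam 𝒪)} (h : F.Good 𝒟 𝔞) : 𝔞 ≤ F.mLam := h.1

lemma Frame.Good.pow_le {𝔞 : Ideal (Lam 𝒪)} (h : F.Good 𝒟 𝔞) : ∃ N : ℕ, F.mLam ^ N ≤ 𝔞 := h.2.1

lemma Frame.Good.finite {𝔞 : Ideal (Lam 𝒪)} (h : F.Good 𝒟 𝔞) : Finite (Lam 𝒪 ⧸ 𝔞) := h.2.2.1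

lemma tautQ_map_factor {𝔞 𝔟 : Ideal (Lam 𝒪)} (h : 𝔞 ≤ 𝔟) (σ : GQ) :
    (tautQ 𝔞 σ).map (Ideal.Quotient.factorₐ 𝒪 h) = tautQ 𝔟 σ := by
  ext i j
  simp [tautQ]

/-- The residual condition holds automatically in quotients by ideals inside `mLam`. -/
lemma Frame.tautQ_res {𝔞 : Ideal (Lam 𝒪)} (h1 : 𝔞 ≤ F.mLam) [IsLocalRing (Lam 𝒪 ⧸ 𝔞)]
    (σ : GQ) (i j : Fin 2) :
    tautQ 𝔞 σ i j - algebraMap 𝒪 (Lam 𝒪 ⧸ 𝔞) (F.rt σ i j) ∈ maximalIdeal (Lam 𝒪 ⧸ 𝔞) := by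
  have h := (F.mk_mem_maximalIdeal_iff h1 _).mpr (F.X_sub_C_mem σ i j)
  rwa [map_sub] at h

/-- (G2) Good ideals are upward closed inside `mLam`. -/
lemma Frame.Good.mono (h𝒟 : IsDeformationCondition 𝒪 𝒟) {𝔞 𝔟 : Ideal (Lam 𝒪)}
    (h : F.Good 𝒟 𝔞) (hab : 𝔞 ≤ 𝔟) (hb : 𝔟 ≤ F.mLam) : F.Good 𝒟 𝔟 := by
  obtain ⟨h1, ⟨N, h2⟩, hfin, hloc, hdef⟩ := h
  have hfinb : Finite (Lam 𝒪 ⧸ 𝔟) :=
    Finite.of_surjective _ (Ideal.Quotient.factor_surjective hab)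
  have hlocb : IsLocalRing (Lam 𝒪 ⧸ 𝔟) := F.isLocalRing_quot hb (h2.trans hab)
  refine ⟨hb, ⟨N, h2.trans hab⟩, hfinb, hlocb, ?_⟩
  have := hdef.map h𝒟 (F.isArtinianTestAlgebra_quot h1) (F.isArtinianTestAlgebra_quot hb)
    (Ideal.Quotient.factorₐ 𝒪 hab)
  simpa only [tautQ_map_factor] using this

omit [IsLocalRing 𝒪] in
lemma tautQ_eq_mapMatrix (𝔞 : Ideal (Lam 𝒪)) (σ : GQ) :
    tautQ 𝔞 σ = (Ideal.Quotient.mk 𝔞).mapMatrix (taut 𝒪 σ) := rfl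

omit [IsLocalRing 𝒪] in
lemma mapMatrix_mk_eq_zero_iff (𝔞 : Ideal (Lam 𝒪)) (M : Matrix (Fin 2) (Fin 2) (Lam 𝒪)) :
    (Ideal.Quotient.mk 𝔞).mapMatrix M = 0 ↔ ∀ i j, M i j ∈ 𝔞 := by
  constructor
  · intro h i j
    have := congrFun (congrFun h i) j
    simpa [Ideal.Quotient.eq_zero_iff_mem] using this
  · intro h
    ext i j
    simpa [Ideal.Quotient.eq_zero_iff_mem] using h i j

omit [IsLocalRing 𝒪] in
lemma tautQ_mul_iff (𝔞 : Ideal (Lam 𝒪)) (σ τ : GQ) :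
    tautQ 𝔞 (σ * τ) = tautQ 𝔞 σ * tautQ 𝔞 τ ↔
      ∀ i j, (taut 𝒪 (σ * τ) - taut 𝒪 σ * taut 𝒪 τ) i j ∈ 𝔞 := by
  rw [← mapMatrix_mk_eq_zero_iff, map_sub, map_mul, sub_eq_zero]
  rfl

omit [IsLocalRing 𝒪] in
lemma tautQ_eq_one_iff (𝔞 : Ideal (Lam 𝒪)) (σ : GQ) :
    tautQ 𝔞 σ = 1 ↔ ∀ i j, (taut 𝒪 σ - 1) i j ∈ 𝔞 := by
  rw [← mapMatrix_mk_eq_zero_iff, map_sub, map_one, sub_eq_zero]
  rfl

omit [IsLocalRing 𝒪] in
/-- Matrices that are trivial on the stabiliser of a finite level are adically continuous. -/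
lemma matCont_of_level {A : Type} [CommRing A] [IsLocalRing A]
    {r : GQ → Matrix (Fin 2) (Fin 2) A}
    (h : ∃ L : IntermediateField ℚ (AlgebraicClosure ℚ), FiniteDimensional ℚ L ∧
      ∀ σ : GQ, (∀ x ∈ L, σ x = x) → r σ = 1) : MatCont r := by
  obtain ⟨L, hL, hL'⟩ := h
  intro n
  refine ⟨L, hL, fun σ hσ i j => ?_⟩
  rw [hL' σ hσ, sub_self]
  exact Ideal.zero_mem _

/-- A rigid deformation over a local ring with nilpotent maximal ideal factors through a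
finite level. -/
lemma exists_level_of_hasMatrix {A : Type} [CommRing A] [IsLocalRing A]
    {ρ : GaloisRepAdic A} {r : GQ → Matrix (Fin 2) (Fin 2) A} (hm : HasMatrix ρ r) {N : ℕ}
    (hN : maximalIdeal A ^ N = ⊥) :
    ∃ L : IntermediateField ℚ (AlgebraicClosure ℚ), FiniteDimensional ℚ L ∧
      ∀ σ : GQ, (∀ x ∈ L, σ x = x) → r σ = 1 := by
  obtain ⟨L, hL, hL'⟩ := hm.matCont N
  refine ⟨L, hL, fun σ hσ => ?_⟩
  ext i j
  have h3 := hL' σ hσ i j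
  rw [hN, Ideal.mem_bot] at h3
  have := sub_eq_zero.mp h3
  simpa using this

lemma Frame.Good.exists_level {𝔞 : Ideal (Lam 𝒪)} (h : F.Good 𝒟 𝔞) :
    ∃ L : IntermediateField ℚ (AlgebraicClosure ℚ), FiniteDimensional ℚ L ∧
      ∀ σ : GQ, (∀ x ∈ L, σ x = x) → tautQ 𝔞 σ = 1 := by
  obtain ⟨h1, ⟨N, h2⟩, hfin, hloc, hrig, ρ, hρ, hm⟩ := h
  exact exists_level_of_hasMatrix hm (F.maximalIdeal_quot_pow_eq_bot h1 h2)

lemma Frame.Good.tautQ_mul {𝔞 : Ideal (Lam 𝒪)} (h : F.Good 𝒟 𝔞) (σ τ : GQ) :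
    tautQ 𝔞 (σ * τ) = tautQ 𝔞 σ * tautQ 𝔞 τ := by
  obtain ⟨h1, ⟨N, h2⟩, hfin, hloc, hrig, ρ, hρ, hm⟩ := h
  exact hm.map_mul σ τ

lemma Frame.Good.tautQ_one {𝔞 : Ideal (Lam 𝒪)} (h : F.Good 𝒟 𝔞) : tautQ 𝔞 1 = 1 := by
  obtain ⟨h1, ⟨N, h2⟩, hfin, hloc, hrig, ρ, hρ, hm⟩ := h
  exact hm.map_one

/-- Ideal-level description of rigidity of the tautological matrices. -/
lemma Frame.isRigid_tautQ_iff {𝔞 : Ideal (Lam 𝒪)} (h1 : 𝔞 ≤ F.mLam)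
    [IsLocalRing (Lam 𝒪 ⧸ 𝔞)] :
    IsRigid F.rt F.g0 F.g1 F.i0 F.j0 (tautQ 𝔞) ↔
      (MvPolynomial.X (F.g0, 0, 0) ∈ 𝔞 ∧ MvPolynomial.X (F.g0, 1, 0) - 1 ∈ 𝔞 ∧
        MvPolynomial.X (F.g1, F.i0, F.j0) - MvPolynomial.C (F.rt F.g1 F.i0 F.j0) ∈ 𝔞) := by
  constructor
  · intro h
    refine ⟨?_, ?_, ?_⟩
    · have := h.g0_00
      rwa [tautQ_apply, Ideal.Quotient.eq_zero_iff_mem] at this
    · have := h.g0_10
      rwa [tautQ_apply, ← sub_eq_zero, ← map_one (Ideal.Quotient.mk 𝔞), ← map_sub,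
        Ideal.Quotient.eq_zero_iff_mem] at this
    · have := h.g1
      rwa [tautQ_apply, ← sub_eq_zero, ← Ideal.Quotient.mk_algebraMap, ← map_sub,
        Ideal.Quotient.eq_zero_iff_mem] at this
  · rintro ⟨h00, h10, hg1⟩
    refine ⟨F.tautQ_res h1, ?_, ?_, ?_⟩
    · rwa [tautQ_apply, Ideal.Quotient.eq_zero_iff_mem]
    · rwa [tautQ_apply, ← sub_eq_zero, ← map_one (Ideal.Quotient.mk 𝔞), ← map_sub,
        Ideal.Quotient.eq_zero_iff_mem]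
    · rwa [tautQ_apply, ← sub_eq_zero, ← Ideal.Quotient.mk_algebraMap, ← map_sub,
        Ideal.Quotient.eq_zero_iff_mem]

end good

end Fermat.Agent.S53
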