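import Mathlib
import Fermat.Agent.S53.Good

/-!
# S53 — task GI-inf (owner: helper91): good ideals are closed under finite intersections
-/

set_option autoImplicit false

namespace Fermat.Agent.S53

open IsLocalRing GaloisRep

section GI
variable {𝒪 : Type} [CommRing 𝒪] [IsLocalRing 𝒪]
  {𝒟 : ∀ ⦃A : Type⦄ [CommRing A] [IsLocalRing A] [Algebra 𝒪 A], GaloisRepAdic A → Prop}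
  {F : Frame 𝒪}

/-- (G3) Good ideals are closed under binary intersections. -/
theorem Frame.Good.inf (h𝒟 : IsDeformationCondition 𝒪 𝒟) {𝔞 𝔟 : Ideal (Lam 𝒪)}
    (ha : F.Good 𝒟 𝔞) (hb : F.Good 𝒟 𝔟) : F.Good 𝒟 (𝔞 ⊓ 𝔟) := by
  obtain ⟨La, hLa, hLa'⟩ := ha.exists_level
  obtain ⟨Lb, hLb, hLb'⟩ := hb.exists_level
  have hmula := ha.tautQ_mul
  have hmulb := hb.tautQ_mul
  have honea := ha.tautQ_one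
  have honeb := hb.tautQ_one
  obtain ⟨ha1, ⟨Na, ha2⟩, hfina, hloca, hriga, ρA, hρA, hmA⟩ := ha
  obtain ⟨hb1, ⟨Nb, hb2⟩, hfinb, hlocb, hrigb, ρB, hρB, hmB⟩ := hb
  -- basic facts on `𝔞 ⊓ 𝔟` and `𝔞 ⊔ 𝔟`
  have hP1 : 𝔞 ⊓ 𝔟 ≤ F.mLam := inf_le_left.trans ha1
  have hP2 : F.mLam ^ (max Na Nb) ≤ 𝔞 ⊓ 𝔟 :=
    le_inf ((Ideal.pow_le_pow_right (le_max_left _ _)).trans ha2)
      ((Ideal.pow_le_pow_right (le_max_right _ _)).trans hb2)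
  have hC1 : 𝔞 ⊔ 𝔟 ≤ F.mLam := sup_le ha1 hb1
  have hC2 : F.mLam ^ Na ≤ 𝔞 ⊔ 𝔟 := ha2.trans le_sup_left
  -- the four maps of the fibre square
  let pA : (Lam 𝒪 ⧸ 𝔞 ⊓ 𝔟) →ₐ[𝒪] (Lam 𝒪 ⧸ 𝔞) :=
    Ideal.Quotient.factorₐ 𝒪 (inf_le_left : 𝔞 ⊓ 𝔟 ≤ 𝔞)
  let pB : (Lam 𝒪 ⧸ 𝔞 ⊓ 𝔟) →ₐ[𝒪] (Lam 𝒪 ⧸ 𝔟) :=
    Ideal.Quotient.factorₐ 𝒪 (inf_le_right : 𝔞 ⊓ 𝔟 ≤ 𝔟)
  let f : (Lam 𝒪 ⧸ 𝔞) →ₐ[𝒪] (Lam 𝒪 ⧸ 𝔞 ⊔ 𝔟) :=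
    Ideal.Quotient.factorₐ 𝒪 (le_sup_left : 𝔞 ≤ 𝔞 ⊔ 𝔟)
  let g : (Lam 𝒪 ⧸ 𝔟) →ₐ[𝒪] (Lam 𝒪 ⧸ 𝔞 ⊔ 𝔟) :=
    Ideal.Quotient.factorₐ 𝒪 (le_sup_right : 𝔟 ≤ 𝔞 ⊔ 𝔟)
  have hinj : Function.Injective (fun x : Lam 𝒪 ⧸ 𝔞 ⊓ 𝔟 => (pA x, pB x)) := by
    intro x y hxy
    obtain ⟨u, rfl⟩ := Ideal.Quotient.mk_surjective x
    obtain ⟨v, rfl⟩ := Ideal.Quotient.mk_surjective y
    have h1 : Ideal.Quotient.mk 𝔞 u = Ideal.Quotient.mk 𝔞 v := congrArg Prod.fst hxy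
    have h2 : Ideal.Quotient.mk 𝔟 u = Ideal.Quotient.mk 𝔟 v := congrArg Prod.snd hxy
    rw [Ideal.Quotient.eq] at h1 h2 ⊢
    exact ⟨h1, h2⟩
  have hfinP : Finite (Lam 𝒪 ⧸ 𝔞 ⊓ 𝔟) := Finite.of_injective _ hinj
  have hfinC : Finite (Lam 𝒪 ⧸ 𝔞 ⊔ 𝔟) :=
    Finite.of_surjective _ (Ideal.Quotient.factor_surjective (le_sup_left : 𝔞 ≤ 𝔞 ⊔ 𝔟))
  have hlocP : IsLocalRing (Lam 𝒪 ⧸ 𝔞 ⊓ 𝔟) := F.isLocalRing_quot hP1 hP2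
  have hlocC : IsLocalRing (Lam 𝒪 ⧸ 𝔞 ⊔ 𝔟) := F.isLocalRing_quot hC1 hC2
  have hA : IsArtinianTestAlgebra 𝒪 (Lam 𝒪 ⧸ 𝔞) := F.isArtinianTestAlgebra_quot ha1
  have hB : IsArtinianTestAlgebra 𝒪 (Lam 𝒪 ⧸ 𝔟) := F.isArtinianTestAlgebra_quot hb1
  have hC : IsArtinianTestAlgebra 𝒪 (Lam 𝒪 ⧸ 𝔞 ⊔ 𝔟) := F.isArtinianTestAlgebra_quot hC1
  have hP : IsArtinianTestAlgebra 𝒪 (Lam 𝒪 ⧸ 𝔞 ⊓ 𝔟) := F.isArtinianTestAlgebra_quot hP1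
  have hpA : IsLocalHom (pA : (Lam 𝒪 ⧸ 𝔞 ⊓ 𝔟) →+* (Lam 𝒪 ⧸ 𝔞)) :=
    isLocalHom_of_algHom 𝒪 hA.residue_surjective hA.isLocalHom pA
  have hpB : IsLocalHom (pB : (Lam 𝒪 ⧸ 𝔞 ⊓ 𝔟) →+* (Lam 𝒪 ⧸ 𝔟)) :=
    isLocalHom_of_algHom 𝒪 hB.residue_surjective hB.isLocalHom pB
  -- the tautological matrices mod `𝔞 ⊓ 𝔟` form a continuous representation
  have hone : tautQ (𝔞 ⊓ 𝔟) 1 = 1 := by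
    rw [tautQ_eq_one_iff] at honea honeb ⊢
    exact fun i j => ⟨honea i j, honeb i j⟩
  have hmul : ∀ σ τ : GQ, tautQ (𝔞 ⊓ 𝔟) (σ * τ) = tautQ (𝔞 ⊓ 𝔟) σ * tautQ (𝔞 ⊓ 𝔟) τ := by
    intro σ τ
    have h1 := hmula σ τ
    have h2 := hmulb σ τ
    rw [tautQ_mul_iff] at h1 h2 ⊢
    exact fun i j => ⟨h1 i j, h2 i j⟩
  have hlevel : ∃ L : IntermediateField ℚ (AlgebraicClosure ℚ), FiniteDimensional ℚ L ∧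
      ∀ σ : GQ, (∀ x ∈ L, σ x = x) → tautQ (𝔞 ⊓ 𝔟) σ = 1 := by
    refine ⟨La ⊔ Lb, IntermediateField.finiteDimensional_sup La Lb, fun σ hσ => ?_⟩
    have h1 := hLa' σ (fun x hx => hσ x ((le_sup_left : La ≤ La ⊔ Lb) hx))
    have h2 := hLb' σ (fun x hx => hσ x ((le_sup_right : Lb ≤ La ⊔ Lb) hx))
    rw [tautQ_eq_one_iff] at h1 h2 ⊢
    exact fun i j => ⟨h1 i j, h2 i j⟩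
  obtain ⟨ρP, hmP⟩ := exists_rep_of_matrix (tautQ (𝔞 ⊓ 𝔟)) hone hmul (matCont_of_level hlevel)
  -- rigidity
  have hrigP : IsRigid F.rt F.g0 F.g1 F.i0 F.j0 (tautQ (𝔞 ⊓ 𝔟)) := by
    rw [F.isRigid_tautQ_iff ha1] at hriga
    rw [F.isRigid_tautQ_iff hb1] at hrigb
    rw [F.isRigid_tautQ_iff hP1]
    exact ⟨⟨hriga.1, hrigb.1⟩, ⟨hriga.2.1, hrigb.2.1⟩, ⟨hriga.2.2, hrigb.2.2⟩⟩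
  -- type `𝒟` of the two projections
  have hmPA : HasMatrix (ρP.baseChangeAlong (pA : (Lam 𝒪 ⧸ 𝔞 ⊓ 𝔟) →+* (Lam 𝒪 ⧸ 𝔞)) hpA)
      (tautQ 𝔞) := by
    have h := hmP.baseChangeAlong (pA : (Lam 𝒪 ⧸ 𝔞 ⊓ 𝔟) →+* (Lam 𝒪 ⧸ 𝔞)) hpA
    have e : (fun σ => (tautQ (𝔞 ⊓ 𝔟) σ).map (pA : (Lam 𝒪 ⧸ 𝔞 ⊓ 𝔟) →+* (Lam 𝒪 ⧸ 𝔞))) =
        tautQ 𝔞 := funext fun σ => tautQ_map_factor (inf_le_left : 𝔞 ⊓ 𝔟 ≤ 𝔞) σ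
    rwa [e] at h
  have hmPB : HasMatrix (ρP.baseChangeAlong (pB : (Lam 𝒪 ⧸ 𝔞 ⊓ 𝔟) →+* (Lam 𝒪 ⧸ 𝔟)) hpB)
      (tautQ 𝔟) := by
    have h := hmP.baseChangeAlong (pB : (Lam 𝒪 ⧸ 𝔞 ⊓ 𝔟) →+* (Lam 𝒪 ⧸ 𝔟)) hpB
    have e : (fun σ => (tautQ (𝔞 ⊓ 𝔟) σ).map (pB : (Lam 𝒪 ⧸ 𝔞 ⊓ 𝔟) →+* (Lam 𝒪 ⧸ 𝔟))) =
        tautQ 𝔟 := funext fun σ => tautQ_map_factor (inf_le_right : 𝔞 ⊓ 𝔟 ≤ 𝔟) σ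
    rwa [e] at h
  have hDA : 𝒟 (ρP.baseChangeAlong (pA : (Lam 𝒪 ⧸ 𝔞 ⊓ 𝔟) →+* (Lam 𝒪 ⧸ 𝔞)) hpA) :=
    h𝒟.of_isEquiv hA (hmA.isEquiv hmPA) hρA
  have hDB : 𝒟 (ρP.baseChangeAlong (pB : (Lam 𝒪 ⧸ 𝔞 ⊓ 𝔟) →+* (Lam 𝒪 ⧸ 𝔟)) hpB) :=
    h𝒟.of_isEquiv hB (hmB.isEquiv hmPB) hρB
  -- the fibre-product property of the square
  have hcomm : f.comp pA = g.comp pB := by
    simp only [pA, pB, f, g, Ideal.Quotient.factorₐ_comp]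
  have hsurj : ∀ (a : Lam 𝒪 ⧸ 𝔞) (b : Lam 𝒪 ⧸ 𝔟), f a = g b → ∃ x, pA x = a ∧ pB x = b := by
    intro a b hab
    obtain ⟨u, rfl⟩ := Ideal.Quotient.mk_surjective a
    obtain ⟨v, rfl⟩ := Ideal.Quotient.mk_surjective b
    have h1 : Ideal.Quotient.mk (𝔞 ⊔ 𝔟) u = Ideal.Quotient.mk (𝔞 ⊔ 𝔟) v := hab
    rw [Ideal.Quotient.eq, Submodule.mem_sup] at h1
    obtain ⟨s, hs, t, ht, hst⟩ := h1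
    refine ⟨Ideal.Quotient.mk (𝔞 ⊓ 𝔟) (u - s), ?_, ?_⟩
    · change Ideal.Quotient.mk 𝔞 (u - s) = Ideal.Quotient.mk 𝔞 u
      rw [Ideal.Quotient.eq]
      have : u - s - u = -s := by ring
      rw [this]
      exact 𝔞.neg_mem hs
    · change Ideal.Quotient.mk 𝔟 (u - s) = Ideal.Quotient.mk 𝔟 v
      rw [Ideal.Quotient.eq]
      have : u - s - v = t := by linear_combination -hst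
      rw [this]
      exact ht
  have hDP : 𝒟 ρP :=
    h𝒟.of_fibreProduct hA hB hC hP f g pA pB hpA hpB hcomm hinj hsurj hDA hDB
  exact ⟨hP1, ⟨max Na Nb, hP2⟩, hfinP, hlocP, hrigP, ρP, hDP, hmP⟩

end GI

end Fermat.Agent.S53
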