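import Mathlib
import Fermat.Agent.S53.Good

/-!
# S53 — task GK-ker: the two basic sources of good ideals (helper89)

* `Frame.good_mLam` : the maximal ideal `mLam` itself is good (the residual representation);
* `Frame.good_ker`  : the kernel of the evaluation at a rigid deformation over a finite
  Artinian test algebra is good.
-/

set_option autoImplicit false

namespace Fermat.Agent.S53

open IsLocalRing GaloisRep

section GK

variable {𝒪 : Type} [CommRing 𝒪] [IsLocalRing 𝒪]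
  {𝒟 : ∀ ⦃A : Type⦄ [CommRing A] [IsLocalRing A] [Algebra 𝒪 A], GaloisRepAdic A → Prop}
  {F : Frame 𝒪}

/-- The residue field of `𝒪` is an Artinian test algebra. -/
lemma gk_isArtinianTestAlgebra_residueField :
    IsArtinianTestAlgebra 𝒪 (ResidueField 𝒪) where
  isLocalHom := by
    refine ⟨fun c hc => ?_⟩
    by_contra hcu
    have hc' : c ∈ maximalIdeal 𝒪 := (IsLocalRing.mem_maximalIdeal c).mpr hcu
    have h0 : algebraMap 𝒪 (ResidueField 𝒪) c = 0 :=
      (IsLocalRing.residue_eq_zero_iff c).mpr hc'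
    rw [h0] at hc
    exact not_isUnit_zero hc
  residue_surjective := by
    intro y
    obtain ⟨z, rfl⟩ := IsLocalRing.residue_surjective y
    obtain ⟨c, rfl⟩ := IsLocalRing.residue_surjective z
    exact ⟨c, rfl⟩
  isArtinian := inferInstance

/-- Residue of the evaluation at a matrix family reducing to the frame. -/
lemma Frame.gk_residue_evMat {A : Type} [CommRing A] [IsLocalRing A] [Algebra 𝒪 A]
    [IsLocalHom (algebraMap 𝒪 A)] {r : GQ → Matrix (Fin 2) (Fin 2) A}
    (hres : ∀ σ i j, r σ i j - algebraMap 𝒪 A (F.rt σ i j) ∈ maximalIdeal A) (x : Lam 𝒪) :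
    residue A ((evMat r : Lam 𝒪 →ₐ[𝒪] A) x) =
      ResidueField.map (algebraMap 𝒪 A) (F.evk x) := by
  have key : (residue A).comp ((evMat r : Lam 𝒪 →ₐ[𝒪] A) : Lam 𝒪 →+* A) =
      (ResidueField.map (algebraMap 𝒪 A)).comp ((F.evk : Lam 𝒪 →ₐ[𝒪] ResidueField 𝒪) :
        Lam 𝒪 →+* ResidueField 𝒪) := by
    apply MvPolynomial.ringHom_ext
    · intro c
      simp only [RingHom.comp_apply, AlgHom.coe_toRingHom]
      rw [F.evk_C, ← MvPolynomial.algebraMap_eq, AlgHom.commutes, ResidueField.map_residue]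
    · rintro ⟨σ, i, j⟩
      simp only [RingHom.comp_apply, AlgHom.coe_toRingHom]
      rw [F.evk_X, evMat_X, ResidueField.map_residue]
      have h := hres σ i j
      rw [← IsLocalRing.residue_eq_zero_iff, map_sub, sub_eq_zero] at h
      exact h
  exact RingHom.congr_fun key x

/-- The kernel of the evaluation at a rigid deformation over a finite Artinian test algebra is
a good ideal. -/
theorem Frame.good_ker (h𝒟 : IsDeformationCondition 𝒪 𝒟)
    {A : Type} [CommRing A] [IsLocalRing A] [Algebra 𝒪 A] [Finite A]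
    (hA : IsArtinianTestAlgebra 𝒪 A) {r : GQ → Matrix (Fin 2) (Fin 2) A}
    (hr : F.IsDefo 𝒟 A r) : F.Good 𝒟 (RingHom.ker (evMat r : Lam 𝒪 →ₐ[𝒪] A)) := by
  have := hA.isLocalHom
  have hres := hr.1.res
  -- the kernel is contained in `mLam`
  have h1 : RingHom.ker (evMat r : Lam 𝒪 →ₐ[𝒪] A) ≤ F.mLam := by
    intro x hx
    rw [RingHom.mem_ker] at hx
    rw [F.mem_mLam]
    have h := F.gk_residue_evMat hres x
    rw [hx, map_zero] at h
    exact (map_eq_zero (ResidueField.map (algebraMap 𝒪 A))).mp h.symm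
  -- `mLam` maps into the maximal ideal of `A`
  have hmax : F.mLam ≤ (maximalIdeal A).comap (evMat r : Lam 𝒪 →ₐ[𝒪] A) := by
    intro x hx
    rw [F.mem_mLam] at hx
    rw [Ideal.mem_comap, ← IsLocalRing.residue_eq_zero_iff, F.gk_residue_evMat hres x, hx,
      map_zero]
  -- a power of `mLam` is contained in the kernel
  have h2 : ∃ N : ℕ, F.mLam ^ N ≤ RingHom.ker (evMat r : Lam 𝒪 →ₐ[𝒪] A) := by
    have := hA.isArtinian
    obtain ⟨N, hN⟩ := IsArtinianRing.isNilpotent_jacobson_bot (R := A)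
    rw [IsLocalRing.jacobson_eq_maximalIdeal ⊥ bot_ne_top] at hN
    refine ⟨N, ?_⟩
    intro x hx
    have h3 : x ∈ ((maximalIdeal A).comap (evMat r : Lam 𝒪 →ₐ[𝒪] A)) ^ N :=
      Ideal.pow_right_mono hmax N hx
    have h4 := Ideal.le_comap_pow (evMat r : Lam 𝒪 →ₐ[𝒪] A) N h3
    rw [hN, Ideal.zero_eq_bot] at h4
    rw [RingHom.mem_ker]
    simpa using h4
  obtain ⟨N, hN⟩ := h2
  have hinj : Function.Injective (Ideal.kerLiftAlg (evMat r : Lam 𝒪 →ₐ[𝒪] A)) :=
    Ideal.kerLiftAlg_injective _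
  have hfin : Finite (Lam 𝒪 ⧸ RingHom.ker (evMat r : Lam 𝒪 →ₐ[𝒪] A)) :=
    Finite.of_injective _ hinj
  have hloc : IsLocalRing (Lam 𝒪 ⧸ RingHom.ker (evMat r : Lam 𝒪 →ₐ[𝒪] A)) :=
    F.isLocalRing_quot h1 hN
  refine ⟨h1, ⟨N, hN⟩, hfin, hloc, ?_⟩
  refine Frame.IsDefo.of_injective h𝒟 (F.isArtinianTestAlgebra_quot h1) hA
    (Ideal.kerLiftAlg (evMat r : Lam 𝒪 →ₐ[𝒪] A)) hinj ?_
  have hmap : (fun σ => (tautQ (RingHom.ker (evMat r : Lam 𝒪 →ₐ[𝒪] A)) σ).map
      (Ideal.kerLiftAlg (evMat r : Lam 𝒪 →ₐ[𝒪] A))) = r := by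
    funext σ
    ext i j
    rw [Matrix.map_apply, tautQ_apply, Ideal.kerLiftAlg_mk, evMat_X]
  rw [hmap]
  exact hr

/-- The maximal ideal `mLam` is good: the residual representation is a rigid deformation of
type `𝒟` over the residue field. -/
theorem Frame.good_mLam [Finite (ResidueField 𝒪)] (h𝒟 : IsDeformationCondition 𝒪 𝒟)
    (ρbar : ResidualGaloisRep (ResidueField 𝒪))
    (hmat : HasMatrixRes ρbar (fun σ => (F.rt σ).map (residue 𝒪)))
    (hbar : 𝒟 (GaloisRepAdic.ofResidualGaloisRep ρbar)) : F.Good 𝒟 F.mLam := by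
  have hk : IsArtinianTestAlgebra 𝒪 (ResidueField 𝒪) := gk_isArtinianTestAlgebra_residueField
  have hm : HasMatrix (GaloisRepAdic.ofResidualGaloisRep ρbar)
      (fun σ => (F.rt σ).map (residue 𝒪)) := hasMatrix_ofResidualGaloisRep hmat
  have hrig : F.IsDefo 𝒟 (ResidueField 𝒪) (fun σ => (F.rt σ).map (residue 𝒪)) := by
    refine ⟨⟨?_, ?_, ?_, ?_⟩, _, hbar, hm⟩
    · intro σ i j
      rw [Matrix.map_apply]
      have : residue 𝒪 (F.rt σ i j) - algebraMap 𝒪 (ResidueField 𝒪) (F.rt σ i j) = 0 :=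
        sub_self _
      rw [this]
      exact Ideal.zero_mem _
    · rw [Matrix.map_apply]
      exact (IsLocalRing.residue_eq_zero_iff _).mpr F.h00
    · rw [Matrix.map_apply]
      have := (IsLocalRing.residue_eq_zero_iff _).mpr F.h10
      rw [map_sub, map_one, sub_eq_zero] at this
      exact this
    · rw [Matrix.map_apply]
      rfl
  exact Frame.good_ker h𝒟 hk hrig

end GK

end Fermat.Agent.S53
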