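import Mathlib

/-!
# S53, task TJ — the tower of least good ideals (owner: helper55)

Pure commutative algebra.  `Λ` is an `𝒪`-algebra with a maximal ideal `𝔪` whose residue field is
hit by `𝒪`; `Good` is a family of ideals between a power of `𝔪` and `𝔪`, upward closed below `𝔪`
and closed under binary intersection, whose cotangent spaces are uniformly generated by finitely
many `t i`.  Then for every `n ≥ 1` there is a least good ideal `J n` containing `𝔪 ^ n`.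
-/

set_option autoImplicit false

namespace Fermat.Agent.S53

open IsLocalRing

section GoodTower

variable {𝒪 : Type} [CommRing 𝒪]
variable {Λ : Type} [CommRing Λ] [Algebra 𝒪 Λ]

/-- Products of elements of `I ⊔ 𝔞` and `I' ⊔ 𝔞` lie in `I * I' ⊔ 𝔞`. -/
private lemma gt_mul_mem_sup {I I' 𝔞 : Ideal Λ} {x y : Λ} (hx : x ∈ I ⊔ 𝔞) (hy : y ∈ I' ⊔ 𝔞) :
    x * y ∈ I * I' ⊔ 𝔞 := by
  obtain ⟨x1, hx1, x2, hx2, rfl⟩ := Submodule.mem_sup.1 hx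
  obtain ⟨y1, hy1, y2, hy2, rfl⟩ := Submodule.mem_sup.1 hy
  have h1 : x1 * y1 ∈ I * I' := Ideal.mul_mem_mul hx1 hy1
  have h2 : x1 * y2 + x2 * (y1 + y2) ∈ 𝔞 :=
    𝔞.add_mem (𝔞.mul_mem_left _ hy2) (𝔞.mul_mem_right _ hx2)
  have : (x1 + x2) * (y1 + y2) = x1 * y1 + (x1 * y2 + x2 * (y1 + y2)) := by ring
  rw [this]
  exact Submodule.add_mem_sup h1 h2

/-- Elements of `𝔪` are polynomials in the `t i` with coefficients from `𝒪`, modulo `𝔪 ^ 2 ⊔ 𝔞`. -/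
private lemma gt_step_one (𝔪 𝔞 : Ideal Λ)
    (hres : Function.Surjective (Ideal.Quotient.mk 𝔪 ∘ algebraMap 𝒪 Λ))
    (d : ℕ) (t : Fin d → Λ) (ht : ∀ i, t i ∈ 𝔪)
    (h5 : 𝔪 ≤ Ideal.span (Set.range t) ⊔ 𝔪 ^ 2 ⊔ 𝔞) (x : Λ) (hx : x ∈ 𝔪) :
    ∃ f : MvPolynomial (Fin d) 𝒪, x - MvPolynomial.aeval t f ∈ 𝔪 ^ 2 ⊔ 𝔞 := by
  obtain ⟨u', hu', w, hw, rfl⟩ := Submodule.mem_sup.1 (h5 hx)
  obtain ⟨u, hu, v, hv, rfl⟩ := Submodule.mem_sup.1 hu'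
  obtain ⟨c, rfl⟩ := Ideal.mem_span_range_iff_exists_fun.1 hu
  have hch : ∀ i, ∃ a : 𝒪, c i - algebraMap 𝒪 Λ a ∈ 𝔪 := by
    intro i
    obtain ⟨a, ha⟩ := hres (Ideal.Quotient.mk 𝔪 (c i))
    refine ⟨a, ?_⟩
    rw [← Ideal.Quotient.eq]
    exact ha.symm
  choose a ha using hch
  refine ⟨∑ i, MvPolynomial.C (a i) * MvPolynomial.X i, ?_⟩
  have hev : MvPolynomial.aeval t (∑ i, MvPolynomial.C (a i) * MvPolynomial.X i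
      : MvPolynomial (Fin d) 𝒪) = ∑ i, algebraMap 𝒪 Λ (a i) * t i := by
    simp [map_sum, MvPolynomial.aeval_X]
  rw [hev]
  have hsum : ∑ i, (c i - algebraMap 𝒪 Λ (a i)) * t i ∈ 𝔪 ^ 2 := by
    refine Ideal.sum_mem _ fun i _ => ?_
    rw [pow_two]
    exact Ideal.mul_mem_mul (ha i) (ht i)
  have heq : (∑ i, c i * t i + v + w) - ∑ i, algebraMap 𝒪 Λ (a i) * t i
      = (∑ i, (c i - algebraMap 𝒪 Λ (a i)) * t i + v) + w := by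
    simp only [sub_mul, Finset.sum_sub_distrib]
    ring
  rw [heq]
  exact Submodule.add_mem_sup ((𝔪 ^ 2).add_mem hsum hv) hw

/-- Elements of `𝔪 ^ j` are polynomials in the `t i`, modulo `𝔪 ^ (j + 1) ⊔ 𝔞`. -/
private lemma gt_step (𝔪 𝔞 : Ideal Λ)
    (hres : Function.Surjective (Ideal.Quotient.mk 𝔪 ∘ algebraMap 𝒪 Λ))
    (d : ℕ) (t : Fin d → Λ) (ht : ∀ i, t i ∈ 𝔪)
    (h5 : 𝔪 ≤ Ideal.span (Set.range t) ⊔ 𝔪 ^ 2 ⊔ 𝔞) (j : ℕ) :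
    ∀ x ∈ 𝔪 ^ (j + 1), ∃ f : MvPolynomial (Fin d) 𝒪,
      x - MvPolynomial.aeval t f ∈ 𝔪 ^ (j + 2) ⊔ 𝔞 := by
  induction j with
  | zero =>
    intro x hx
    rw [zero_add, pow_one] at hx
    exact gt_step_one 𝔪 𝔞 hres d t ht h5 x hx
  | succ j ih =>
    intro x hx
    rw [pow_succ] at hx
    refine Submodule.mul_induction_on hx ?_ ?_
    · intro a ha b hb
      obtain ⟨fa, hfa⟩ := ih a ha
      obtain ⟨fb, hfb⟩ := gt_step_one 𝔪 𝔞 hres d t ht h5 b hb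
      refine ⟨fa * fb, ?_⟩
      rw [map_mul]
      have hb' : b ∈ 𝔪 ⊔ 𝔞 := Submodule.mem_sup_left hb
      have h1 : (a - MvPolynomial.aeval t fa) * b ∈ 𝔪 ^ (j + 2) * 𝔪 ⊔ 𝔞 :=
        gt_mul_mem_sup hfa hb'
      have hfa' : MvPolynomial.aeval t fa ∈ 𝔪 ^ (j + 1) ⊔ 𝔞 := by
        have h2 : a ∈ 𝔪 ^ (j + 1) ⊔ 𝔞 := Submodule.mem_sup_left ha
        have h3 : a - MvPolynomial.aeval t fa ∈ 𝔪 ^ (j + 1) ⊔ 𝔞 :=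
          (sup_le_sup_right (Ideal.pow_le_pow_right (Nat.le_succ _)) 𝔞) hfa
        have := (𝔪 ^ (j + 1) ⊔ 𝔞).sub_mem h2 h3
        simpa using this
      have h2 : MvPolynomial.aeval t fa * (b - MvPolynomial.aeval t fb)
          ∈ 𝔪 ^ (j + 1) * 𝔪 ^ 2 ⊔ 𝔞 := gt_mul_mem_sup hfa' hfb
      have e1 : 𝔪 ^ (j + 2) * 𝔪 = 𝔪 ^ (j + 1 + 2) := by rw [← pow_succ]
      have e2 : 𝔪 ^ (j + 1) * 𝔪 ^ 2 = 𝔪 ^ (j + 1 + 2) := by rw [← pow_add]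
      rw [e1] at h1
      rw [e2] at h2
      have heq : a * b - MvPolynomial.aeval t fa * MvPolynomial.aeval t fb
          = (a - MvPolynomial.aeval t fa) * b
            + MvPolynomial.aeval t fa * (b - MvPolynomial.aeval t fb) := by ring
      rw [heq]
      exact Ideal.add_mem _ h1 h2
    · intro x y ⟨fx, hfx⟩ ⟨fy, hfy⟩
      refine ⟨fx + fy, ?_⟩
      rw [map_add]
      have heq : x + y - (MvPolynomial.aeval t fx + MvPolynomial.aeval t fy)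
          = (x - MvPolynomial.aeval t fx) + (y - MvPolynomial.aeval t fy) := by ring
      rw [heq]
      exact Ideal.add_mem _ hfx hfy

/-- Every element of `Λ` is a polynomial in the `t i`, modulo `𝔪 ^ (j + 1) ⊔ 𝔞`. -/
private lemma gt_approx (𝔪 𝔞 : Ideal Λ)
    (hres : Function.Surjective (Ideal.Quotient.mk 𝔪 ∘ algebraMap 𝒪 Λ))
    (d : ℕ) (t : Fin d → Λ) (ht : ∀ i, t i ∈ 𝔪)
    (h5 : 𝔪 ≤ Ideal.span (Set.range t) ⊔ 𝔪 ^ 2 ⊔ 𝔞) (j : ℕ) (x : Λ) :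
    ∃ f : MvPolynomial (Fin d) 𝒪, x - MvPolynomial.aeval t f ∈ 𝔪 ^ (j + 1) ⊔ 𝔞 := by
  induction j with
  | zero =>
    obtain ⟨a, ha⟩ := hres (Ideal.Quotient.mk 𝔪 x)
    refine ⟨MvPolynomial.C a, ?_⟩
    rw [MvPolynomial.aeval_C, zero_add, pow_one]
    refine Submodule.mem_sup_left ?_
    rw [← Ideal.Quotient.eq]
    exact ha.symm
  | succ j ih =>
    obtain ⟨f, hf⟩ := ih
    obtain ⟨y, hy, z, hz, hyz⟩ := Submodule.mem_sup.1 hf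
    obtain ⟨f', hf'⟩ := gt_step 𝔪 𝔞 hres d t ht h5 j y hy
    refine ⟨f + f', ?_⟩
    rw [map_add]
    have heq : x - (MvPolynomial.aeval t f + MvPolynomial.aeval t f')
        = (y - MvPolynomial.aeval t f') + z := by
      rw [← sub_sub, ← hyz]; ring
    rw [heq]
    exact Ideal.add_mem _ hf' (Submodule.mem_sup_right hz)

/-- The polynomial ring surjects onto `Λ ⧸ 𝔞` as soon as `𝔞` contains a power of `𝔪`. -/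
private lemma gt_surj (𝔪 𝔞 : Ideal Λ)
    (hres : Function.Surjective (Ideal.Quotient.mk 𝔪 ∘ algebraMap 𝒪 Λ))
    (d : ℕ) (t : Fin d → Λ) (ht : ∀ i, t i ∈ 𝔪)
    (h5 : 𝔪 ≤ Ideal.span (Set.range t) ⊔ 𝔪 ^ 2 ⊔ 𝔞) (N : ℕ) (hN : 𝔪 ^ N ≤ 𝔞) :
    Function.Surjective ((Ideal.Quotient.mk 𝔞).comp
      (MvPolynomial.aeval t : MvPolynomial (Fin d) 𝒪 →ₐ[𝒪] Λ).toRingHom) := by
  intro y
  obtain ⟨x, rfl⟩ := Ideal.Quotient.mk_surjective y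
  obtain ⟨f, hf⟩ := gt_approx 𝔪 𝔞 hres d t ht h5 N x
  refine ⟨f, ?_⟩
  have h1 : 𝔪 ^ (N + 1) ⊔ 𝔞 ≤ 𝔞 :=
    sup_le ((Ideal.pow_le_pow_right (Nat.le_succ N)).trans hN) le_rfl
  have h2 : x - MvPolynomial.aeval t f ∈ 𝔞 := h1 hf
  rw [RingHom.comp_apply]
  exact (Ideal.Quotient.eq.2 h2).symm

/-- The residue field `Λ ⧸ 𝔪` is finite. -/
private lemma gt_finite_quot [IsLocalRing 𝒪] [Finite (IsLocalRing.ResidueField 𝒪)]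
    (𝔪 : Ideal Λ) [𝔪.IsMaximal]
    (hres : Function.Surjective (Ideal.Quotient.mk 𝔪 ∘ algebraMap 𝒪 Λ)) :
    Finite (Λ ⧸ 𝔪) := by
  let _ : Field (Λ ⧸ 𝔪) := Ideal.Quotient.field 𝔪
  let g : 𝒪 →+* Λ ⧸ 𝔪 := (Ideal.Quotient.mk 𝔪).comp (algebraMap 𝒪 Λ)
  have hg : Function.Surjective g := hres
  have hker : RingHom.ker g = maximalIdeal 𝒪 :=
    IsLocalRing.eq_maximalIdeal (RingHom.ker_isMaximal_of_surjective g hg)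
  have h0 : ∀ a ∈ maximalIdeal 𝒪, g a = 0 := fun a ha => by
    rw [← hker] at ha; exact ha
  have hs : Function.Surjective (Ideal.Quotient.lift (maximalIdeal 𝒪) g h0) :=
    Ideal.Quotient.lift_surjective_of_surjective _ h0 hg
  have : Finite (𝒪 ⧸ maximalIdeal 𝒪) := ‹Finite (IsLocalRing.ResidueField 𝒪)›
  exact Finite.of_surjective _ hs

/-- Uniform bound for the size of `Λ ⧸ 𝔞`, `𝔞` containing `𝔪 ^ n` with cotangent space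
generated by the `t i`. -/
private lemma gt_card_le [IsNoetherianRing 𝒪] [IsLocalRing 𝒪]
    [Finite (IsLocalRing.ResidueField 𝒪)]
    (𝔪 : Ideal Λ) [𝔪.IsMaximal]
    (hres : Function.Surjective (Ideal.Quotient.mk 𝔪 ∘ algebraMap 𝒪 Λ))
    (d : ℕ) (t : Fin d → Λ) (ht : ∀ i, t i ∈ 𝔪) (n : ℕ) :
    ∃ C : ℕ, ∀ 𝔞 : Ideal Λ, 𝔪 ≤ Ideal.span (Set.range t) ⊔ 𝔪 ^ 2 ⊔ 𝔞 → 𝔪 ^ n ≤ 𝔞 →
      Finite (Λ ⧸ 𝔞) ∧ Nat.card (Λ ⧸ 𝔞) ≤ C := by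
  let φ : MvPolynomial (Fin d) 𝒪 →+* Λ :=
    (MvPolynomial.aeval t : MvPolynomial (Fin d) 𝒪 →ₐ[𝒪] Λ).toRingHom
  let 𝔫 : Ideal (MvPolynomial (Fin d) 𝒪) := 𝔪.comap φ
  have hfin𝔪 : Finite (Λ ⧸ 𝔪) := gt_finite_quot 𝔪 hres
  have : Finite (MvPolynomial (Fin d) 𝒪 ⧸ 𝔫) :=
    Finite.of_injective _ (Ideal.quotientMap_injective (I := 𝔪) (f := φ))
  have hfg : 𝔫.FG := IsNoetherian.noetherian 𝔫
  have : Finite (MvPolynomial (Fin d) 𝒪 ⧸ 𝔫 ^ n) := Ideal.finite_quotient_pow hfg n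
  refine ⟨Nat.card (MvPolynomial (Fin d) 𝒪 ⧸ 𝔫 ^ n), fun 𝔞 h5 hn => ?_⟩
  have h0 : ∀ f ∈ 𝔫 ^ n, ((Ideal.Quotient.mk 𝔞).comp φ) f = 0 := by
    intro f hf
    rw [RingHom.comp_apply, Ideal.Quotient.eq_zero_iff_mem]
    have h1 : φ f ∈ Ideal.map φ (𝔫 ^ n) := Ideal.mem_map_of_mem φ hf
    rw [Ideal.map_pow] at h1
    exact hn (Ideal.pow_right_mono Ideal.map_comap_le n h1)
  have hs : Function.Surjective (Ideal.Quotient.lift (𝔫 ^ n) ((Ideal.Quotient.mk 𝔞).comp φ) h0) :=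
    Ideal.Quotient.lift_surjective_of_surjective _ h0 (gt_surj 𝔪 𝔞 hres d t ht h5 n hn)
  exact ⟨Finite.of_surjective _ hs, Nat.card_le_card_of_surjective _ hs⟩

/-- Existence of the least good ideal containing `𝔪 ^ n`. -/
private lemma gt_exists_least [IsNoetherianRing 𝒪] [IsLocalRing 𝒪]
    [Finite (IsLocalRing.ResidueField 𝒪)]
    (𝔪 : Ideal Λ) [𝔪.IsMaximal]
    (hres : Function.Surjective (Ideal.Quotient.mk 𝔪 ∘ algebraMap 𝒪 Λ))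
    (Good : Ideal Λ → Prop)
    (hG0 : Good 𝔪)
    (hG3 : ∀ 𝔞 𝔟, Good 𝔞 → Good 𝔟 → Good (𝔞 ⊓ 𝔟))
    (d : ℕ) (t : Fin d → Λ) (ht : ∀ i, t i ∈ 𝔪)
    (hG5 : ∀ 𝔞, Good 𝔞 → 𝔪 ≤ Ideal.span (Set.range t) ⊔ 𝔪 ^ 2 ⊔ 𝔞)
    (n : ℕ) (hn : 1 ≤ n) :
    ∃ 𝔞' : Ideal Λ, Good 𝔞' ∧ 𝔪 ^ n ≤ 𝔞' ∧ ∀ 𝔞, Good 𝔞 → 𝔪 ^ n ≤ 𝔞 → 𝔞' ≤ 𝔞 := by
  obtain ⟨C, hC⟩ := gt_card_le (𝒪 := 𝒪) 𝔪 hres d t ht n
  let s : Set ℕ := {c | ∃ 𝔞, Good 𝔞 ∧ 𝔪 ^ n ≤ 𝔞 ∧ Nat.card (Λ ⧸ 𝔞) = c}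
  have hne : s.Nonempty :=
    ⟨_, 𝔪, hG0, Ideal.pow_le_self (Nat.one_le_iff_ne_zero.1 hn), rfl⟩
  have hbdd : BddAbove s := by
    refine ⟨C, ?_⟩
    rintro c ⟨𝔞, hg, hle, rfl⟩
    exact (hC 𝔞 (hG5 𝔞 hg) hle).2
  obtain ⟨𝔞', hg', hle', hcard'⟩ := Nat.sSup_mem hne hbdd
  refine ⟨𝔞', hg', hle', fun 𝔞 hg hle => ?_⟩
  have hg'' : Good (𝔞 ⊓ 𝔞') := hG3 𝔞 𝔞' hg hg'
  have hle'' : 𝔪 ^ n ≤ 𝔞 ⊓ 𝔞' := le_inf hle hle'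
  have hmem : Nat.card (Λ ⧸ (𝔞 ⊓ 𝔞')) ∈ s := ⟨_, hg'', hle'', rfl⟩
  have hcard : Nat.card (Λ ⧸ (𝔞 ⊓ 𝔞')) ≤ Nat.card (Λ ⧸ 𝔞') := by
    rw [hcard']
    exact le_csSup hbdd hmem
  have : Finite (Λ ⧸ (𝔞 ⊓ 𝔞')) := (hC _ (hG5 _ hg'') hle'').1
  have hbij : Function.Bijective (Ideal.Quotient.factor (inf_le_right : 𝔞 ⊓ 𝔞' ≤ 𝔞')) :=
    (Ideal.Quotient.factor_surjective _).bijective_of_nat_card_le hcard
  intro x hx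
  have h1 : Ideal.Quotient.factor (inf_le_right : 𝔞 ⊓ 𝔞' ≤ 𝔞')
      (Ideal.Quotient.mk (𝔞 ⊓ 𝔞') x) = 0 := by
    rw [Ideal.Quotient.factor_mk, Ideal.Quotient.eq_zero_iff_mem]
    exact hx
  have h2 : Ideal.Quotient.mk (𝔞 ⊓ 𝔞') x = 0 := hbij.1 (by rw [h1, map_zero])
  exact (Ideal.Quotient.eq_zero_iff_mem.1 h2).1

end GoodTower

/-- **Task TJ.**  The tower of least good ideals `J n ⊇ 𝔪 ^ n`. -/
theorem exists_good_tower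
    {𝒪 : Type} [CommRing 𝒪] [IsNoetherianRing 𝒪] [IsLocalRing 𝒪]
    [Finite (IsLocalRing.ResidueField 𝒪)]
    {Λ : Type} [CommRing Λ] [Algebra 𝒪 Λ] (𝔪 : Ideal Λ) [𝔪.IsMaximal]
    (hres : Function.Surjective (Ideal.Quotient.mk 𝔪 ∘ algebraMap 𝒪 Λ))
    (Good : Ideal Λ → Prop)
    (hG0 : Good 𝔪)
    (hG1 : ∀ 𝔞, Good 𝔞 → 𝔞 ≤ 𝔪 ∧ ∃ N, 𝔪 ^ N ≤ 𝔞)
    (hG2 : ∀ 𝔞 𝔟, Good 𝔞 → 𝔞 ≤ 𝔟 → 𝔟 ≤ 𝔪 → Good 𝔟)
    (hG3 : ∀ 𝔞 𝔟, Good 𝔞 → Good 𝔟 → Good (𝔞 ⊓ 𝔟))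
    (d : ℕ) (t : Fin d → Λ) (ht : ∀ i, t i ∈ 𝔪)
    (hG5 : ∀ 𝔞, Good 𝔞 → 𝔪 ≤ Ideal.span (Set.range t) ⊔ 𝔪 ^ 2 ⊔ 𝔞) :
    ∃ J : ℕ → Ideal Λ, J 1 = 𝔪 ∧ (∀ n, 1 ≤ n → Good (J n)) ∧
      (∀ n, 1 ≤ n → J n = J (n + 1) ⊔ 𝔪 ^ n) ∧
      (∀ n 𝔞, Good 𝔞 → 𝔪 ^ n ≤ 𝔞 → J n ≤ 𝔞) ∧
      𝔪 = Ideal.span (Set.range t) ⊔ J 2 := by
  classical
  have key : ∀ n : ℕ, 1 ≤ n → ∃ 𝔞' : Ideal Λ, Good 𝔞' ∧ 𝔪 ^ n ≤ 𝔞' ∧
      ∀ 𝔞, Good 𝔞 → 𝔪 ^ n ≤ 𝔞 → 𝔞' ≤ 𝔞 :=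
    fun n hn => gt_exists_least (𝒪 := 𝒪) 𝔪 hres Good hG0 hG3 d t ht hG5 n hn
  let J : ℕ → Ideal Λ := fun n => if h : 1 ≤ n then (key n h).choose else ⊤
  have hJ : ∀ n (h : 1 ≤ n), Good (J n) ∧ 𝔪 ^ n ≤ J n ∧
      ∀ 𝔞, Good 𝔞 → 𝔪 ^ n ≤ 𝔞 → J n ≤ 𝔞 := by
    intro n h
    have : J n = (key n h).choose := dif_pos h
    rw [this]
    exact (key n h).choose_spec
  have hJle : ∀ n, 1 ≤ n → J n ≤ 𝔪 := fun n h => (hG1 _ (hJ n h).1).1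
  have hspan : Ideal.span (Set.range t) ≤ 𝔪 := by
    rw [Ideal.span_le]
    rintro _ ⟨i, rfl⟩
    exact ht i
  refine ⟨J, ?_, fun n h => (hJ n h).1, ?_, ?_, ?_⟩
  · refine le_antisymm (hJle 1 le_rfl) ?_
    have := (hJ 1 le_rfl).2.1
    rwa [pow_one] at this
  · intro n h
    have hn1 : 1 ≤ n + 1 := Nat.le_add_left 1 n
    have hpow : 𝔪 ^ n ≤ 𝔪 := Ideal.pow_le_self (Nat.one_le_iff_ne_zero.1 h)
    refine le_antisymm ?_ (sup_le ?_ (hJ n h).2.1)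
    · refine (hJ n h).2.2 _ (hG2 _ _ (hJ (n + 1) hn1).1 le_sup_left
        (sup_le (hJle _ hn1) hpow)) le_sup_right
    · exact (hJ (n + 1) hn1).2.2 _ (hJ n h).1
        ((Ideal.pow_le_pow_right (Nat.le_succ n)).trans (hJ n h).2.1)
  · intro n 𝔞 hg hle
    by_cases h : 1 ≤ n
    · exact (hJ n h).2.2 𝔞 hg hle
    · have hn0 : n = 0 := by omega
      subst hn0
      rw [pow_zero, Ideal.one_eq_top] at hle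
      exact le_top.trans hle
  · refine le_antisymm ?_ (sup_le hspan (hJle 2 (by norm_num)))
    have h5 := hG5 _ (hJ 2 (by norm_num)).1
    refine h5.trans (sup_le (sup_le le_sup_left ?_) le_sup_right)
    exact (hJ 2 (by norm_num)).2.1.trans le_sup_right

end Fermat.Agent.S53
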