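import Mathlib
import Fermat.Prelude.Thm_IsAdicComplete_of_module_finite

set_option autoImplicit false

namespace Fermat.Agent.S53

open Ideal

section general

/-- Nilpotent Nakayama for ring homomorphisms: if `e` kills `I ^ n` and every element of the
target is in the range of `e` modulo the ideal generated by `e I`, then `e` is surjective. -/
theorem h56_surjective_of_nilpotent {P A : Type*} [CommRing P] [CommRing A] (e : P →+* A)
    (I : Ideal P) (n : ℕ) (hn : ∀ f ∈ I ^ n, e f = 0)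
    (h : ∀ x : A, ∃ f : P, x - e f ∈ I.map e) : Function.Surjective e := by
  have key : ∀ j : ℕ, ∀ x : A, ∃ f : P, x - e f ∈ (I ^ j).map e := by
    intro j
    induction j with
    | zero =>
      intro x
      exact ⟨0, by simp [Ideal.map_top]⟩
    | succ j ih =>
      intro x
      obtain ⟨f, hf⟩ := ih x
      suffices H : ∀ z ∈ (I ^ j).map e, ∃ g : P, z - e g ∈ (I ^ (j + 1)).map e by
        obtain ⟨g, hg⟩ := H _ hf
        refine ⟨f + g, ?_⟩
        have : x - e (f + g) = x - e f - e g := by rw [map_add]; ring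
        rw [this]; exact hg
      intro z hz
      refine Submodule.span_induction
        (p := fun z _ => ∃ g : P, z - e g ∈ (I ^ (j + 1)).map e) ?_ ?_ ?_ ?_ hz
      · rintro _ ⟨g, hg, rfl⟩
        exact ⟨g, by simp⟩
      · exact ⟨0, by simp⟩
      · rintro a b _ _ ⟨g1, h1⟩ ⟨g2, h2⟩
        refine ⟨g1 + g2, ?_⟩
        have : a + b - e (g1 + g2) = (a - e g1) + (b - e g2) := by rw [map_add]; ring
        rw [this]; exact add_mem h1 h2
      · rintro a z hz' ⟨g, hg⟩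
        obtain ⟨fa, hfa⟩ := h a
        refine ⟨fa * g, ?_⟩
        have : a • z - e (fa * g) = e fa * (z - e g) + (a - e fa) * z := by
          rw [map_mul, smul_eq_mul]; ring
        rw [this]
        refine add_mem (Ideal.mul_mem_left _ _ hg) ?_
        have hz'' : z ∈ (I ^ j).map e := hz'
        rw [pow_succ', Ideal.map_mul]
        exact Ideal.mul_mem_mul hfa hz''
  intro x
  obtain ⟨f, hf⟩ := key n x
  have hbot : (I ^ n).map e = ⊥ := by
    rw [eq_bot_iff, Ideal.map_le_iff_le_comap]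
    intro g hg
    simpa using hn g hg
  rw [hbot, Ideal.mem_bot, sub_eq_zero] at hf
  exact ⟨f, hf.symm⟩

variable {Λ : Type*} [CommRing Λ] (𝔪 : Ideal Λ) (J : ℕ → Ideal Λ)

theorem h56_pow_le (hJ : ∀ n, J n = J (n + 1) ⊔ 𝔪 ^ n) (n : ℕ) : 𝔪 ^ n ≤ J n := by
  rw [hJ n]; exact le_sup_right

theorem h56_succ_le (hJ : ∀ n, J n = J (n + 1) ⊔ 𝔪 ^ n) (n : ℕ) : J (n + 1) ≤ J n := by
  rw [hJ n]; exact le_sup_left

theorem h56_antitone (hJ : ∀ n, J n = J (n + 1) ⊔ 𝔪 ^ n) : Antitone J :=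
  antitone_nat_of_succ_le (h56_succ_le 𝔪 J hJ)

theorem h56_eq_sup (hJ : ∀ n, J n = J (n + 1) ⊔ 𝔪 ^ n) {a b : ℕ} (hab : a ≤ b) :
    J a = J b ⊔ 𝔪 ^ a := by
  induction b, hab using Nat.le_induction with
  | base => exact (sup_eq_left.mpr (h56_pow_le 𝔪 J hJ a)).symm
  | succ b hab ih =>
    rw [ih, hJ b, sup_assoc,
      sup_eq_right.mpr (Ideal.pow_le_pow_right hab : 𝔪 ^ b ≤ 𝔪 ^ a)]

theorem h56_le_span_sup (hJ : ∀ n, J n = J (n + 1) ⊔ 𝔪 ^ n) {ι : Type*} (t : ι → Λ)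
    (ht : 𝔪 = Ideal.span (Set.range t) ⊔ J 2) (n : ℕ) :
    𝔪 ≤ Ideal.span (Set.range t) ⊔ J n := by
  set T := Ideal.span (Set.range t) ⊔ J n with hT
  have h2 : 𝔪 ≤ T ⊔ 𝔪 ^ 2 := by
    have hJ2 : J 2 ≤ J n ⊔ 𝔪 ^ 2 := by
      rcases le_total n 2 with h | h
      · exact le_sup_of_le_left (h56_antitone 𝔪 J hJ h)
      · exact (h56_eq_sup 𝔪 J hJ h).le
    calc 𝔪 = Ideal.span (Set.range t) ⊔ J 2 := ht
      _ ≤ Ideal.span (Set.range t) ⊔ (J n ⊔ 𝔪 ^ 2) := sup_le_sup_left hJ2 _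
      _ = T ⊔ 𝔪 ^ 2 := by rw [hT, sup_assoc]
  have key : ∀ j : ℕ, 𝔪 ≤ T ⊔ 𝔪 ^ (j + 1) := by
    intro j
    induction j with
    | zero => simp
    | succ j ih =>
      have h3 : 𝔪 ^ 2 ≤ T ⊔ 𝔪 ^ (j + 1 + 1) := by
        calc 𝔪 ^ 2 = 𝔪 * 𝔪 := pow_two 𝔪
          _ ≤ (T ⊔ 𝔪 ^ (j + 1)) * 𝔪 := Ideal.mul_mono_left ih
          _ = T * 𝔪 ⊔ 𝔪 ^ (j + 1) * 𝔪 := Ideal.sup_mul _ _ _
          _ ≤ T ⊔ 𝔪 ^ (j + 1 + 1) := sup_le_sup Ideal.mul_le_left (by rw [← pow_succ])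
      exact h2.trans (sup_le le_sup_left h3)
  refine (key n).trans (sup_le le_rfl ?_)
  exact (Ideal.pow_le_pow_right (Nat.le_succ n)).trans
    ((h56_pow_le 𝔪 J hJ n).trans le_sup_right)

end general


noncomputable section

/-- Bundled hypotheses of the tower lemma (internal form, indexed from `0`). -/
structure h56_IsTower (𝒪 : Type) [CommRing 𝒪] {Λ : Type} [CommRing Λ] [Algebra 𝒪 Λ]
    (𝔪 : Ideal Λ) (J : ℕ → Ideal Λ) {d : ℕ} (t : Fin d → Λ) : Prop where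
  isMax : 𝔪.IsMaximal
  res : Function.Surjective (Ideal.Quotient.mk 𝔪 ∘ algebraMap 𝒪 Λ)
  J1 : J 1 = 𝔪
  hJ : ∀ n, J n = J (n + 1) ⊔ 𝔪 ^ n
  ht : 𝔪 = Ideal.span (Set.range t) ⊔ J 2

variable {𝒪 : Type} [CommRing 𝒪] {Λ : Type} [CommRing Λ] [Algebra 𝒪 Λ]
  {𝔪 : Ideal Λ} {J : ℕ → Ideal Λ} {d : ℕ} {t : Fin d → Λ}

/-- The ideal of variables of the power series ring. -/
abbrev h56_I (𝒪 : Type) [CommRing 𝒪] (d : ℕ) : Ideal (MvPowerSeries (Fin d) 𝒪) :=
  Ideal.span (Set.range MvPowerSeries.X)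

/-- Polynomial evaluation at `t`, as a ring hom. -/
abbrev h56_a (𝒪 : Type) [CommRing 𝒪] {Λ : Type} [CommRing Λ] [Algebra 𝒪 Λ] {d : ℕ}
    (t : Fin d → Λ) : MvPolynomial (Fin d) 𝒪 →+* Λ :=
  (MvPolynomial.aeval t : MvPolynomial (Fin d) 𝒪 →ₐ[𝒪] Λ).toRingHom

theorem h56_IsTower.t_mem (H : h56_IsTower 𝒪 𝔪 J t) (i : Fin d) : t i ∈ 𝔪 := by
  rw [H.ht]; exact Ideal.mem_sup_left (Ideal.subset_span ⟨i, rfl⟩)

theorem h56_IsTower.aeval_le (H : h56_IsTower 𝒪 𝔪 J t) (n : ℕ) :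
    MvPolynomial.idealOfVars (Fin d) 𝒪 ^ n ≤ (J n).comap (h56_a 𝒪 t) := by
  rw [← Ideal.map_le_iff_le_comap, Ideal.map_pow]
  refine le_trans (Ideal.pow_right_mono ?_ n) (h56_pow_le 𝔪 J H.hJ n)
  rw [Ideal.map_span, Ideal.span_le]
  rintro _ ⟨_, ⟨i, rfl⟩, rfl⟩
  simpa using H.t_mem i

/-- Evaluation of power series at `t` modulo `J n`. -/
def h56_ev (H : h56_IsTower 𝒪 𝔪 J t) (n : ℕ) : MvPowerSeries (Fin d) 𝒪 →+* Λ ⧸ J n :=
  (Ideal.quotientMap (J n) (h56_a 𝒪 t) (H.aeval_le n)).comp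
    (MvPowerSeries.truncTotalAlgHom (Fin d) 𝒪 n).toRingHom

theorem h56_ev_apply (H : h56_IsTower 𝒪 𝔪 J t) (n : ℕ) (p : MvPowerSeries (Fin d) 𝒪) :
    h56_ev H n p = Ideal.Quotient.mk (J n) (h56_a 𝒪 t (MvPowerSeries.truncTotal n p)) := by
  simp [h56_ev]

theorem h56_ev_coe (H : h56_IsTower 𝒪 𝔪 J t) (n : ℕ) (q : MvPolynomial (Fin d) 𝒪) :
    h56_ev H n (q : MvPowerSeries (Fin d) 𝒪) = Ideal.Quotient.mk (J n) (h56_a 𝒪 t q) := by
  have h1 : (MvPowerSeries.truncTotalAlgHom (Fin d) 𝒪 n)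
      (algebraMap (MvPolynomial (Fin d) 𝒪) (MvPowerSeries (Fin d) 𝒪) q) =
      algebraMap (MvPolynomial (Fin d) 𝒪) _ q := AlgHom.commutes _ q
  rw [MvPowerSeries.algebraMap_apply'] at h1
  simp only [Algebra.algebraMap_self, MvPowerSeries.map_id, RingHom.id_apply] at h1
  simp only [h56_ev, RingHom.coe_comp, Function.comp_apply, AlgHom.toRingHom_eq_coe,
    RingHom.coe_coe, h1]
  rfl

theorem h56_ev_X (H : h56_IsTower 𝒪 𝔪 J t) (n : ℕ) (i : Fin d) :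
    h56_ev H n (MvPowerSeries.X i) = Ideal.Quotient.mk (J n) (t i) := by
  rw [← MvPolynomial.coe_X, h56_ev_coe]; simp

theorem h56_ev_C (H : h56_IsTower 𝒪 𝔪 J t) (n : ℕ) (r : 𝒪) :
    h56_ev H n (MvPowerSeries.C r) = Ideal.Quotient.mk (J n) (algebraMap 𝒪 Λ r) := by
  rw [← MvPolynomial.coe_C, h56_ev_coe]; simp

theorem h56_ev_factor (H : h56_IsTower 𝒪 𝔪 J t) {m n : ℕ} (h : m ≤ n)
    (p : MvPowerSeries (Fin d) 𝒪) :
    Ideal.Quotient.factor (h56_antitone 𝔪 J H.hJ h) (h56_ev H n p) = h56_ev H m p := by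
  rw [h56_ev_apply, h56_ev_apply, Ideal.Quotient.factor_mk, Ideal.Quotient.eq, ← map_sub]
  exact H.aeval_le m (MvPowerSeries.truncTotal_sub_truncTotal_mem_pow_idealOfVars h le_rfl p)


theorem h56_pow_le_ker (H : h56_IsTower 𝒪 𝔪 J t) (n : ℕ) :
    h56_I 𝒪 d ^ n ≤ RingHom.ker (h56_ev H n) := by
  rw [RingHom.ker_eq_comap_bot, ← Ideal.map_le_iff_le_comap, Ideal.map_pow]
  have h1 : (h56_I 𝒪 d).map (h56_ev H n) ≤ 𝔪.map (Ideal.Quotient.mk (J n)) := by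
    rw [Ideal.map_span, Ideal.span_le]
    rintro _ ⟨_, ⟨i, rfl⟩, rfl⟩
    rw [h56_ev_X]
    exact Ideal.mem_map_of_mem _ (H.t_mem i)
  refine (Ideal.pow_right_mono h1 n).trans ?_
  rw [← Ideal.map_pow, Ideal.map_mk_eq_bot_of_le (h56_pow_le 𝔪 J H.hJ n)]

theorem h56_map_I (H : h56_IsTower 𝒪 𝔪 J t) (n : ℕ) :
    (h56_I 𝒪 d).map (h56_ev H n) = 𝔪.map (Ideal.Quotient.mk (J n)) := by
  have h1 : (h56_I 𝒪 d).map (h56_ev H n) =
      (Ideal.span (Set.range t)).map (Ideal.Quotient.mk (J n)) := by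
    rw [Ideal.map_span, Ideal.map_span]
    congr 1
    ext x
    constructor
    · rintro ⟨_, ⟨i, rfl⟩, rfl⟩
      exact ⟨t i, ⟨i, rfl⟩, (h56_ev_X H n i).symm⟩
    · rintro ⟨_, ⟨i, rfl⟩, rfl⟩
      exact ⟨MvPowerSeries.X i, ⟨i, rfl⟩, h56_ev_X H n i⟩
  rw [h1, Ideal.map_eq_iff_sup_ker_eq_of_surjective _ Ideal.Quotient.mk_surjective,
    Ideal.mk_ker]
  apply le_antisymm
  · exact sup_le_sup_right (Ideal.span_le.mpr (by rintro _ ⟨i, rfl⟩; exact H.t_mem i)) _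
  · exact sup_le (h56_le_span_sup 𝔪 J H.hJ t H.ht n) le_sup_right

theorem h56_ev_surjective (H : h56_IsTower 𝒪 𝔪 J t) (n : ℕ) :
    Function.Surjective (h56_ev H n) := by
  apply h56_surjective_of_nilpotent (h56_ev H n) (h56_I 𝒪 d) n
  · intro f hf
    exact h56_pow_le_ker H n hf
  · intro x
    obtain ⟨l, rfl⟩ := Ideal.Quotient.mk_surjective x
    obtain ⟨r, hr⟩ := H.res (Ideal.Quotient.mk 𝔪 l)
    refine ⟨MvPowerSeries.C r, ?_⟩
    rw [h56_ev_C, h56_map_I, ← map_sub]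
    refine Ideal.mem_map_of_mem _ ?_
    have hr' : Ideal.Quotient.mk 𝔪 (algebraMap 𝒪 Λ r) = Ideal.Quotient.mk 𝔪 l := hr
    rw [Ideal.Quotient.eq] at hr'
    have : l - algebraMap 𝒪 Λ r = -(algebraMap 𝒪 Λ r - l) := by ring
    rw [this]
    exact neg_mem hr'

/-- The kernel of the map to the inverse limit. -/
def h56_K (H : h56_IsTower 𝒪 𝔪 J t) : Ideal (MvPowerSeries (Fin d) 𝒪) :=
  ⨅ n, RingHom.ker (h56_ev H n)

theorem h56_K_le (H : h56_IsTower 𝒪 𝔪 J t) (n : ℕ) : h56_K H ≤ RingHom.ker (h56_ev H n) :=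
  iInf_le _ n

theorem h56_ker_antitone (H : h56_IsTower 𝒪 𝔪 J t) {m n : ℕ} (h : m ≤ n) :
    RingHom.ker (h56_ev H n) ≤ RingHom.ker (h56_ev H m) := by
  intro f hf
  rw [RingHom.mem_ker] at hf ⊢
  rw [← h56_ev_factor H h, hf, map_zero]

theorem h56_ker_succ (H : h56_IsTower 𝒪 𝔪 J t) (n : ℕ) :
    RingHom.ker (h56_ev H n) ≤ RingHom.ker (h56_ev H (n + 1)) ⊔ h56_I 𝒪 d ^ n := by
  intro f hf
  rw [RingHom.mem_ker] at hf
  have h1 : h56_ev H (n + 1) f ∈ (𝔪 ^ n).map (Ideal.Quotient.mk (J (n + 1))) := by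
    obtain ⟨l, hl⟩ := Ideal.Quotient.mk_surjective (h56_ev H (n + 1) f)
    have h2 := h56_ev_factor H (Nat.le_succ n) f
    rw [← hl, Ideal.Quotient.factor_mk, hf, Ideal.Quotient.eq_zero_iff_mem, H.hJ n] at h2
    rw [← hl, Ideal.mem_quotient_iff_mem_sup, sup_comm]
    exact h2
  rw [Ideal.map_pow, ← h56_map_I H (n + 1), ← Ideal.map_pow] at h1
  obtain ⟨g, hg, hgf⟩ := (Ideal.mem_map_iff_of_surjective _ (h56_ev_surjective H (n + 1))).mp h1
  have : f = (f - g) + g := by ring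
  rw [this]
  refine Ideal.add_mem _ (Ideal.mem_sup_left ?_) (Ideal.mem_sup_right hg)
  rw [RingHom.mem_ker, map_sub, hgf, sub_self]

theorem h56_ker_le (H : h56_IsTower 𝒪 𝔪 J t) (n : ℕ) :
    RingHom.ker (h56_ev H n) ≤ h56_I 𝒪 d ^ n ⊔ h56_K H := by
  intro f hf
  have step : ∀ j, ∀ x, x ∈ RingHom.ker (h56_ev H j) →
      ∃ y, y ∈ RingHom.ker (h56_ev H (j + 1)) ∧ x - y ∈ h56_I 𝒪 d ^ j := by
    intro j x hx
    obtain ⟨y, hy, z, hz, rfl⟩ := Submodule.mem_sup.mp (h56_ker_succ H j hx)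
    exact ⟨y, hy, by simpa using hz⟩
  choose! nxt hnxt1 hnxt2 using step
  let F : ℕ → MvPowerSeries (Fin d) 𝒪 := fun j => Nat.rec f (fun j x => nxt (n + j) x) j
  have hFs : ∀ j, F (j + 1) = nxt (n + j) (F j) := fun j => rfl
  have hFmem : ∀ j, F j ∈ RingHom.ker (h56_ev H (n + j)) := by
    intro j
    induction j with
    | zero => exact hf
    | succ j ih => rw [hFs]; exact hnxt1 (n + j) (F j) ih
  have hFd : ∀ j, F j - F (j + 1) ∈ h56_I 𝒪 d ^ (n + j) := fun j => by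
    rw [hFs]; exact hnxt2 (n + j) (F j) (hFmem j)
  have ha : ∀ j k, j ≤ k → F j - F k ∈ h56_I 𝒪 d ^ (n + j) := by
    intro j k hjk
    induction k, hjk using Nat.le_induction with
    | base => simp
    | succ k hjk ih =>
      have : F j - F (k + 1) = (F j - F k) + (F k - F (k + 1)) := by ring
      rw [this]
      exact add_mem ih (Ideal.pow_le_pow_right (by omega) (hFd k))
  obtain ⟨L, hL⟩ := IsPrecomplete.prec' (I := h56_I 𝒪 d) (fun j => f - F j) (by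
    intro j k hjk
    rw [SModEq.sub_mem]
    have : f - F j - (f - F k) = -(F j - F k) := by ring
    rw [this]
    have h3 : F j - F k ∈ h56_I 𝒪 d ^ j := Ideal.pow_le_pow_right (by omega) (ha j k hjk)
    simpa using neg_mem h3)
  have hL' : ∀ j, f - F j - L ∈ h56_I 𝒪 d ^ j := by
    intro j
    have := hL j
    rw [SModEq.sub_mem] at this
    simpa using this
  have hLn : L ∈ h56_I 𝒪 d ^ n := by
    have h0 : f - F n ∈ h56_I 𝒪 d ^ n := by
      have h00 : F 0 = f := rfl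
      have := ha 0 n (Nat.zero_le n)
      rw [h00, Nat.add_zero] at this
      exact this
    have : L = (f - F n) - (f - F n - L) := by ring
    rw [this]
    exact sub_mem h0 (hL' n)
  have hK : f - L ∈ h56_K H := by
    rw [h56_K, Ideal.mem_iInf]
    intro N
    have : f - L = F N + (f - F N - L) := by ring
    rw [this]
    exact add_mem (h56_ker_antitone H (Nat.le_add_left N n) (hFmem N))
      (h56_pow_le_ker H N (hL' N))
  have : f = L + (f - L) := by ring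
  rw [this]
  exact add_mem (Ideal.mem_sup_left hLn) (Ideal.mem_sup_right hK)

theorem h56_ker_eq (H : h56_IsTower 𝒪 𝔪 J t) (n : ℕ) :
    RingHom.ker (h56_ev H n) = h56_I 𝒪 d ^ n ⊔ h56_K H :=
  le_antisymm (h56_ker_le H n) (sup_le (h56_pow_le_ker H n) (h56_K_le H n))


theorem h56_ker_one_isMaximal (H : h56_IsTower 𝒪 𝔪 J t) :
    (RingHom.ker (h56_ev H 1)).IsMaximal := by
  have : (J 1).IsMaximal := by rw [H.J1]; exact H.isMax
  let _ := Ideal.Quotient.field (J 1)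
  exact RingHom.ker_isMaximal_of_surjective (h56_ev H 1) (h56_ev_surjective H 1)

theorem h56_K_ne_top (H : h56_IsTower 𝒪 𝔪 J t) : h56_K H ≠ ⊤ := by
  intro h
  have h1 := h56_K_le H 1
  rw [h, top_le_iff] at h1
  exact (h56_ker_one_isMaximal H).ne_top h1

/-- The limit ring. -/
abbrev h56_R (H : h56_IsTower 𝒪 𝔪 J t) : Type := MvPowerSeries (Fin d) 𝒪 ⧸ h56_K H

/-- The projection of the limit ring to the `n`-th level. -/
def h56_π (H : h56_IsTower 𝒪 𝔪 J t) (n : ℕ) : h56_R H →+* Λ ⧸ J n :=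
  Ideal.Quotient.lift (h56_K H) (h56_ev H n) (fun _ ha => h56_K_le H n ha)

theorem h56_π_mk (H : h56_IsTower 𝒪 𝔪 J t) (n : ℕ) (f : MvPowerSeries (Fin d) 𝒪) :
    h56_π H n (Ideal.Quotient.mk (h56_K H) f) = h56_ev H n f := rfl

theorem h56_π_surjective (H : h56_IsTower 𝒪 𝔪 J t) (n : ℕ) :
    Function.Surjective (h56_π H n) := by
  intro y
  obtain ⟨f, rfl⟩ := h56_ev_surjective H n y
  exact ⟨Ideal.Quotient.mk _ f, rfl⟩

theorem h56_π_factor (H : h56_IsTower 𝒪 𝔪 J t) {m n : ℕ} (h : m ≤ n) (r : h56_R H) :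
    Ideal.Quotient.factor (h56_antitone 𝔪 J H.hJ h) (h56_π H n r) = h56_π H m r := by
  obtain ⟨f, rfl⟩ := Ideal.Quotient.mk_surjective r
  exact h56_ev_factor H h f

theorem h56_eq_zero_of_π (H : h56_IsTower 𝒪 𝔪 J t) (r : h56_R H)
    (h : ∀ n, h56_π H n r = 0) : r = 0 := by
  obtain ⟨f, rfl⟩ := Ideal.Quotient.mk_surjective r
  rw [Ideal.Quotient.eq_zero_iff_mem, h56_K, Ideal.mem_iInf]
  exact fun n => h n

theorem h56_π_algebraMap (H : h56_IsTower 𝒪 𝔪 J t) (n : ℕ) (r : 𝒪) :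
    h56_π H n (algebraMap 𝒪 (h56_R H) r) = Ideal.Quotient.mk (J n) (algebraMap 𝒪 Λ r) := by
  have : algebraMap 𝒪 (h56_R H) r = Ideal.Quotient.mk (h56_K H) (MvPowerSeries.C r) := by
    rw [← Ideal.Quotient.mk_algebraMap, MvPowerSeries.algebraMap_apply]
    simp
  rw [this, h56_π_mk, h56_ev_C]

section LocalPart

variable [IsLocalRing 𝒪]

theorem h56_R_isLocalRing (H : h56_IsTower 𝒪 𝔪 J t) : IsLocalRing (h56_R H) :=
  haveI : Nontrivial (h56_R H) := Ideal.Quotient.nontrivial_iff.mpr (h56_K_ne_top H)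
  IsLocalRing.of_surjective' (Ideal.Quotient.mk (h56_K H)) Ideal.Quotient.mk_surjective

attribute [local instance] h56_R_isLocalRing

theorem h56_maximalIdeal_eq (H : h56_IsTower 𝒪 𝔪 J t) :
    IsLocalRing.maximalIdeal (h56_R H) = (h56_I 𝒪 d).map (Ideal.Quotient.mk (h56_K H)) := by
  symm
  apply IsLocalRing.eq_maximalIdeal
  have h1 : (h56_I 𝒪 d).map (Ideal.Quotient.mk (h56_K H)) =
      (RingHom.ker (h56_ev H 1)).map (Ideal.Quotient.mk (h56_K H)) := by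
    rw [h56_ker_eq H 1, pow_one, Ideal.map_sup, Ideal.map_quotient_self, sup_bot_eq]
  rw [h1]
  have := h56_ker_one_isMaximal H
  exact Ideal.IsMaximal.map_of_surjective_of_ker_le Ideal.Quotient.mk_surjective
    (by rw [Ideal.mk_ker]; exact h56_K_le H 1)

theorem h56_ker_π (H : h56_IsTower 𝒪 𝔪 J t) (n : ℕ) :
    RingHom.ker (h56_π H n) = IsLocalRing.maximalIdeal (h56_R H) ^ n := by
  ext x
  obtain ⟨f, rfl⟩ := Ideal.Quotient.mk_surjective x
  rw [RingHom.mem_ker, h56_π_mk, ← RingHom.mem_ker, h56_ker_eq, h56_maximalIdeal_eq,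
    ← Ideal.map_pow, Ideal.mem_quotient_iff_mem_sup]

theorem h56_R_isAdicComplete [IsNoetherianRing 𝒪] (H : h56_IsTower 𝒪 𝔪 J t) :
    IsAdicComplete (IsLocalRing.maximalIdeal (h56_R H)) (h56_R H) := by
  rw [h56_maximalIdeal_eq H]
  have h1 : IsAdicComplete (h56_I 𝒪 d) (h56_R H) :=
    IsAdicComplete.of_module_finite (h56_I 𝒪 d) (h56_R H)
  exact (IsAdicComplete.map_algebraMap_iff (h56_I 𝒪 d) (h56_R H) (S := h56_R H)).mpr h1

end LocalPart


section LocalPart2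

variable [IsLocalRing 𝒪] [IsNoetherianRing 𝒪]

attribute [local instance] h56_R_isLocalRing h56_R_isAdicComplete

/-- The isomorphism `R ⧸ m ^ n ≃ Λ ⧸ J n`. -/
def h56_e (H : h56_IsTower 𝒪 𝔪 J t) (n : ℕ) :
    (h56_R H ⧸ IsLocalRing.maximalIdeal (h56_R H) ^ n) ≃+* Λ ⧸ J n :=
  (Ideal.quotEquivOfEq (h56_ker_π H n).symm).trans
    (RingHom.quotientKerEquivOfSurjective (h56_π_surjective H n))

theorem h56_e_mk (H : h56_IsTower 𝒪 𝔪 J t) (n : ℕ) (r : h56_R H) :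
    h56_e H n (Ideal.Quotient.mk _ r) = h56_π H n r := by
  simp [h56_e]

/-- The level maps `Λ → R ⧸ m ^ n`. -/
def h56_f (H : h56_IsTower 𝒪 𝔪 J t) (n : ℕ) :
    Λ →+* h56_R H ⧸ IsLocalRing.maximalIdeal (h56_R H) ^ n :=
  ((h56_e H n).symm : Λ ⧸ J n →+* _).comp (Ideal.Quotient.mk (J n))

theorem h56_f_compat (H : h56_IsTower 𝒪 𝔪 J t) {m n : ℕ} (hle : m ≤ n) :
    (Ideal.Quotient.factorPow (IsLocalRing.maximalIdeal (h56_R H)) hle).comp (h56_f H n) =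
      h56_f H m := by
  ext l
  apply (h56_e H m).injective
  simp only [h56_f, RingHom.comp_apply, RingHom.coe_coe, RingEquiv.apply_symm_apply]
  obtain ⟨r, hr⟩ := Ideal.Quotient.mk_surjective ((h56_e H n).symm (Ideal.Quotient.mk (J n) l))
  rw [← hr]
  have h1 : h56_π H n r = Ideal.Quotient.mk (J n) l := by
    rw [← h56_e_mk, hr, RingEquiv.apply_symm_apply]
  have h2 : (Ideal.Quotient.factorPow (IsLocalRing.maximalIdeal (h56_R H)) hle)
      (Ideal.Quotient.mk _ r) = Ideal.Quotient.mk _ r := rfl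
  rw [h2, h56_e_mk, ← h56_π_factor H hle, h1, Ideal.Quotient.factor_mk]

/-- The structure map `Λ → R` as a ring hom. -/
def h56_ιRing (H : h56_IsTower 𝒪 𝔪 J t) : Λ →+* h56_R H :=
  IsAdicComplete.liftRingHom (IsLocalRing.maximalIdeal (h56_R H)) (h56_f H)
    (fun hle => h56_f_compat H hle)

theorem h56_π_ι (H : h56_IsTower 𝒪 𝔪 J t) (n : ℕ) (l : Λ) :
    h56_π H n (h56_ιRing H l) = Ideal.Quotient.mk (J n) l := by
  rw [← h56_e_mk, h56_ιRing, IsAdicComplete.mk_liftRingHom, h56_f, RingHom.comp_apply]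
  simp

/-- The structure map `Λ → R` as an algebra hom. -/
def h56_ι (H : h56_IsTower 𝒪 𝔪 J t) : Λ →ₐ[𝒪] h56_R H :=
  { h56_ιRing H with
    commutes' := fun r => by
      rw [← sub_eq_zero]
      apply h56_eq_zero_of_π H
      intro n
      rw [map_sub, h56_π_algebraMap]
      show h56_π H n (h56_ιRing H (algebraMap 𝒪 Λ r)) - _ = 0
      rw [h56_π_ι, sub_self] }

theorem h56_ι_apply (H : h56_IsTower 𝒪 𝔪 J t) (l : Λ) : h56_ι H l = h56_ιRing H l := rfl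

theorem h56_isLocalHom (H : h56_IsTower 𝒪 𝔪 J t) : IsLocalHom (algebraMap 𝒪 (h56_R H)) := by
  constructor
  intro a ha
  by_contra hna
  have hker : RingHom.ker ((Ideal.Quotient.mk 𝔪).comp (algebraMap 𝒪 Λ)) =
      IsLocalRing.maximalIdeal 𝒪 := by
    have := H.isMax
    let _ := Ideal.Quotient.field 𝔪
    exact IsLocalRing.eq_maximalIdeal (RingHom.ker_isMaximal_of_surjective _ H.res)
  have ha' : a ∈ IsLocalRing.maximalIdeal 𝒪 := hna
  rw [← hker, RingHom.mem_ker, RingHom.comp_apply] at ha'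
  have h1 : h56_π H 1 (algebraMap 𝒪 (h56_R H) a) = 0 := by
    rw [h56_π_algebraMap, Ideal.Quotient.eq_zero_iff_mem, H.J1, ← Ideal.Quotient.eq_zero_iff_mem]
    exact ha'
  have h2 : IsUnit (h56_π H 1 (algebraMap 𝒪 (h56_R H) a)) := ha.map _
  rw [h1] at h2
  have : Nontrivial (Λ ⧸ J 1) :=
    Ideal.Quotient.nontrivial_iff.mpr (by rw [H.J1]; exact H.isMax.ne_top)
  exact not_isUnit_zero h2

theorem h56_residue_surjective (H : h56_IsTower 𝒪 𝔪 J t) :
    Function.Surjective (IsLocalRing.residue (h56_R H) ∘ algebraMap 𝒪 (h56_R H)) := by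
  intro x
  obtain ⟨r, rfl⟩ := IsLocalRing.residue_surjective x
  obtain ⟨l, hl⟩ := Ideal.Quotient.mk_surjective (h56_π H 1 r)
  obtain ⟨a, ha⟩ := H.res (Ideal.Quotient.mk 𝔪 l)
  refine ⟨a, ?_⟩
  simp only [Function.comp_apply]
  rw [← sub_eq_zero, ← map_sub, IsLocalRing.residue_eq_zero_iff,
    ← pow_one (IsLocalRing.maximalIdeal _), ← h56_ker_π H 1, RingHom.mem_ker, map_sub,
    h56_π_algebraMap, ← hl, ← map_sub, Ideal.Quotient.eq_zero_iff_mem, H.J1]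
  exact Ideal.Quotient.eq.mp ha

theorem h56_main (H : h56_IsTower 𝒪 𝔪 J t) (n : ℕ) :
    Function.Surjective
        (Ideal.Quotient.mk (IsLocalRing.maximalIdeal (h56_R H) ^ n) ∘ h56_ι H) ∧
      (IsLocalRing.maximalIdeal (h56_R H) ^ n).comap (h56_ι H) = J n := by
  constructor
  · intro y
    obtain ⟨r, rfl⟩ := Ideal.Quotient.mk_surjective y
    obtain ⟨l, hl⟩ := Ideal.Quotient.mk_surjective (h56_π H n r)
    refine ⟨l, ?_⟩
    simp only [Function.comp_apply]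
    rw [Ideal.Quotient.eq, ← h56_ker_π H n, RingHom.mem_ker, map_sub, h56_ι_apply, h56_π_ι, hl,
      sub_self]
  · ext l
    rw [Ideal.mem_comap, ← h56_ker_π H n, RingHom.mem_ker, h56_ι_apply, h56_π_ι,
      Ideal.Quotient.eq_zero_iff_mem]

end LocalPart2

end

/-- **Tower lemma.** From a tower of ideals `J n` of an `𝒪`-algebra `Λ` with
`J n = J (n + 1) ⊔ 𝔪 ^ n`, `J 1 = 𝔪` maximal with residue field a quotient of `𝒪`, and
finitely many `t i` generating `𝔪` modulo `J 2`, build a complete noetherian local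
`𝒪`-algebra `R` with a map `ι : Λ → R` inducing `Λ ⧸ J n ≃ R ⧸ m_R ^ n` for all `n ≥ 1`. -/
theorem exists_tower_limit
    {𝒪 : Type} [CommRing 𝒪] [IsNoetherianRing 𝒪] [IsLocalRing 𝒪]
    {Λ : Type} [CommRing Λ] [Algebra 𝒪 Λ]
    (𝔪 : Ideal Λ) [𝔪.IsMaximal]
    (hres : Function.Surjective (Ideal.Quotient.mk 𝔪 ∘ algebraMap 𝒪 Λ))
    (J : ℕ → Ideal Λ) (hJ1 : J 1 = 𝔪)
    (hJ : ∀ n, 1 ≤ n → J n = J (n + 1) ⊔ 𝔪 ^ n)
    (d : ℕ) (t : Fin d → Λ) (ht : 𝔪 = Ideal.span (Set.range t) ⊔ J 2) :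
    ∃ (R : Type) (_ : CommRing R) (_ : IsLocalRing R) (_ : IsNoetherianRing R)
      (_ : IsAdicComplete (IsLocalRing.maximalIdeal R) R) (_ : Algebra 𝒪 R) (ι : Λ →ₐ[𝒪] R),
      IsLocalHom (algebraMap 𝒪 R) ∧
      Function.Surjective (IsLocalRing.residue R ∘ algebraMap 𝒪 R) ∧
      ∀ n, 1 ≤ n →
        Function.Surjective (Ideal.Quotient.mk (IsLocalRing.maximalIdeal R ^ n) ∘ ι) ∧
        (IsLocalRing.maximalIdeal R ^ n).comap ι = J n := by
  let J' : ℕ → Ideal Λ := fun n => if n = 0 then ⊤ else J n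
  have hJ'0 : J' 0 = ⊤ := rfl
  have hJ'n : ∀ n, 1 ≤ n → J' n = J n := fun n hn => if_neg (by omega)
  have H : h56_IsTower 𝒪 𝔪 J' t :=
    { isMax := inferInstance
      res := hres
      J1 := by rw [hJ'n 1 le_rfl, hJ1]
      hJ := by
        intro n
        rcases Nat.eq_zero_or_pos n with h | h
        · subst h
          rw [hJ'0, pow_zero, Ideal.one_eq_top, sup_top_eq]
        · rw [hJ'n n h, hJ'n (n + 1) (by omega)]
          exact hJ n h
      ht := by rw [hJ'n 2 (by omega)]; exact ht }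
  refine ⟨h56_R H, inferInstance, h56_R_isLocalRing H, inferInstance, h56_R_isAdicComplete H,
    inferInstance, h56_ι H, h56_isLocalHom H, h56_residue_surjective H, fun n hn => ?_⟩
  have h := h56_main H n
  rw [hJ'n n hn] at h
  exact h

end Fermat.Agent.S53
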