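import Mathlib

/-!
# Tower lemma, part 3 (helper74): the lifting property

If `π : Λ → R` has dense image for the `𝔪_R`-adic topology, `A` is a complete local ring and
`ψ : Λ → A` is "continuous" (`π⁻¹(𝔪_R ^ n) ≤ ψ⁻¹(𝔪_A ^ n)`), then `ψ` extends uniquely to a local
homomorphism `R → A`.
-/

namespace Fermat.Agent.S53

open IsLocalRing

namespace H74

section

variable {𝒪 Λ R A : Type} [CommRing 𝒪] [CommRing Λ] [Algebra 𝒪 Λ] [CommRing R] [IsLocalRing R]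
  [Algebra 𝒪 R] [CommRing A] [IsLocalRing A] [Algebra 𝒪 A]

/-- `a` is the limit of the values `ψ x` along approximations `x` of `r`. -/
def IsLim (π : Λ →ₐ[𝒪] R) (ψ : Λ →ₐ[𝒪] A) (r : R) (a : A) : Prop :=
  ∀ (n : ℕ) (x : Λ), r - π x ∈ maximalIdeal R ^ n → a - ψ x ∈ maximalIdeal A ^ n

variable {π : Λ →ₐ[𝒪] R} {ψ : Λ →ₐ[𝒪] A}

theorem psi_sub_mem (hψ : ∀ n, Ideal.comap π (maximalIdeal R ^ n) ≤ Ideal.comap ψ (maximalIdeal A ^ n))
    {n : ℕ} {x y : Λ} (h : π x - π y ∈ maximalIdeal R ^ n) : ψ x - ψ y ∈ maximalIdeal A ^ n := by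
  have h1 : x - y ∈ Ideal.comap π (maximalIdeal R ^ n) := by
    rw [Ideal.mem_comap, map_sub]; exact h
  have h2 := hψ n h1
  rwa [Ideal.mem_comap, map_sub] at h2

theorem isLim_pi (hψ : ∀ n, Ideal.comap π (maximalIdeal R ^ n) ≤ Ideal.comap ψ (maximalIdeal A ^ n))
    (x₀ : Λ) : IsLim π ψ (π x₀) (ψ x₀) :=
  fun _ _ hx => psi_sub_mem hψ hx

theorem isLim_unique [IsHausdorff (maximalIdeal A) A]
    (hdense : ∀ n (r : R), ∃ x : Λ, r - π x ∈ maximalIdeal R ^ n) {r : R} {a a' : A}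
    (h : IsLim π ψ r a) (h' : IsLim π ψ r a') : a = a' := by
  rw [← sub_eq_zero]
  refine IsHausdorff.haus ‹_› _ fun n => ?_
  rw [SModEq.zero, smul_eq_mul, Ideal.mul_top]
  obtain ⟨x, hx⟩ := hdense n r
  have e1 : a - a' = (a - ψ x) - (a' - ψ x) := by ring
  rw [e1]
  exact sub_mem (h n x hx) (h' n x hx)

theorem exists_isLim [IsPrecomplete (maximalIdeal A) A]
    (hdense : ∀ n (r : R), ∃ x : Λ, r - π x ∈ maximalIdeal R ^ n)
    (hψ : ∀ n, Ideal.comap π (maximalIdeal R ^ n) ≤ Ideal.comap ψ (maximalIdeal A ^ n))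
    (r : R) : ∃ a, IsLim π ψ r a := by
  choose x hx using fun n => hdense n r
  have hcauchy : ∀ {m n : ℕ}, m ≤ n →
      ψ (x m) ≡ ψ (x n) [SMOD (maximalIdeal A ^ m • ⊤ : Submodule A A)] := by
    intro m n hmn
    rw [SModEq.sub_mem, smul_eq_mul, Ideal.mul_top]
    apply psi_sub_mem hψ
    have e1 : π (x m) - π (x n) = (r - π (x n)) - (r - π (x m)) := by ring
    rw [e1]
    exact sub_mem (Ideal.pow_le_pow_right hmn (hx n)) (hx m)
  obtain ⟨a, ha⟩ := IsPrecomplete.prec ‹_› hcauchy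
  refine ⟨a, fun n y hy => ?_⟩
  have h1 := ha n
  rw [SModEq.sub_mem, smul_eq_mul, Ideal.mul_top] at h1
  have h2 : ψ y - ψ (x n) ∈ maximalIdeal A ^ n := by
    apply psi_sub_mem hψ
    have e1 : π y - π (x n) = (r - π (x n)) - (r - π y) := by ring
    rw [e1]
    exact sub_mem (hx n) hy
  have e2 : a - ψ y = -(ψ (x n) - a) - (ψ y - ψ (x n)) := by ring
  rw [e2]
  exact sub_mem (neg_mem h1) h2

theorem isLim_add (hdense : ∀ n (r : R), ∃ x : Λ, r - π x ∈ maximalIdeal R ^ n)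
    {r r' : R} {a a' : A} (h : IsLim π ψ r a) (h' : IsLim π ψ r' a') :
    IsLim π ψ (r + r') (a + a') := by
  intro n x hx
  obtain ⟨x₁, hx₁⟩ := hdense n r
  have h1 : r' - π (x - x₁) ∈ maximalIdeal R ^ n := by
    have e1 : r' - π (x - x₁) = (r + r' - π x) - (r - π x₁) := by rw [map_sub]; ring
    rw [e1]
    exact sub_mem hx hx₁
  have e2 : a + a' - ψ x = (a - ψ x₁) + (a' - ψ (x - x₁)) := by rw [map_sub]; ring
  rw [e2]
  exact add_mem (h n x₁ hx₁) (h' n _ h1)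

theorem isLim_mul (hdense : ∀ n (r : R), ∃ x : Λ, r - π x ∈ maximalIdeal R ^ n)
    (hψ : ∀ n, Ideal.comap π (maximalIdeal R ^ n) ≤ Ideal.comap ψ (maximalIdeal A ^ n))
    {r r' : R} {a a' : A} (h : IsLim π ψ r a) (h' : IsLim π ψ r' a') :
    IsLim π ψ (r * r') (a * a') := by
  intro n x hx
  obtain ⟨x₁, hx₁⟩ := hdense n r
  obtain ⟨x₂, hx₂⟩ := hdense n r'
  have h1 : r * r' - π (x₁ * x₂) ∈ maximalIdeal R ^ n := by
    have e1 : r * r' - π (x₁ * x₂) = r * (r' - π x₂) + (r - π x₁) * π x₂ := by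
      rw [map_mul]; ring
    rw [e1]
    exact add_mem (Ideal.mul_mem_left _ _ hx₂) (Ideal.mul_mem_right _ _ hx₁)
  have h2 : ψ x - ψ (x₁ * x₂) ∈ maximalIdeal A ^ n := by
    apply psi_sub_mem hψ
    have e1 : π x - π (x₁ * x₂) = (r * r' - π (x₁ * x₂)) - (r * r' - π x) := by ring
    rw [e1]
    exact sub_mem h1 hx
  have h3 : a * a' - ψ (x₁ * x₂) ∈ maximalIdeal A ^ n := by
    have e1 : a * a' - ψ (x₁ * x₂) = a * (a' - ψ x₂) + (a - ψ x₁) * ψ x₂ := by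
      rw [map_mul]; ring
    rw [e1]
    exact add_mem (Ideal.mul_mem_left _ _ (h' n x₂ hx₂)) (Ideal.mul_mem_right _ _ (h n x₁ hx₁))
  have e3 : a * a' - ψ x = (a * a' - ψ (x₁ * x₂)) - (ψ x - ψ (x₁ * x₂)) := by ring
  rw [e3]
  exact sub_mem h3 h2

end

end H74

section

variable {𝒪 Λ R A : Type} [CommRing 𝒪] [CommRing Λ] [Algebra 𝒪 Λ] [CommRing R] [IsLocalRing R]
  [Algebra 𝒪 R] [CommRing A] [IsLocalRing A] [Algebra 𝒪 A]

/-- **Tower lemma (lifting).** A continuous map `ψ : Λ → A` to a complete local ring extends along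
a map `π : Λ → R` with dense image. -/
theorem h74_tower_lift [IsAdicComplete (maximalIdeal A) A]
    (π : Λ →ₐ[𝒪] R) (hdense : ∀ n (r : R), ∃ x : Λ, r - π x ∈ maximalIdeal R ^ n)
    (ψ : Λ →ₐ[𝒪] A)
    (hψ : ∀ n, Ideal.comap π (maximalIdeal R ^ n) ≤ Ideal.comap ψ (maximalIdeal A ^ n)) :
    ∃ φ : R →ₐ[𝒪] A, φ.comp π = ψ ∧ IsLocalHom (φ : R →+* A) ∧
      ∀ n, ∀ r ∈ maximalIdeal R ^ n, φ r ∈ maximalIdeal A ^ n := by
  choose f hf using H74.exists_isLim (ψ := ψ) hdense hψ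
  have huniq : ∀ {r : R} {a : A}, H74.IsLim π ψ r a → f r = a := fun h =>
    H74.isLim_unique hdense (hf _) h
  have hpi : ∀ x, f (π x) = ψ x := fun x => huniq (H74.isLim_pi hψ x)
  let φ : R →ₐ[𝒪] A :=
    { toFun := f
      map_one' := by rw [← map_one π, hpi, map_one]
      map_mul' := fun r r' => huniq (H74.isLim_mul hdense hψ (hf r) (hf r'))
      map_zero' := by rw [← map_zero π, hpi, map_zero]
      map_add' := fun r r' => huniq (H74.isLim_add hdense (hf r) (hf r'))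
      commutes' := fun c => by
        rw [← AlgHom.commutes π, hpi, AlgHom.commutes] }
  have hpow : ∀ n, ∀ r ∈ maximalIdeal R ^ n, φ r ∈ maximalIdeal A ^ n := by
    intro n r hr
    have h1 := hf r n 0 (by rw [map_zero, sub_zero]; exact hr)
    rwa [map_zero, sub_zero] at h1
  refine ⟨φ, AlgHom.ext hpi, ?_, hpow⟩
  refine ⟨fun r hr => ?_⟩
  by_contra hru
  have h1 : r ∈ maximalIdeal R ^ 1 := by rw [pow_one]; exact hru
  have h2 := hpow 1 r h1
  rw [pow_one] at h2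
  exact (mem_maximalIdeal _).mp h2 hr

/-- **Tower lemma (uniqueness of the lift).** -/
theorem h74_tower_lift_unique [IsHausdorff (maximalIdeal A) A]
    (π : Λ →ₐ[𝒪] R) (hdense : ∀ n (r : R), ∃ x : Λ, r - π x ∈ maximalIdeal R ^ n)
    (φ φ' : R →ₐ[𝒪] A) (hφ : ∀ r ∈ maximalIdeal R, φ r ∈ maximalIdeal A)
    (hφ' : ∀ r ∈ maximalIdeal R, φ' r ∈ maximalIdeal A) (h : φ.comp π = φ'.comp π) : φ = φ' := by
  have key : ∀ (χ : R →ₐ[𝒪] A), (∀ r ∈ maximalIdeal R, χ r ∈ maximalIdeal A) →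
      ∀ n, ∀ r ∈ maximalIdeal R ^ n, χ r ∈ maximalIdeal A ^ n := by
    intro χ hχ n r hr
    have h1 : Ideal.map χ (maximalIdeal R) ≤ maximalIdeal A := by
      rw [Ideal.map_le_iff_le_comap]
      exact fun r hr => hχ r hr
    have h2 := Ideal.mem_map_of_mem χ hr
    rw [Ideal.map_pow] at h2
    exact Ideal.pow_right_mono h1 n h2
  refine AlgHom.ext fun r => ?_
  rw [← sub_eq_zero]
  refine IsHausdorff.haus ‹_› _ fun n => ?_
  rw [SModEq.zero, smul_eq_mul, Ideal.mul_top]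
  obtain ⟨x, hx⟩ := hdense n r
  have h3 : φ (π x) = φ' (π x) := AlgHom.congr_fun h x
  have e1 : φ r - φ' r = φ (r - π x) - φ' (r - π x) := by
    rw [map_sub, map_sub, h3]; ring
  rw [e1]
  exact sub_mem (key φ hφ n _ hx) (key φ' hφ' n _ hx)

/-- Variant of `h74_tower_lift_unique` with local homomorphisms. -/
theorem h74_tower_lift_unique' [IsHausdorff (maximalIdeal A) A]
    (π : Λ →ₐ[𝒪] R) (hdense : ∀ n (r : R), ∃ x : Λ, r - π x ∈ maximalIdeal R ^ n)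
    (φ φ' : R →ₐ[𝒪] A) (hφ : IsLocalHom (φ : R →+* A)) (hφ' : IsLocalHom (φ' : R →+* A))
    (h : φ.comp π = φ'.comp π) : φ = φ' := by
  refine h74_tower_lift_unique π hdense φ φ' ?_ ?_ h
  · intro r hr
    exact (mem_maximalIdeal _).mpr fun hu => (mem_maximalIdeal _).mp hr (hφ.map_nonunit r hu)
  · intro r hr
    exact (mem_maximalIdeal _).mpr fun hu => (mem_maximalIdeal _).mp hr (hφ'.map_nonunit r hu)

end

end Fermat.Agent.S53
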