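import Mathlib
import Fermat.Agent.S53.Helper74Lift

/-!
# Section TL of the S53 interface (helper74): `tower_lift` and `tower_lift_unique`
in the exact form requested by the S53 lead, deduced from `h74_tower_lift` and
`h74_tower_lift_unique'`.
-/

set_option autoImplicit false

namespace Fermat.Agent.S53

open IsLocalRing

theorem h74_dense_of_surjective {𝒪 Λ R : Type} [CommRing 𝒪] [CommRing Λ] [Algebra 𝒪 Λ]
    [CommRing R] [IsLocalRing R] [Algebra 𝒪 R] (π : Λ →ₐ[𝒪] R)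
    (hdense : ∀ n, 1 ≤ n → Function.Surjective (Ideal.Quotient.mk (maximalIdeal R ^ n) ∘ π))
    (n : ℕ) (r : R) : ∃ x : Λ, r - π x ∈ maximalIdeal R ^ n := by
  rcases Nat.eq_zero_or_pos n with rfl | hn
  · exact ⟨0, by rw [pow_zero, Ideal.one_eq_top]; exact Submodule.mem_top⟩
  · obtain ⟨x, hx⟩ := hdense n hn (Ideal.Quotient.mk _ r)
    refine ⟨x, ?_⟩
    rw [Function.comp_apply, Ideal.Quotient.eq] at hx
    have e1 : r - π x = -(π x - r) := by ring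
    rw [e1]
    exact neg_mem hx

theorem tower_lift {𝒪 Λ R A : Type} [CommRing 𝒪] [CommRing Λ] [Algebra 𝒪 Λ]
    [CommRing R] [IsLocalRing R] [Algebra 𝒪 R]
    [CommRing A] [IsLocalRing A] [Algebra 𝒪 A] [IsAdicComplete (maximalIdeal A) A]
    (π : Λ →ₐ[𝒪] R)
    (hdense : ∀ n, 1 ≤ n → Function.Surjective (Ideal.Quotient.mk (maximalIdeal R ^ n) ∘ π))
    (ψ : Λ →ₐ[𝒪] A)
    (hψ : ∀ n, 1 ≤ n → Ideal.comap π (maximalIdeal R ^ n) ≤ Ideal.comap ψ (maximalIdeal A ^ n)) :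
    ∃ φ : R →ₐ[𝒪] A, φ.comp π = ψ := by
  have hψ' : ∀ n, Ideal.comap π (maximalIdeal R ^ n) ≤ Ideal.comap ψ (maximalIdeal A ^ n) := by
    intro n
    rcases Nat.eq_zero_or_pos n with rfl | hn
    · rw [pow_zero, pow_zero, Ideal.one_eq_top, Ideal.one_eq_top, Ideal.comap_top, Ideal.comap_top]
    · exact hψ n hn
  obtain ⟨φ, hφ, -, -⟩ := h74_tower_lift π (h74_dense_of_surjective π hdense) ψ hψ'
  exact ⟨φ, hφ⟩

theorem tower_lift_unique {𝒪 Λ R A : Type} [CommRing 𝒪] [CommRing Λ] [Algebra 𝒪 Λ]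
    [CommRing R] [IsLocalRing R] [Algebra 𝒪 R]
    [CommRing A] [IsLocalRing A] [Algebra 𝒪 A] [IsHausdorff (maximalIdeal A) A]
    (π : Λ →ₐ[𝒪] R)
    (hdense : ∀ n, 1 ≤ n → Function.Surjective (Ideal.Quotient.mk (maximalIdeal R ^ n) ∘ π))
    (φ φ' : R →ₐ[𝒪] A) (hφ : IsLocalHom (φ : R →+* A)) (hφ' : IsLocalHom (φ' : R →+* A))
    (h : φ.comp π = φ'.comp π) : φ = φ' :=
  h74_tower_lift_unique' π (h74_dense_of_surjective π hdense) φ φ' hφ hφ' h

end Fermat.Agent.S53
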