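import Fermat.Agent.S53.Defs

/-!
# S53 — task RG3-exists (owner: helper59)

`IsRigid.exists_conj`: over a complete local `𝒪`-algebra `A`, every matrix family lifting the
frame `rt` is conjugate (by matrices congruent to `1`) to a rigid one.
-/

set_option autoImplicit false

namespace Fermat.Agent.S53

open IsLocalRing Matrix

/-- A quadratic `p0 + p1 y + p2 y^2` with `p0` in the maximal ideal and `p1` a unit has a root
in the maximal ideal (Hensel). -/
theorem h59_quadratic_root {A : Type} [CommRing A] [IsLocalRing A]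
    [IsAdicComplete (maximalIdeal A) A] (p0 p1 p2 : A) (h0 : p0 ∈ maximalIdeal A)
    (h1 : IsUnit p1) : ∃ y ∈ maximalIdeal A, p0 + p1 * y + p2 * y ^ 2 = 0 := by
  open Polynomial in
  have hH : HenselianRing A (maximalIdeal A) := inferInstance
  open Polynomial in
  have hf : (X ^ 2 + (C p1 * X + C (p0 * p2)) : A[X]).Monic :=
    monic_X_pow_add (lt_of_le_of_lt (degree_linear_le) (by norm_num))
  open Polynomial in
  obtain ⟨u, hu, hu'⟩ := hH.is_henselian _ hf (-p1)
    (by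
      have : eval (-p1) (X ^ 2 + (C p1 * X + C (p0 * p2)) : A[X]) = p0 * p2 := by
        simp; ring
      rw [this]
      exact Ideal.mul_mem_right _ _ h0)
    (by
      have : eval (-p1) (derivative (X ^ 2 + (C p1 * X + C (p0 * p2)) : A[X])) = -p1 := by
        simp; ring
      rw [this]
      exact (h1.neg).map _)
  have hroot : u ^ 2 + p1 * u + p0 * p2 = 0 := by
    have := hu
    simp only [Polynomial.IsRoot.def, Polynomial.eval_add, Polynomial.eval_pow, Polynomial.eval_X,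
      Polynomial.eval_mul, Polynomial.eval_C] at this
    linear_combination this
  have huu : IsUnit u := by
    by_contra hcon
    have hum : u ∈ maximalIdeal A := (mem_maximalIdeal u).2 hcon
    have e : p1 = (u - -p1) - u := by ring
    have : p1 ∈ maximalIdeal A := e ▸ Ideal.sub_mem _ hu' hum
    exact (mem_maximalIdeal p1).1 this h1
  obtain ⟨w, huw⟩ := huu.exists_right_inv
  refine ⟨p0 * w, Ideal.mul_mem_right _ _ h0, ?_⟩
  linear_combination (p0 * w ^ 2) * hroot - (p0 * (1 + u * w) + p0 * p1 * w) * huw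

/-- Entry `(i0, j0)` of `(1 + yC) N adj(1 + yC)` minus `c det(1 + yC)` as a quadratic in `y`. -/
theorem h59_conj_entry {A : Type} [CommRing A] (C N : Matrix (Fin 2) (Fin 2) A) (c y : A)
    (i0 j0 : Fin 2) :
    ((1 + y • C) * N * adjugate (1 + y • C) : Matrix (Fin 2) (Fin 2) A) i0 j0
        - c * det (1 + y • C) =
      (N i0 j0 - c) + ((C * N + N * adjugate C : Matrix (Fin 2) (Fin 2) A) i0 j0 - c * trace C) * y
        + ((C * N * adjugate C : Matrix (Fin 2) (Fin 2) A) i0 j0 - c * det C) * y ^ 2 := by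
  fin_cases i0 <;> fin_cases j0 <;>
    simp [Matrix.mul_apply, Fin.sum_univ_two, Matrix.adjugate_fin_two, Matrix.det_fin_two,
      Matrix.trace_fin_two, Matrix.add_apply, Matrix.smul_apply] <;> ring

/-- The linear coefficient of `h59_conj_entry` is the commutator entry up to a multiple of the
constant coefficient. -/
theorem h59_conj_p1 {A : Type} [CommRing A] (C N : Matrix (Fin 2) (Fin 2) A) (c : A)
    (i0 j0 : Fin 2) :
    (C * N + N * adjugate C : Matrix (Fin 2) (Fin 2) A) i0 j0 - c * trace C =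
      (C * N - N * C : Matrix (Fin 2) (Fin 2) A) i0 j0 + trace C * (N i0 j0 - c) := by
  fin_cases i0 <;> fin_cases j0 <;>
    simp [Matrix.mul_apply, Fin.sum_univ_two, Matrix.adjugate_fin_two,
      Matrix.trace_fin_two, Matrix.add_apply, Matrix.sub_apply] <;> ring

/-- Step 1: normalise the first column of a matrix `M` with `M 0 0` small and `M 1 0 ≡ 1`. -/
theorem h59_step1 {A : Type} [CommRing A] [IsLocalRing A] (M : Matrix (Fin 2) (Fin 2) A)
    (hm00 : residue A (M 0 0) = 0) (hm10 : residue A (M 1 0) = 1) :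
    ∃ X₁ Y₁ : Matrix (Fin 2) (Fin 2) A, X₁ * Y₁ = 1 ∧ Y₁ * X₁ = 1 ∧
      (residue A).mapMatrix X₁ = 1 ∧ (residue A).mapMatrix Y₁ = 1 ∧
      (X₁ * M * Y₁) 0 0 = 0 ∧ (X₁ * M * Y₁) 1 0 = 1 := by
  have hm10u : IsUnit (M 1 0) := by
    rw [← residue_ne_zero_iff_isUnit, hm10]; exact one_ne_zero
  obtain ⟨v, hv⟩ := hm10u.exists_right_inv
  have hresv : residue A v = 1 := by
    have := congrArg (residue A) hv
    rw [map_mul, hm10, one_mul, map_one] at this
    exact this
  have hMeta : M = !![M 0 0, M 0 1; M 1 0, M 1 1] := Matrix.eta_fin_two M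
  refine ⟨!![1, -(M 0 0) * v; 0, v], !![1, M 0 0; 0, M 1 0], ?_, ?_, ?_, ?_, ?_, ?_⟩
  · ext i j
    fin_cases i <;> fin_cases j <;>
      simp [Matrix.mul_apply, Fin.sum_univ_two]
    · linear_combination (-(M 0 0)) * hv
    · linear_combination hv
  · ext i j
    fin_cases i <;> fin_cases j <;>
      simp [Matrix.mul_apply, Fin.sum_univ_two]
    · linear_combination hv
  · ext i j
    fin_cases i <;> fin_cases j <;> simp [hm00, hresv]
  · ext i j
    fin_cases i <;> fin_cases j <;> simp [hm00, hm10]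
  · rw [hMeta]
    simp [Matrix.mul_apply, Fin.sum_univ_two]
    linear_combination (-(M 0 0)) * hv
  · rw [hMeta]
    simp [Matrix.mul_apply, Fin.sum_univ_two]
    linear_combination hv

/-- Step 2: fix one entry of `N` by conjugating with an element `1 + yC` commuting with `C`. -/
theorem h59_step2 {A : Type} [CommRing A] [IsLocalRing A] [IsAdicComplete (maximalIdeal A) A]
    (C N : Matrix (Fin 2) (Fin 2) A) (c : A) (i0 j0 : Fin 2)
    (h0 : residue A (N i0 j0) = residue A c)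
    (h1 : residue A ((C * N - N * C : Matrix (Fin 2) (Fin 2) A) i0 j0) ≠ 0) :
    ∃ Z W : Matrix (Fin 2) (Fin 2) A, Z * W = 1 ∧ W * Z = 1 ∧
      (residue A).mapMatrix Z = 1 ∧ (residue A).mapMatrix W = 1 ∧
      Z * C * W = C ∧ (Z * N * W) i0 j0 = c := by
  have hp0m : N i0 j0 - c ∈ maximalIdeal A := by
    rw [← residue_eq_zero_iff, map_sub, h0, sub_self]
  have hp1u : IsUnit ((C * N + N * adjugate C : Matrix (Fin 2) (Fin 2) A) i0 j0 - c * trace C) := by
    rw [← residue_ne_zero_iff_isUnit, h59_conj_p1 C N c i0 j0, map_add, map_mul,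
      (residue_eq_zero_iff _).2 hp0m, mul_zero, add_zero]
    exact h1
  obtain ⟨y, hym, hy⟩ := h59_quadratic_root (N i0 j0 - c)
    ((C * N + N * adjugate C : Matrix (Fin 2) (Fin 2) A) i0 j0 - c * trace C)
    ((C * N * adjugate C : Matrix (Fin 2) (Fin 2) A) i0 j0 - c * det C) hp0m hp1u
  have hresy : residue A y = 0 := (residue_eq_zero_iff y).2 hym
  obtain ⟨Z, hZ⟩ : ∃ Z : Matrix (Fin 2) (Fin 2) A, Z = 1 + y • C := ⟨_, rfl⟩
  have hφZ : (residue A).mapMatrix Z = 1 := by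
    rw [hZ, map_add, map_one, add_eq_left]
    ext i j
    simp [Matrix.smul_apply, hresy]
  have hdetu : IsUnit (det Z) := by
    rw [← residue_ne_zero_iff_isUnit]
    have : residue A (det Z) = det ((residue A).mapMatrix Z) := RingHom.map_det (residue A) Z
    rw [this, hφZ, det_one]; exact one_ne_zero
  obtain ⟨ε, hε⟩ := hdetu.exists_right_inv
  have hZW : Z * (ε • adjugate Z) = 1 := by
    rw [Matrix.mul_smul, Matrix.mul_adjugate, smul_smul, mul_comm, hε, one_smul]
  have hWZ : (ε • adjugate Z) * Z = 1 := by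
    rw [Matrix.smul_mul, Matrix.adjugate_mul, smul_smul, mul_comm, hε, one_smul]
  have hZC : Z * C = C * Z := by
    rw [hZ, add_mul, mul_add, one_mul, mul_one, Matrix.smul_mul, Matrix.mul_smul]
  refine ⟨Z, ε • adjugate Z, hZW, hWZ, hφZ, ?_, ?_, ?_⟩
  · have := congrArg (residue A).mapMatrix hZW
    rw [map_mul, hφZ, one_mul, map_one] at this
    exact this
  · rw [hZC, mul_assoc, hZW, mul_one]
  · have h1 := h59_conj_entry C N c y i0 j0
    rw [← hZ] at h1
    have h2 : (Z * N * adjugate Z) i0 j0 = c * det Z := by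
      have : (Z * N * adjugate Z) i0 j0 - c * det Z = 0 := by
        rw [h1]; linear_combination hy
      exact sub_eq_zero.1 this
    rw [Matrix.mul_smul, Matrix.smul_apply, h2, smul_eq_mul]
    linear_combination c * hε

theorem IsRigid.exists_conj {𝒪 : Type} [CommRing 𝒪] [IsLocalRing 𝒪] {A : Type} [CommRing A]
    [IsLocalRing A] [Algebra 𝒪 A] [IsLocalHom (algebraMap 𝒪 A)]
    [IsAdicComplete (maximalIdeal A) A]
    {rt : GQ → Matrix (Fin 2) (Fin 2) 𝒪} {g0 g1 : GQ} {i0 j0 : Fin 2}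
    (h00 : rt g0 0 0 ∈ maximalIdeal 𝒪) (h10 : rt g0 1 0 - 1 ∈ maximalIdeal 𝒪)
    (hne : IsUnit ((rt g0 * rt g1 - rt g1 * rt g0) i0 j0))
    (r : GQ → Matrix (Fin 2) (Fin 2) A)
    (hres : ∀ σ i j, r σ i j - algebraMap 𝒪 A (rt σ i j) ∈ maximalIdeal A) :
    ∃ X Y : Matrix (Fin 2) (Fin 2) A, X * Y = 1 ∧ Y * X = 1 ∧
      IsRigid rt g0 g1 i0 j0 (fun σ => X * r σ * Y) := by
  classical
  -- residue maps
  obtain ⟨φ, hφ⟩ : ∃ φ : Matrix (Fin 2) (Fin 2) A →+* Matrix (Fin 2) (Fin 2) (ResidueField A),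
      φ = (residue A).mapMatrix := ⟨_, rfl⟩
  obtain ⟨ψ, hψ⟩ : ∃ ψ : Matrix (Fin 2) (Fin 2) 𝒪 →+* Matrix (Fin 2) (Fin 2) (ResidueField A),
      ψ = ((residue A).comp (algebraMap 𝒪 A)).mapMatrix := ⟨_, rfl⟩
  have hφe : ∀ (B : Matrix (Fin 2) (Fin 2) A) (i j : Fin 2), (φ B) i j = residue A (B i j) :=
    fun B i j => by rw [hφ]; rfl
  have hψe : ∀ (B : Matrix (Fin 2) (Fin 2) 𝒪) (i j : Fin 2),
      (ψ B) i j = residue A (algebraMap 𝒪 A (B i j)) := fun B i j => by rw [hψ]; rfl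
  have hφr : ∀ σ, φ (r σ) = ψ (rt σ) := by
    intro σ
    ext i j
    have h := (residue_eq_zero_iff _).2 (hres σ i j)
    rw [map_sub, sub_eq_zero] at h
    rw [hφe, hψe, h]
  have hloc : ∀ a : 𝒪, a ∈ maximalIdeal 𝒪 → residue A (algebraMap 𝒪 A a) = 0 := by
    intro a ha
    rw [residue_eq_zero_iff]
    exact (mem_maximalIdeal _).2 fun hu =>
      (mem_maximalIdeal a).1 ha (isUnit_of_map_unit (algebraMap 𝒪 A) a hu)
  -- Step 1: normalise the first column of `r g0`.
  have hm00 : residue A (r g0 0 0) = 0 := by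
    rw [← hφe, hφr, hψe]; exact hloc _ h00
  have hm10 : residue A (r g0 1 0) = 1 := by
    rw [← hφe, hφr, hψe]
    have h' := hloc _ h10
    rw [map_sub, map_sub, map_one, map_one, sub_eq_zero] at h'
    exact h'
  obtain ⟨X₁, Y₁, hXY₁, hYX₁, hφX₁, hφY₁, hC00, hC10⟩ := h59_step1 (r g0) hm00 hm10
  rw [← hφ] at hφX₁ hφY₁
  -- the normalised family
  obtain ⟨C, hC⟩ : ∃ C : Matrix (Fin 2) (Fin 2) A, C = X₁ * r g0 * Y₁ := ⟨_, rfl⟩
  obtain ⟨N, hN⟩ : ∃ N : Matrix (Fin 2) (Fin 2) A, N = X₁ * r g1 * Y₁ := ⟨_, rfl⟩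
  rw [← hC] at hC00 hC10
  have hφC : φ C = ψ (rt g0) := by
    rw [hC, map_mul, map_mul, hφX₁, hφY₁, one_mul, mul_one, hφr]
  have hφN : φ N = ψ (rt g1) := by
    rw [hN, map_mul, map_mul, hφX₁, hφY₁, one_mul, mul_one, hφr]
  -- Step 2
  have h0 : residue A (N i0 j0) = residue A (algebraMap 𝒪 A (rt g1 i0 j0)) := by
    rw [← hφe, hφN, hψe]
  have h1 : residue A ((C * N - N * C : Matrix (Fin 2) (Fin 2) A) i0 j0) ≠ 0 := by
    rw [← hφe, map_sub, map_mul, map_mul, hφC, hφN, ← map_mul, ← map_mul, ← map_sub, hψe]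
    have hu : IsUnit (((residue A).comp (algebraMap 𝒪 A))
        ((rt g0 * rt g1 - rt g1 * rt g0) i0 j0)) := hne.map _
    exact hu.ne_zero
  obtain ⟨Z, W, hZW, hWZ, hφZ, hφW, hZCW, hkey⟩ :=
    h59_step2 C N (algebraMap 𝒪 A (rt g1 i0 j0)) i0 j0 h0 h1
  rw [← hφ] at hφZ hφW
  -- assemble
  have hconj : ∀ σ, Z * X₁ * r σ * (Y₁ * W) = Z * (X₁ * r σ * Y₁) * W := fun σ => by
    simp only [mul_assoc]
  refine ⟨Z * X₁, Y₁ * W, ?_, ?_, ?_, ?_, ?_, ?_⟩
  · calc Z * X₁ * (Y₁ * W) = Z * (X₁ * Y₁) * W := by simp only [mul_assoc]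
      _ = 1 := by rw [hXY₁, mul_one, hZW]
  · calc Y₁ * W * (Z * X₁) = Y₁ * (W * Z) * X₁ := by simp only [mul_assoc]
      _ = 1 := by rw [hWZ, mul_one, hYX₁]
  · intro σ i j
    rw [← residue_eq_zero_iff, map_sub, sub_eq_zero]
    have h : φ (Z * X₁ * r σ * (Y₁ * W)) = ψ (rt σ) := by
      simp only [map_mul, hφZ, hφX₁, hφY₁, hφW, one_mul, mul_one, hφr]
    have h' := congrFun (congrFun h i) j
    rw [hφe, hψe] at h'
    exact h'
  · rw [hconj, ← hC, hZCW, hC00]
  · rw [hconj, ← hC, hZCW, hC10]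
  · rw [hconj, ← hN, hkey]

end Fermat.Agent.S53
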