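import Fermat.Agent.S53.Defs

/-!
# S53 — task RG2 (owner: helper72): uniqueness of rigid representatives, lifting conjugations
-/

set_option autoImplicit false

namespace Fermat.Agent.S53

open IsLocalRing Matrix

/-- A `2 × 2` matrix commuting with a companion-type matrix `M` (first column `(0,1)`) is
`a • 1 + b • M`, with `a = X 0 0`, `b = X 1 0`. -/
lemma h72_eq_of_commute {A : Type} [CommRing A] (X M : Matrix (Fin 2) (Fin 2) A)
    (h00 : M 0 0 = 0) (h10 : M 1 0 = 1) (hc : X * M = M * X) :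
    X = X 0 0 • (1 : Matrix (Fin 2) (Fin 2) A) + X 1 0 • M := by
  have e00 := congrFun (congrFun hc 0) 0
  have e10 := congrFun (congrFun hc 1) 0
  simp only [Matrix.mul_apply, Fin.sum_univ_two, h00, h10] at e00 e10
  ext i j
  fin_cases i <;> fin_cases j
  · simp [Matrix.add_apply, Matrix.smul_apply, h00]
  · simp [Matrix.add_apply, Matrix.smul_apply]
    linear_combination e00
  · simp [Matrix.add_apply, Matrix.smul_apply, h10]
  · simp [Matrix.add_apply, Matrix.smul_apply]
    linear_combination e10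

theorem IsRigid.unique {𝒪 : Type} [CommRing 𝒪] {A : Type} [CommRing A] [IsLocalRing A]
    [Algebra 𝒪 A] {rt : GQ → Matrix (Fin 2) (Fin 2) 𝒪} {g0 g1 : GQ} {i0 j0 : Fin 2}
    (hne : IsUnit ((rt g0 * rt g1 - rt g1 * rt g0) i0 j0))
    {r r' : GQ → Matrix (Fin 2) (Fin 2) A}
    (hr : IsRigid rt g0 g1 i0 j0 r) (hr' : IsRigid rt g0 g1 i0 j0 r')
    (X Y : Matrix (Fin 2) (Fin 2) A) (hXY : X * Y = 1) (hYX : Y * X = 1)
    (h : ∀ σ, r' σ = X * r σ * Y) : r' = r := by
  -- Step 1: `r' g0 = r g0`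
  have htr : (r' g0).trace = (r g0).trace := by
    rw [h g0, Matrix.trace_mul_comm, ← Matrix.mul_assoc, hYX, Matrix.one_mul]
  have hdet : (r' g0).det = (r g0).det := by
    rw [h g0, Matrix.det_mul, Matrix.det_mul, mul_right_comm, ← Matrix.det_mul, hXY,
      Matrix.det_one, one_mul]
  rw [Matrix.trace_fin_two, Matrix.trace_fin_two, hr.g0_00, hr'.g0_00] at htr
  rw [Matrix.det_fin_two, Matrix.det_fin_two, hr.g0_00, hr'.g0_00, hr.g0_10, hr'.g0_10] at hdet
  have hM : r' g0 = r g0 := by
    ext i j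
    fin_cases i <;> fin_cases j
    · exact hr'.g0_00.trans hr.g0_00.symm
    · simpa using hdet
    · exact hr'.g0_10.trans hr.g0_10.symm
    · simpa using htr
  -- Step 2: `X` commutes with `M = r g0`
  have hcomm : X * r g0 = r g0 * X := by
    have h1 : r' g0 * X = X * r g0 := by
      rw [h g0, Matrix.mul_assoc, hYX, Matrix.mul_one]
    rw [← h1, hM]
  -- Step 3: `X = a • 1 + b • M`
  have hX := h72_eq_of_commute X (r g0) hr.g0_00 hr.g0_10 hcomm
  set a := X 0 0 with ha
  set b := X 1 0 with hb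
  -- Step 4: the relation at `g1`
  have hN : r' g1 * X = X * r g1 := by
    rw [h g1, Matrix.mul_assoc, hYX, Matrix.mul_one]
  have hrel : b • (r' g1 * r g0 - r g0 * r g1) = a • (r g1 - r' g1) := by
    have h2 : r' g1 * (a • (1 : Matrix (Fin 2) (Fin 2) A) + b • r g0) =
        (a • (1 : Matrix (Fin 2) (Fin 2) A) + b • r g0) * r g1 := by
      rw [← hX]; exact hN
    simp only [Matrix.mul_add, Matrix.add_mul, Matrix.mul_smul, Matrix.smul_mul, Matrix.mul_one,
      Matrix.one_mul] at h2
    rw [smul_sub, smul_sub, sub_eq_sub_iff_add_eq_add, add_comm]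
    exact h2
  have hentry : b * (r' g1 * r g0 - r g0 * r g1) i0 j0 = 0 := by
    have h3 := congrFun (congrFun hrel i0) j0
    simp only [Matrix.smul_apply, smul_eq_mul, Matrix.sub_apply] at h3
    rw [hr.g1, hr'.g1, sub_self, mul_zero] at h3
    simpa [Matrix.sub_apply] using h3
  -- Step 5: the entry is a unit
  have hunit : IsUnit ((r' g1 * r g0 - r g0 * r g1) i0 j0) := by
    let ψ : 𝒪 →+* ResidueField A := (residue A).comp (algebraMap 𝒪 A)
    have hmap : ∀ (s : GQ → Matrix (Fin 2) (Fin 2) A), IsRigid rt g0 g1 i0 j0 s →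
        ∀ σ, (s σ).map (residue A) = (rt σ).map ψ := by
      intro s hs σ
      ext i j
      simp only [Matrix.map_apply, ψ, RingHom.comp_apply]
      have h4 := hs.res σ i j
      rw [← Ideal.Quotient.eq] at h4
      exact h4
    have h5 : ((r' g1 * r g0 - r g0 * r g1).map (residue A)) =
        ((rt g1 * rt g0 - rt g0 * rt g1).map ψ) := by
      rw [Matrix.map_sub _ (map_sub (residue A)), Matrix.map_mul, Matrix.map_mul,
        hmap r hr g0, hmap r hr g1, hmap r' hr' g1, Matrix.map_sub _ (map_sub ψ), Matrix.map_mul,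
        Matrix.map_mul]
    have h6 : residue A ((r' g1 * r g0 - r g0 * r g1) i0 j0) =
        ψ ((rt g1 * rt g0 - rt g0 * rt g1) i0 j0) := by
      have h7 := congrFun (congrFun h5 i0) j0
      simpa [Matrix.map_apply] using h7
    have h8 : (rt g1 * rt g0 - rt g0 * rt g1) i0 j0 =
        -((rt g0 * rt g1 - rt g1 * rt g0) i0 j0) := by
      simp [Matrix.sub_apply]
    have h9 : IsUnit (ψ ((rt g1 * rt g0 - rt g0 * rt g1) i0 j0)) := by
      rw [h8]; exact (hne.neg).map ψ
    rw [← h6] at h9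
    by_contra hnu
    have h10 : (r' g1 * r g0 - r g0 * r g1) i0 j0 ∈ maximalIdeal A := hnu
    rw [← IsLocalRing.residue_eq_zero_iff] at h10
    rw [h10] at h9
    exact not_isUnit_zero h9
  have hb0 : b = 0 := by
    obtain ⟨u, hu⟩ := hunit
    have h11 := hentry
    rw [← hu] at h11
    exact (Units.mul_left_eq_zero u).mp h11
  -- Step 6: conclude
  have hXa : X = a • (1 : Matrix (Fin 2) (Fin 2) A) := by
    rw [hX, hb0, zero_smul, add_zero]
  funext σ
  have h12 : a • Y = 1 := by
    have h13 := hXY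
    rw [hXa, Matrix.smul_mul, Matrix.one_mul] at h13
    exact h13
  rw [h σ, hXa, Matrix.smul_mul, Matrix.one_mul, Matrix.smul_mul, ← Matrix.mul_smul, h12,
    Matrix.mul_one]

theorem exists_conj_res {A : Type} [CommRing A] [IsLocalRing A]
    (r : GQ → Matrix (Fin 2) (Fin 2) A)
    (s : GQ → Matrix (Fin 2) (Fin 2) (ResidueField A))
    (Xb Yb : Matrix (Fin 2) (Fin 2) (ResidueField A)) (h1 : Xb * Yb = 1) (h2 : Yb * Xb = 1)
    (h : ∀ σ, s σ = Xb * (r σ).map (residue A) * Yb) :
    ∃ X Y : Matrix (Fin 2) (Fin 2) A, X * Y = 1 ∧ Y * X = 1 ∧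
      ∀ σ, (X * r σ * Y).map (residue A) = s σ := by
  choose f hf using IsLocalRing.residue_surjective (R := A)
  let X : Matrix (Fin 2) (Fin 2) A := Matrix.of fun i j => f (Xb i j)
  have hXmap : X.map (residue A) = Xb := by
    ext i j
    simp [X, hf]
  have hdetb : IsUnit Xb.det := by
    have h3 : Xb.det * Yb.det = 1 := by rw [← Matrix.det_mul, h1, Matrix.det_one]
    exact IsUnit.of_mul_eq_one _ h3
  have hdet : IsUnit X.det := by
    have h4 : residue A X.det = Xb.det := by
      rw [← hXmap]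
      exact (RingHom.map_det (residue A) X)
    by_contra hnu
    have h5 : X.det ∈ maximalIdeal A := hnu
    rw [← IsLocalRing.residue_eq_zero_iff, h4] at h5
    rw [h5] at hdetb
    exact not_isUnit_zero hdetb
  have hXY : X * X⁻¹ = 1 := Matrix.mul_nonsing_inv X hdet
  have hYX : X⁻¹ * X = 1 := Matrix.nonsing_inv_mul X hdet
  have hYmap : (X⁻¹).map (residue A) = Yb := by
    have h6 : Xb * (X⁻¹).map (residue A) = 1 := by
      rw [← hXmap, ← Matrix.map_mul, hXY, Matrix.map_one _ (map_zero _) (map_one _)]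
    calc (X⁻¹).map (residue A) = (Yb * Xb) * (X⁻¹).map (residue A) := by
          rw [h2, Matrix.one_mul]
      _ = Yb := by rw [Matrix.mul_assoc, h6, Matrix.mul_one]
  refine ⟨X, X⁻¹, hXY, hYX, fun σ => ?_⟩
  rw [Matrix.map_mul, Matrix.map_mul, hXmap, hYmap, h σ]

end Fermat.Agent.S53
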