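import Fermat.Agent.S53.Good
import Fermat.Agent.S53.Mat
import Fermat.Agent.S53.MatRes
import Fermat.Agent.S53.RigidUnique
import Fermat.Agent.S53.RigidExists

/-!
# S53 / GR-rigidglue (owner: helper39)

Pure glue between the matrix API (`Mat`, `MatRes`) and the rigidification lemmas
(`RigidUnique`, `RigidExists`).
-/

set_option autoImplicit false

namespace Fermat.Agent.S53

open IsLocalRing GaloisRep

section GR
variable {𝒪 : Type} [CommRing 𝒪] [IsLocalRing 𝒪]

/-- entrywise: the residue of `algebraMap c` is `ResidueField.map (algebraMap) (residue c)`. -/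
theorem h39_residue_algebraMap {A : Type} [CommRing A] [IsLocalRing A] [Algebra 𝒪 A]
    [IsLocalHom (algebraMap 𝒪 A)] (c : 𝒪) :
    residue A (algebraMap 𝒪 A c) =
      IsLocalRing.ResidueField.map (algebraMap 𝒪 A) (residue 𝒪 c) := by
  rw [IsLocalRing.ResidueField.map_residue]

/-- matrix form of the residual condition. -/
theorem h39_map_residue_eq (F : Frame 𝒪)
    {A : Type} [CommRing A] [IsLocalRing A] [Algebra 𝒪 A] [IsLocalHom (algebraMap 𝒪 A)]
    {r : GQ → Matrix (Fin 2) (Fin 2) A}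
    (hres : ∀ σ i j, r σ i j - algebraMap 𝒪 A (F.rt σ i j) ∈ maximalIdeal A) :
    (fun σ => (r σ).map (residue A)) =
      (fun σ => ((F.rt σ).map (residue 𝒪)).map
        (IsLocalRing.ResidueField.map (algebraMap 𝒪 A))) := by
  funext σ
  ext i j
  simp only [Matrix.map_apply]
  rw [← h39_residue_algebraMap, ← sub_eq_zero, ← map_sub, IsLocalRing.residue_eq_zero_iff]
  exact hres σ i j

/-- (F-f) a representation with a matrix satisfying the residual condition has the right
residual representation. -/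
theorem residual_isEquiv_of_res (F : Frame 𝒪) (ρbar : ResidualGaloisRep (ResidueField 𝒪))
    (hmat : HasMatrixRes ρbar (fun σ => (F.rt σ).map (residue 𝒪)))
    {A : Type} [CommRing A] [IsLocalRing A] [Algebra 𝒪 A] [IsLocalHom (algebraMap 𝒪 A)]
    {ρ : GaloisRepAdic A} {r : GQ → Matrix (Fin 2) (Fin 2) A} (hm : HasMatrix ρ r)
    (hres : ∀ σ i j, r σ i j - algebraMap 𝒪 A (F.rt σ i j) ∈ maximalIdeal A) :
    ρ.residual.IsEquiv (ρbar.baseChangeAlong (IsLocalRing.ResidueField.map (algebraMap 𝒪 A))) := by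
  have h1 : HasMatrixRes ρ.residual (fun σ => (r σ).map (residue A)) := hm.residual
  have h2 := hmat.baseChangeAlong (IsLocalRing.ResidueField.map (algebraMap 𝒪 A))
  rw [h39_map_residue_eq F hres] at h1
  exact h1.isEquiv h2

/-- (F-c) every deformation over a complete local `𝒪`-algebra has a rigid matrix. -/
theorem exists_rigid_matrix (F : Frame 𝒪) (ρbar : ResidualGaloisRep (ResidueField 𝒪))
    (hmat : HasMatrixRes ρbar (fun σ => (F.rt σ).map (residue 𝒪)))
    {A : Type} [CommRing A] [IsLocalRing A] [Algebra 𝒪 A] [IsLocalHom (algebraMap 𝒪 A)]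
    [IsAdicComplete (maximalIdeal A) A] (ρ : GaloisRepAdic A)
    (hres : ρ.residual.IsEquiv
      (ρbar.baseChangeAlong (IsLocalRing.ResidueField.map (algebraMap 𝒪 A)))) :
    ∃ r : GQ → Matrix (Fin 2) (Fin 2) A, HasMatrix ρ r ∧ IsRigid F.rt F.g0 F.g1 F.i0 F.j0 r := by
  obtain ⟨r₀, hr₀⟩ := exists_hasMatrix ρ
  -- two matrix descriptions of the residual representation
  have h1 : HasMatrixRes ρ.residual (fun σ => (r₀ σ).map (residue A)) := hr₀.residual
  have h2 : HasMatrixRes ρ.residual (fun σ => ((F.rt σ).map (residue 𝒪)).map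
      (IsLocalRing.ResidueField.map (algebraMap 𝒪 A))) :=
    (hmat.baseChangeAlong (IsLocalRing.ResidueField.map (algebraMap 𝒪 A))).of_isEquiv
      (hres.map ResidualGaloisRep.Equiv.symm)
  obtain ⟨Xb, Yb, hXYb, hYXb, hconj⟩ := h1.exists_conj h2
  obtain ⟨X, Y, hXY, hYX, hlift⟩ := exists_conj_res r₀ _ Xb Yb hXYb hYXb hconj
  -- conjugate: now congruent to `rt` modulo the maximal ideal
  have hr₁ : HasMatrix ρ (fun σ => X * r₀ σ * Y) := hr₀.conj X Y hXY hYX
  have hres₁ : ∀ σ i j, (X * r₀ σ * Y) i j - algebraMap 𝒪 A (F.rt σ i j) ∈ maximalIdeal A := by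
    intro σ i j
    rw [← IsLocalRing.residue_eq_zero_iff, map_sub, sub_eq_zero, h39_residue_algebraMap]
    have := congrFun (congrFun (hlift σ) i) j
    simpa only [Matrix.map_apply] using this
  obtain ⟨X', Y', hXY', hYX', hrig⟩ :=
    IsRigid.exists_conj F.h00 F.h10 F.hne (fun σ => X * r₀ σ * Y) hres₁
  exact ⟨_, hr₁.conj X' Y' hXY' hYX', hrig⟩

/-- (F-e) equivalent representations have equal rigid matrices. -/
theorem rigid_matrix_unique (F : Frame 𝒪)
    {A : Type} [CommRing A] [IsLocalRing A] [Algebra 𝒪 A] {ρ ρ' : GaloisRepAdic A}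
    {r r' : GQ → Matrix (Fin 2) (Fin 2) A} (hm : HasMatrix ρ r) (hm' : HasMatrix ρ' r')
    (hr : IsRigid F.rt F.g0 F.g1 F.i0 F.j0 r) (hr' : IsRigid F.rt F.g0 F.g1 F.i0 F.j0 r')
    (e : ρ.IsEquiv ρ') : r = r' := by
  have h1 : HasMatrix ρ' r := hm.of_isEquiv e
  obtain ⟨X, Y, hXY, hYX, hconj⟩ := h1.exists_conj hm'
  exact (IsRigid.unique F.hne hr hr' X Y hXY hYX hconj).symm

end GR

end Fermat.Agent.S53
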