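import Mathlib
import Fermat.Agent.S53.Defs

/-!
# S53, task AL-dualhom (owner: helper94)

For a local `𝒪`-algebra `A` with residue field hit by `𝒪`, killed by the maximal ideal of `𝒪`
and with `𝔪_A ^ 2 = 0`, every nonzero `a : A` is detected by an `𝒪`-algebra map to the dual
numbers over the residue field of `𝒪`.
-/

set_option autoImplicit false
set_option linter.style.haveILetI false

namespace Fermat.Agent.S53

open IsLocalRing

section AL

theorem exists_algHom_dualNumber (𝒪 : Type) [CommRing 𝒪] [IsLocalRing 𝒪]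
    (A : Type) [CommRing A] [IsLocalRing A] [Algebra 𝒪 A]
    (hloc : IsLocalHom (algebraMap 𝒪 A))
    (hsurj : Function.Surjective (residue A ∘ algebraMap 𝒪 A))
    (hsq : maximalIdeal A ^ 2 = ⊥) (hπ : ∀ c ∈ maximalIdeal 𝒪, algebraMap 𝒪 A c = 0)
    (a : A) (ha : a ≠ 0) :
    letI := dualAlg 𝒪
    ∃ φ : A →ₐ[𝒪] DualNumber (ResidueField 𝒪), φ a ≠ 0 := by
  classical
  -- the `k`-vector space structure on `A`
  have htors : Module.IsTorsionBySet 𝒪 A (maximalIdeal 𝒪 : Set 𝒪) := by
    rintro x ⟨c, hc⟩
    change c • x = 0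
    rw [Algebra.smul_def, hπ c hc, zero_mul]
  letI mK : Module (ResidueField 𝒪) A := htors.module
  have hKsmul : ∀ (c : 𝒪) (x : A), (residue 𝒪 c) • x = algebraMap 𝒪 A c * x := by
    intro c x
    rw [← Algebra.smul_def]
    rfl
  -- the residue map `A → k`
  haveI := hloc
  have hbij : Function.Bijective (ResidueField.map (algebraMap 𝒪 A)) := by
    refine ⟨RingHom.injective _, ?_⟩
    intro y
    obtain ⟨x, rfl⟩ := residue_surjective y
    obtain ⟨c, hc⟩ := hsurj (residue A x)
    exact ⟨residue 𝒪 c, by rw [ResidueField.map_residue]; exact hc⟩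
  let e : ResidueField 𝒪 ≃+* ResidueField A := RingEquiv.ofBijective _ hbij
  let res : A →+* ResidueField 𝒪 := (e.symm : ResidueField A →+* ResidueField 𝒪).comp (residue A)
  have hres_alg : ∀ c : 𝒪, res (algebraMap 𝒪 A c) = residue 𝒪 c := by
    intro c
    change e.symm (residue A (algebraMap 𝒪 A c)) = residue 𝒪 c
    rw [RingEquiv.symm_apply_eq]
    change _ = ResidueField.map (algebraMap 𝒪 A) (residue 𝒪 c)
    rw [ResidueField.map_residue]
  have hres_max : ∀ n : A, n ∈ maximalIdeal A ↔ res n = 0 := by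
    intro n
    change _ ↔ e.symm (residue A n) = 0
    rw [map_eq_zero_iff e.symm e.symm.injective, residue_eq_zero_iff]
  have hdecomp : ∀ y : A, ∃ c : 𝒪, y - algebraMap 𝒪 A c ∈ maximalIdeal A := by
    intro y
    obtain ⟨c, hc⟩ := hsurj (residue A y)
    refine ⟨c, ?_⟩
    rw [← residue_eq_zero_iff, map_sub, ← hc]
    simp
  -- the functional
  obtain ⟨μ, hμ1, hμa⟩ : ∃ μ : A →ₗ[ResidueField 𝒪] ResidueField 𝒪, μ 1 = 0 ∧
      (res a = 0 → μ a ≠ 0) := by
    by_cases h0 : res a = 0
    · have hamem : a ∈ maximalIdeal A := (hres_max a).mpr h0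
      have hnot : a ∉ Submodule.span (ResidueField 𝒪) ({1} : Set A) := by
        intro hmem
        rw [Submodule.mem_span_singleton] at hmem
        obtain ⟨κ, hκ⟩ := hmem
        obtain ⟨c, rfl⟩ := residue_surjective κ
        rw [hKsmul, mul_one] at hκ
        have hc : c ∈ maximalIdeal 𝒪 := by
          by_contra hc
          have hu : IsUnit c := by
            by_contra hu
            exact hc ((mem_maximalIdeal c).mpr hu)
          have hu' : IsUnit (algebraMap 𝒪 A c) := hu.map _
          rw [hκ] at hu'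
          exact ((mem_maximalIdeal a).mp hamem) hu'
        apply ha
        rw [← hκ, hπ c hc]
      obtain ⟨f, hf, hf'⟩ := Submodule.exists_dual_map_eq_bot_of_notMem hnot inferInstance
      refine ⟨f, ?_, fun _ => hf⟩
      have hle := LinearMap.le_ker_iff_map.mpr hf'
      exact LinearMap.mem_ker.mp (hle (Submodule.subset_span rfl))
    · exact ⟨0, by simp, fun h => absurd h h0⟩
  have hμ_alg : ∀ (c : 𝒪) (x : A), μ (algebraMap 𝒪 A c * x) = residue 𝒪 c * μ x := by
    intro c x
    rw [← hKsmul, map_smul, smul_eq_mul]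
  have hμ_alg1 : ∀ c : 𝒪, μ (algebraMap 𝒪 A c) = 0 := by
    intro c
    have := hμ_alg c 1
    rwa [mul_one, hμ1, mul_zero] at this
  have hμ_mul : ∀ y y' : A, μ (y * y') = res y * μ y' + res y' * μ y := by
    intro y y'
    obtain ⟨c, hc⟩ := hdecomp y
    obtain ⟨c', hc'⟩ := hdecomp y'
    set n := y - algebraMap 𝒪 A c with hn
    set n' := y' - algebraMap 𝒪 A c' with hn'
    have hy : y = algebraMap 𝒪 A c + n := by rw [hn]; ring
    have hy' : y' = algebraMap 𝒪 A c' + n' := by rw [hn']; ring
    have hnn : n * n' = 0 := by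
      have : n * n' ∈ maximalIdeal A ^ 2 := by
        rw [pow_two]
        exact Ideal.mul_mem_mul hc hc'
      rw [hsq] at this
      simpa using this
    have h1 : y * y' = algebraMap 𝒪 A (c * c') + algebraMap 𝒪 A c * n' + algebraMap 𝒪 A c' * n := by
      rw [hy, hy', map_mul]
      linear_combination hnn
    have hry : res y = residue 𝒪 c := by
      rw [hy, map_add, hres_alg, (hres_max n).mp hc, add_zero]
    have hry' : res y' = residue 𝒪 c' := by
      rw [hy', map_add, hres_alg, (hres_max n').mp hc', add_zero]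
    have hμy : μ y = μ n := by
      rw [hy, map_add, hμ_alg1, zero_add]
    have hμy' : μ y' = μ n' := by
      rw [hy', map_add, hμ_alg1, zero_add]
    rw [h1, map_add, map_add, hμ_alg1, hμ_alg, hμ_alg, hry, hry', hμy, hμy', zero_add]
  letI := dualAlg 𝒪
  refine ⟨{ toFun := fun y => TrivSqZeroExt.inl (res y) + TrivSqZeroExt.inr (μ y)
            map_one' := ?_
            map_mul' := ?_
            map_zero' := ?_
            map_add' := ?_
            commutes' := ?_ }, ?_⟩
  · rw [map_one, hμ1]
    simp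
  · intro y y'
    apply TrivSqZeroExt.ext
    · simp
    · simp [hμ_mul y y', mul_comm]
  · simp
  · intro y y'
    apply TrivSqZeroExt.ext
    · simp
    · simp
  · intro c
    rw [hres_alg, hμ_alg1]
    simp [RingHom.algebraMap_toAlgebra, TrivSqZeroExt.algebraMap_eq_inl]
  · change TrivSqZeroExt.inl (res a) + TrivSqZeroExt.inr (μ a) ≠ 0
    intro h
    have h1 := congrArg TrivSqZeroExt.fst h
    have h2 := congrArg TrivSqZeroExt.snd h
    simp only [TrivSqZeroExt.fst_add, TrivSqZeroExt.fst_inl, TrivSqZeroExt.fst_inr, add_zero,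
      TrivSqZeroExt.fst_zero, TrivSqZeroExt.snd_add, TrivSqZeroExt.snd_inl, TrivSqZeroExt.snd_inr,
      zero_add, TrivSqZeroExt.snd_zero] at h1 h2
    exact hμa h1 h2

end AL

end Fermat.Agent.S53
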