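import Mathlib
import Fermat.Agent.S53.Good
import Fermat.Agent.S53.RigidUnique
import Fermat.Agent.S53.DualHom

/-!
# S53 — TG-tangent (owner: helper95)

`TangentFinite` gives finitely many elements `t i` of the maximal ideal `F.mLam` of
`Lam 𝒪` which generate the cotangent space of every good quotient.
-/

set_option autoImplicit false

namespace Fermat.Agent.S53

open IsLocalRing GaloisRep

section TG

variable {𝒪 : Type} [CommRing 𝒪] [IsLocalRing 𝒪]
  {𝒟 : ∀ ⦃A : Type⦄ [CommRing A] [IsLocalRing A] [Algebra 𝒪 A], GaloisRepAdic A → Prop}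
  {F : Frame 𝒪}

/-- The dual numbers (with `dualAlg`) are an Artinian test algebra. -/
theorem tg_dual_isArtinianTestAlgebra :
    letI := dualAlg 𝒪
    IsArtinianTestAlgebra 𝒪 (DualNumber (ResidueField 𝒪)) := by
  letI := dualAlg 𝒪
  refine ⟨⟨?_⟩, ?_, ?_⟩
  · intro c hc
    have h1 : algebraMap 𝒪 (DualNumber (ResidueField 𝒪)) c =
        TrivSqZeroExt.inl (residue 𝒪 c) := rfl
    rw [h1, TrivSqZeroExt.isUnit_iff_isUnit_fst, TrivSqZeroExt.fst_inl] at hc
    by_contra hcu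
    have : residue 𝒪 c = 0 := (IsLocalRing.residue_eq_zero_iff c).mpr hcu
    rw [this] at hc
    exact not_isUnit_zero hc
  · intro y
    obtain ⟨x, rfl⟩ := IsLocalRing.residue_surjective y
    obtain ⟨c, hc⟩ := IsLocalRing.residue_surjective x.fst
    refine ⟨c, ?_⟩
    simp only [Function.comp_apply]
    have h1 : algebraMap 𝒪 (DualNumber (ResidueField 𝒪)) c =
        TrivSqZeroExt.inl (residue 𝒪 c) := rfl
    rw [h1, ← sub_eq_zero, ← map_sub, IsLocalRing.residue_eq_zero_iff, mem_maximalIdeal,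
      mem_nonunits_iff, TrivSqZeroExt.isUnit_iff_isUnit_fst, TrivSqZeroExt.fst_sub,
      TrivSqZeroExt.fst_inl, hc, sub_self]
    exact not_isUnit_zero
  · haveI : Module.Finite (ResidueField 𝒪) (DualNumber (ResidueField 𝒪)) :=
      inferInstanceAs (Module.Finite (ResidueField 𝒪) (ResidueField 𝒪 × ResidueField 𝒪))
    exact IsArtinianRing.of_finite (ResidueField 𝒪) (DualNumber (ResidueField 𝒪))

/-- **TG1**: finitely many rigid type-`𝒟` deformations to the dual numbers. -/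
theorem tg_tangent_finite_rigid
    (ρbar : ResidualGaloisRep (ResidueField 𝒪))
    (hmat : HasMatrixRes ρbar (fun σ => (F.rt σ).map (residue 𝒪)))
    (hfin : TangentFinite 𝒪 ρbar 𝒟) :
    letI := dualAlg 𝒪
    Set.Finite {r : GQ → Matrix (Fin 2) (Fin 2) (DualNumber (ResidueField 𝒪)) |
      F.IsDefo 𝒟 (DualNumber (ResidueField 𝒪)) r} := by
  letI := dualAlg 𝒪
  letI : Algebra (ResidueField 𝒪) (ResidueField (DualNumber (ResidueField 𝒪))) :=
    ((IsLocalRing.residue (DualNumber (ResidueField 𝒪))).comp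
      (algebraMap (ResidueField 𝒪) (DualNumber (ResidueField 𝒪)))).toAlgebra
  unfold GaloisRep.TangentFinite at hfin
  have key : ∀ (s : Setoid {ρ : GaloisRepAdic (DualNumber (ResidueField 𝒪)) //
      𝒟 ρ ∧ ρ.residual.IsEquiv
        (ρbar.baseChange (ResidueField (DualNumber (ResidueField 𝒪))))}),
      (∀ a b, s.r a b ↔ a.1.IsEquiv b.1) → Finite (Quotient s) →
      Set.Finite {r : GQ → Matrix (Fin 2) (Fin 2) (DualNumber (ResidueField 𝒪)) |
        F.IsDefo 𝒟 (DualNumber (ResidueField 𝒪)) r} := by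
    intro s hs hfin'
    -- residual compatibility
    have hres : ∀ (r : GQ → Matrix (Fin 2) (Fin 2) (DualNumber (ResidueField 𝒪)))
        (_ : F.IsDefo 𝒟 (DualNumber (ResidueField 𝒪)) r)
        (ρ : GaloisRepAdic (DualNumber (ResidueField 𝒪))),
        HasMatrix ρ r → ρ.residual.IsEquiv
          (ρbar.baseChange (ResidueField (DualNumber (ResidueField 𝒪)))) := by
      intro r hr ρ hρ
      have h1 := hρ.residual
      have h2 := HasMatrixRes.baseChangeAlong
        ((IsLocalRing.residue (DualNumber (ResidueField 𝒪))).comp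
          (algebraMap (ResidueField 𝒪) (DualNumber (ResidueField 𝒪)))) hmat
      have h3 : (fun σ => (r σ).map (residue (DualNumber (ResidueField 𝒪)))) =
          (fun σ => ((F.rt σ).map (residue 𝒪)).map
            ((IsLocalRing.residue (DualNumber (ResidueField 𝒪))).comp
              (algebraMap (ResidueField 𝒪) (DualNumber (ResidueField 𝒪))))) := by
        funext σ
        refine Matrix.ext fun i j => ?_
        have h4 := hr.1.res σ i j
        simp only [Matrix.map_apply, RingHom.comp_apply]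
        rw [← sub_eq_zero, ← map_sub]
        exact (IsLocalRing.residue_eq_zero_iff _).mpr h4
      rw [h3] at h1
      exact h1.isEquiv h2
    let f : {r : GQ → Matrix (Fin 2) (Fin 2) (DualNumber (ResidueField 𝒪)) //
        F.IsDefo 𝒟 (DualNumber (ResidueField 𝒪)) r} → Quotient s := fun x =>
      Quotient.mk s ⟨Classical.choose x.2.2,
        (Classical.choose_spec x.2.2).1,
        hres x.1 x.2 _ (Classical.choose_spec x.2.2).2⟩
    have hf : Function.Injective f := by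
      rintro ⟨r, hr⟩ ⟨r', hr'⟩ h
      have h1 := (hs _ _).mp (Quotient.exact h)
      simp only at h1
      have h2 := (Classical.choose_spec hr.2).2
      have h3 := (Classical.choose_spec hr'.2).2
      have h4 := h2.of_isEquiv h1
      obtain ⟨X, Y, hXY, hYX, hconj⟩ := h4.exists_conj h3
      have := IsRigid.unique F.hne hr.1 hr'.1 X Y hXY hYX hconj
      exact Subtype.ext this.symm
    exact Set.finite_coe_iff.mp (Finite.of_injective f hf)
  exact key _ (fun a b => Iff.rfl) hfin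

omit [IsLocalRing 𝒪] in
/-- A finite set of functions is separated by finitely many points. -/
theorem tg_exists_separating {α β : Type*} {s : Set (α → β)} (hs : s.Finite) :
    ∃ S : Finset α, ∀ f ∈ s, ∀ g ∈ s, (∀ a ∈ S, f a = g a) → f = g := by
  classical
  have hch : ∀ p : (α → β) × (α → β), ∃ T : Finset α, p.1 ≠ p.2 → ∃ a ∈ T, p.1 a ≠ p.2 a := by
    intro p
    by_cases h : p.1 = p.2
    · exact ⟨∅, fun h' => absurd h h'⟩
    · obtain ⟨a, ha⟩ := Function.ne_iff.mp h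
      exact ⟨{a}, fun _ => ⟨a, Finset.mem_singleton_self a, ha⟩⟩
  choose T hT using hch
  refine ⟨(hs.toFinset ×ˢ hs.toFinset).biUnion T, ?_⟩
  intro f hf g hg hfg
  by_contra hne
  obtain ⟨a, haT, ha⟩ := hT (f, g) hne
  apply ha
  apply hfg
  rw [Finset.mem_biUnion]
  exact ⟨(f, g), by simp [hf, hg], haT⟩

/-- The "constant part" endomorphism `a + bε ↦ a` of the dual numbers, as an `𝒪`-algebra map
for `dualAlg`. -/
noncomputable def tg_constPart :
    letI := dualAlg 𝒪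
    DualNumber (ResidueField 𝒪) →ₐ[𝒪] DualNumber (ResidueField 𝒪) :=
  letI := dualAlg 𝒪
  { toRingHom := (TrivSqZeroExt.inlHom (ResidueField 𝒪) (ResidueField 𝒪)).comp
      (TrivSqZeroExt.fstHom (ResidueField 𝒪) (ResidueField 𝒪) (ResidueField 𝒪)).toRingHom
    commutes' := fun c => by
      show TrivSqZeroExt.inl (TrivSqZeroExt.fst
        (TrivSqZeroExt.inl (residue 𝒪 c) : DualNumber (ResidueField 𝒪))) =
          TrivSqZeroExt.inl (residue 𝒪 c)
      rw [TrivSqZeroExt.fst_inl] }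

theorem tg_constPart_apply (x : DualNumber (ResidueField 𝒪)) :
    letI := dualAlg 𝒪
    tg_constPart (𝒪 := 𝒪) x = TrivSqZeroExt.inl x.fst := rfl

/-- **TG2**: finitely many group elements whose matrix entries generate the cotangent space of
every Artinian test algebra carrying a rigid type-`𝒟` deformation with generating entries. -/
theorem tg_exists_generators
    (h𝒟 : IsDeformationCondition 𝒪 𝒟)
    (ρbar : ResidualGaloisRep (ResidueField 𝒪))
    (hmat : HasMatrixRes ρbar (fun σ => (F.rt σ).map (residue 𝒪)))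
    (hfin : TangentFinite 𝒪 ρbar 𝒟) :
    ∃ S : Finset GQ, ∀ (B : Type) [CommRing B] [IsLocalRing B] [Algebra 𝒪 B],
      IsArtinianTestAlgebra 𝒪 B →
      ∀ r : GQ → Matrix (Fin 2) (Fin 2) B, F.IsDefo 𝒟 B r →
      Algebra.adjoin 𝒪 {x : B | ∃ σ i j, r σ i j = x} = ⊤ →
      maximalIdeal B ≤ (maximalIdeal 𝒪).map (algebraMap 𝒪 B) ⊔
        Ideal.span {x : B | ∃ σ ∈ S, ∃ i j, x = r σ i j - algebraMap 𝒪 B (F.rt σ i j)} ⊔
        maximalIdeal B ^ 2 := by
  classical
  letI := dualAlg 𝒪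
  have hfinset := tg_tangent_finite_rigid (F := F) ρbar hmat hfin
  obtain ⟨S, hS⟩ := tg_exists_separating hfinset
  refine ⟨S, ?_⟩
  intro B _ _ _ hB r hr hgen
  set T : Ideal B := (maximalIdeal 𝒪).map (algebraMap 𝒪 B) ⊔
        Ideal.span {x : B | ∃ σ ∈ S, ∃ i j, x = r σ i j - algebraMap 𝒪 B (F.rt σ i j)} ⊔
        maximalIdeal B ^ 2 with hT
  by_contra hle
  obtain ⟨x, hxm, hxT⟩ := SetLike.not_le_iff_exists.mp hle
  have hTne : T ≠ ⊤ := fun h => hxT (h ▸ Submodule.mem_top)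
  haveI : Nontrivial (B ⧸ T) := Ideal.Quotient.nontrivial_iff.mpr hTne
  haveI : IsLocalRing (B ⧸ T) :=
    IsLocalRing.of_surjective' (Ideal.Quotient.mk T) Ideal.Quotient.mk_surjective
  haveI hmkloc : IsLocalHom (Ideal.Quotient.mk T) :=
    IsLocalHom.of_surjective (Ideal.Quotient.mk T) Ideal.Quotient.mk_surjective
  have hmkmem : ∀ y : B, y ∈ maximalIdeal B → Ideal.Quotient.mk T y ∈ maximalIdeal (B ⧸ T) := by
    intro y hy
    rw [mem_maximalIdeal, mem_nonunits_iff] at hy ⊢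
    intro hu
    exact hy (hmkloc.map_nonunit y hu)
  -- hypotheses of the dual-number lemma for `B ⧸ T`
  have hloc : IsLocalHom (algebraMap 𝒪 (B ⧸ T)) := by
    haveI := hB.isLocalHom
    have : algebraMap 𝒪 (B ⧸ T) = (Ideal.Quotient.mk T).comp (algebraMap 𝒪 B) := rfl
    rw [this]
    infer_instance
  have hsurj : Function.Surjective (residue (B ⧸ T) ∘ algebraMap 𝒪 (B ⧸ T)) := by
    intro y
    obtain ⟨y', rfl⟩ := IsLocalRing.residue_surjective y
    obtain ⟨b, rfl⟩ := Ideal.Quotient.mk_surjective y'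
    obtain ⟨c, hc⟩ := hB.residue_surjective (residue B b)
    refine ⟨c, ?_⟩
    simp only [Function.comp_apply] at hc ⊢
    rw [← sub_eq_zero, ← map_sub, IsLocalRing.residue_eq_zero_iff] at hc ⊢
    have := hmkmem _ hc
    simpa using this
  have hmax : maximalIdeal (B ⧸ T) = (maximalIdeal B).map (Ideal.Quotient.mk T) := by
    ext y
    obtain ⟨b, rfl⟩ := Ideal.Quotient.mk_surjective y
    constructor
    · intro hy
      apply Ideal.mem_map_of_mem
      rw [mem_maximalIdeal, mem_nonunits_iff] at hy ⊢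
      intro hu
      exact hy (hu.map _)
    · intro hy
      obtain ⟨b', hb', hbb'⟩ := (Ideal.mem_map_iff_of_surjective _
        Ideal.Quotient.mk_surjective).mp hy
      rw [← hbb']
      exact hmkmem _ hb'
  have hsq : maximalIdeal (B ⧸ T) ^ 2 = ⊥ := by
    rw [hmax, ← Ideal.map_pow, Ideal.map_eq_bot_iff_le_ker, Ideal.mk_ker]
    exact le_sup_right
  have hπ : ∀ c ∈ maximalIdeal 𝒪, algebraMap 𝒪 (B ⧸ T) c = 0 := by
    intro c hc
    have : algebraMap 𝒪 (B ⧸ T) c = Ideal.Quotient.mk T (algebraMap 𝒪 B c) := rfl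
    rw [this, Ideal.Quotient.eq_zero_iff_mem]
    exact le_sup_left (a := (maximalIdeal 𝒪).map (algebraMap 𝒪 B) ⊔
        Ideal.span {x : B | ∃ σ ∈ S, ∃ i j, x = r σ i j - algebraMap 𝒪 B (F.rt σ i j)})
      (le_sup_left (a := (maximalIdeal 𝒪).map (algebraMap 𝒪 B))
        (Ideal.mem_map_of_mem _ hc))
  obtain ⟨φ, hφ⟩ := exists_algHom_dualNumber 𝒪 (B ⧸ T) hloc hsurj hsq hπ
    (Ideal.Quotient.mk T x) (by rwa [Ne, Ideal.Quotient.eq_zero_iff_mem])
  -- the two maps to the dual numbers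
  let lam : B →ₐ[𝒪] DualNumber (ResidueField 𝒪) := φ.comp (Ideal.Quotient.mkₐ 𝒪 T)
  let lam0 : B →ₐ[𝒪] DualNumber (ResidueField 𝒪) := (tg_constPart (𝒪 := 𝒪)).comp lam
  have hdual := tg_dual_isArtinianTestAlgebra (𝒪 := 𝒪)
  have hlamloc : IsLocalHom (lam : B →+* DualNumber (ResidueField 𝒪)) :=
    isLocalHom_of_algHom 𝒪 hdual.residue_surjective hdual.isLocalHom lam
  have h1 := hr.map h𝒟 hB hdual lam
  have h2 := hr.map h𝒟 hB hdual lam0
  -- they agree on `S`
  have hagree : ∀ σ ∈ S, (fun σ => (r σ).map lam) σ = (fun σ => (r σ).map lam0) σ := by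
    intro σ hσ
    refine Matrix.ext fun i j => ?_
    simp only [Matrix.map_apply]
    have h3 : r σ i j - algebraMap 𝒪 B (F.rt σ i j) ∈ T :=
      le_sup_left (a := (maximalIdeal 𝒪).map (algebraMap 𝒪 B) ⊔
        Ideal.span {x : B | ∃ σ ∈ S, ∃ i j, x = r σ i j - algebraMap 𝒪 B (F.rt σ i j)})
        (le_sup_right (a := (maximalIdeal 𝒪).map (algebraMap 𝒪 B))
          (Ideal.subset_span ⟨σ, hσ, i, j, rfl⟩))
    have h4 : lam (r σ i j - algebraMap 𝒪 B (F.rt σ i j)) = 0 := by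
      show φ (Ideal.Quotient.mk T (r σ i j - algebraMap 𝒪 B (F.rt σ i j))) = 0
      rw [Ideal.Quotient.eq_zero_iff_mem.mpr h3, map_zero]
    have h5 : lam (r σ i j) = algebraMap 𝒪 (DualNumber (ResidueField 𝒪)) (F.rt σ i j) := by
      rw [map_sub, sub_eq_zero, AlgHom.commutes] at h4
      exact h4
    show lam (r σ i j) = tg_constPart (𝒪 := 𝒪) (lam (r σ i j))
    rw [h5]
    rfl
  have heq := hS _ h1 _ h2 hagree
  have hlam : lam = lam0 := by
    apply AlgHom.ext_of_adjoin_eq_top hgen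
    rintro y ⟨σ, i, j, rfl⟩
    have := congrFun (congrFun (congrFun heq σ) i) j
    simpa using this
  -- contradiction at `x`
  apply hφ
  have h6 : lam x = lam0 x := by rw [hlam]
  have h7 : (lam x).fst = 0 := by
    by_contra hne0
    have hu : IsUnit (lam x) := by
      rw [TrivSqZeroExt.isUnit_iff_isUnit_fst]
      exact isUnit_iff_ne_zero.mpr hne0
    have := hlamloc.map_nonunit x hu
    rw [mem_maximalIdeal, mem_nonunits_iff] at hxm
    exact hxm this
  have h8 : lam0 x = 0 := by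
    show tg_constPart (𝒪 := 𝒪) (lam x) = 0
    rw [tg_constPart_apply, h7, TrivSqZeroExt.inl_zero]
  show lam x = 0
  rw [h6, h8]

/-- **TG-tangent**: `TangentFinite` gives finitely many elements of `F.mLam` generating the
cotangent space of every good quotient. -/
theorem Frame.exists_tangent_generators [IsNoetherianRing 𝒪] [Finite (ResidueField 𝒪)]
    (h𝒟 : IsDeformationCondition 𝒪 𝒟)
    (ρbar : ResidualGaloisRep (ResidueField 𝒪))
    (hmat : HasMatrixRes ρbar (fun σ => (F.rt σ).map (residue 𝒪)))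
    (hfin : TangentFinite 𝒪 ρbar 𝒟) :
    ∃ (d : ℕ) (t : Fin d → Lam 𝒪), (∀ i, t i ∈ F.mLam) ∧
      ∀ 𝔞, F.Good 𝒟 𝔞 → F.mLam ≤ Ideal.span (Set.range t) ⊔ F.mLam ^ 2 ⊔ 𝔞 := by
  classical
  obtain ⟨S, hS⟩ := tg_exists_generators (F := F) h𝒟 ρbar hmat hfin
  obtain ⟨s, hs⟩ := (IsNoetherian.noetherian (maximalIdeal 𝒪) : (maximalIdeal 𝒪).FG)
  -- the finite generating set
  let U : Set (Lam 𝒪) := (fun c : 𝒪 => (MvPolynomial.C c : Lam 𝒪)) '' (s : Set 𝒪) ∪
    (fun p : GQ × Fin 2 × Fin 2 =>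
      (MvPolynomial.X p - MvPolynomial.C (F.rt p.1 p.2.1 p.2.2) : Lam 𝒪)) ''
        ((S : Set GQ) ×ˢ (Set.univ : Set (Fin 2 × Fin 2)))
  have hUfin : U.Finite :=
    (s.finite_toSet.image _).union ((S.finite_toSet.prod Set.finite_univ).image _)
  obtain ⟨d, t, -, ht⟩ := hUfin.fin_param
  have hsm : ∀ c ∈ s, c ∈ maximalIdeal 𝒪 := fun c hc => by
    rw [← hs]
    exact Ideal.subset_span hc
  have hUm : ∀ u ∈ U, u ∈ F.mLam := by
    rintro u (⟨c, hc, rfl⟩ | ⟨⟨σ, i, j⟩, -, rfl⟩)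
    · exact F.C_mem_mLam.mpr (hsm c hc)
    · exact F.X_sub_C_mem σ i j
  refine ⟨d, t, fun i => hUm _ (ht ▸ Set.mem_range_self i), ?_⟩
  intro 𝔞 h𝔞
  obtain ⟨h1, ⟨N, h2⟩, hfin𝔞, hloc, hdef⟩ := h𝔞
  have hB : IsArtinianTestAlgebra 𝒪 (Lam 𝒪 ⧸ 𝔞) := F.isArtinianTestAlgebra_quot h1
  have hgen : Algebra.adjoin 𝒪 {x : Lam 𝒪 ⧸ 𝔞 | ∃ σ i j, tautQ 𝔞 σ i j = x} = ⊤ := by
    have h3 : {x : Lam 𝒪 ⧸ 𝔞 | ∃ σ i j, tautQ 𝔞 σ i j = x} =
        (Ideal.Quotient.mkₐ 𝒪 𝔞) '' (Set.range (MvPolynomial.X : GQ × Fin 2 × Fin 2 → Lam 𝒪)) := by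
      ext x
      constructor
      · rintro ⟨σ, i, j, rfl⟩
        exact ⟨_, ⟨(σ, i, j), rfl⟩, rfl⟩
      · rintro ⟨_, ⟨⟨σ, i, j⟩, rfl⟩, rfl⟩
        exact ⟨σ, i, j, rfl⟩
    rw [h3, ← AlgHom.map_adjoin, MvPolynomial.adjoin_range_X, Algebra.map_top,
      AlgHom.range_eq_top]
    exact Ideal.Quotient.mkₐ_surjective 𝒪 𝔞
  have key := hS (Lam 𝒪 ⧸ 𝔞) hB (tautQ 𝔞) hdef hgen
  -- pull back along the quotient map
  have hmap : (maximalIdeal 𝒪).map (algebraMap 𝒪 (Lam 𝒪 ⧸ 𝔞)) ⊔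
      Ideal.span {x : Lam 𝒪 ⧸ 𝔞 | ∃ σ ∈ S, ∃ i j,
        x = tautQ 𝔞 σ i j - algebraMap 𝒪 (Lam 𝒪 ⧸ 𝔞) (F.rt σ i j)} ⊔
      maximalIdeal (Lam 𝒪 ⧸ 𝔞) ^ 2 ≤
      (Ideal.span (Set.range t) ⊔ F.mLam ^ 2).map (Ideal.Quotient.mk 𝔞) := by
    rw [Ideal.map_sup]
    refine sup_le (sup_le ?_ ?_) ?_
    · refine le_sup_of_le_left ?_
      rw [Ideal.map_le_iff_le_comap, ← hs, Ideal.span_le]
      intro c hc
      rw [SetLike.mem_coe, Ideal.mem_comap]
      have h4 : algebraMap 𝒪 (Lam 𝒪 ⧸ 𝔞) c = Ideal.Quotient.mk 𝔞 (MvPolynomial.C c) := rfl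
      rw [h4]
      apply Ideal.mem_map_of_mem
      apply Ideal.subset_span
      rw [ht]
      exact Or.inl ⟨c, hc, rfl⟩
    · refine le_sup_of_le_left ?_
      rw [Ideal.span_le]
      rintro x ⟨σ, hσ, i, j, rfl⟩
      have h4 : tautQ 𝔞 σ i j - algebraMap 𝒪 (Lam 𝒪 ⧸ 𝔞) (F.rt σ i j) =
          Ideal.Quotient.mk 𝔞 (MvPolynomial.X (σ, i, j) - MvPolynomial.C (F.rt σ i j)) := by
        rw [map_sub]
        rfl
      rw [SetLike.mem_coe, h4]
      apply Ideal.mem_map_of_mem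
      apply Ideal.subset_span
      rw [ht]
      exact Or.inr ⟨(σ, i, j), ⟨hσ, Set.mem_univ _⟩, rfl⟩
    · refine le_sup_of_le_right ?_
      rw [F.maximalIdeal_quot h1, Ideal.map_pow]
  intro x hx
  have hx' : Ideal.Quotient.mk 𝔞 x ∈ maximalIdeal (Lam 𝒪 ⧸ 𝔞) :=
    (F.mk_mem_maximalIdeal_iff h1 x).mpr hx
  have hx'' := hmap (key hx')
  obtain ⟨y, hy, hyx⟩ := (Ideal.mem_map_iff_of_surjective _ Ideal.Quotient.mk_surjective).mp hx''
  have hxy : x - y ∈ 𝔞 := by
    rw [← Ideal.Quotient.eq_zero_iff_mem, map_sub, hyx, sub_self]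
  have : x = y + (x - y) := by ring
  rw [this]
  exact Submodule.add_mem_sup hy hxy

end TG

end Fermat.Agent.S53
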