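import Fermat.Agent.S53.Good

/-!
# S53 — task FA-rep (owner: helper43): the universal representation over the limit ring
-/

set_option autoImplicit false

namespace Fermat.Agent.S53

open IsLocalRing GaloisRep

/-- Hausdorff: an element lying in all positive powers of the maximal ideal is zero. -/
theorem univRep_eq_zero_of_forall_mem {R : Type} [CommRing R] [IsLocalRing R]
    [IsHausdorff (maximalIdeal R) R] {x : R}
    (h : ∀ n, 1 ≤ n → x ∈ maximalIdeal R ^ n) : x = 0 := by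
  refine IsHausdorff.haus (I := maximalIdeal R) inferInstance x fun n => ?_
  rw [SModEq.zero, smul_eq_mul, Ideal.mul_top]
  rcases n with _ | n
  · simp
  · exact h _ (Nat.succ_le_succ (Nat.zero_le _))

section FA
variable {𝒪 : Type} [CommRing 𝒪] [IsLocalRing 𝒪]
  {𝒟 : ∀ ⦃A : Type⦄ [CommRing A] [IsLocalRing A] [Algebra 𝒪 A], GaloisRepAdic A → Prop}
  {F : Frame 𝒪}

/-- (F-b) the tautological matrices over the limit ring form a rigid continuous representation. -/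
theorem exists_universal_rep
    {R : Type} [CommRing R] [IsLocalRing R] [Algebra 𝒪 R] [IsHausdorff (maximalIdeal R) R]
    (Θ : Lam 𝒪 →ₐ[𝒪] R)
    (hΘ : ∀ n, 1 ≤ n → F.Good 𝒟 (Ideal.comap Θ (maximalIdeal R ^ n))) :
    ∃ ρ : GaloisRepAdic R, HasMatrix ρ (fun σ => (taut 𝒪 σ).map Θ) ∧
      IsRigid F.rt F.g0 F.g1 F.i0 F.j0 (fun σ => (taut 𝒪 σ).map Θ) := by
  have hzero : ∀ x : Lam 𝒪, (∀ n, 1 ≤ n → x ∈ Ideal.comap Θ (maximalIdeal R ^ n)) → Θ x = 0 :=
    fun x hx => univRep_eq_zero_of_forall_mem (fun n hn => hx n hn)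
  have hmat0 : ∀ M : Matrix (Fin 2) (Fin 2) (Lam 𝒪),
      (∀ n, 1 ≤ n → ∀ i j, M i j ∈ Ideal.comap Θ (maximalIdeal R ^ n)) →
        (Θ : Lam 𝒪 →+* R).mapMatrix M = 0 := by
    intro M hM
    ext i j
    exact hzero _ (fun n hn => hM n hn i j)
  have hcoe : ∀ σ : GQ, (taut 𝒪 σ).map Θ = (Θ : Lam 𝒪 →+* R).mapMatrix (taut 𝒪 σ) :=
    fun _ => rfl
  have h1 : (taut 𝒪 1).map Θ = 1 := by
    have h := hmat0 (taut 𝒪 1 - 1)
      (fun n hn => (tautQ_eq_one_iff _ 1).mp (hΘ n hn).tautQ_one)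
    rw [map_sub, map_one, sub_eq_zero] at h
    rw [hcoe, h]
  have hmul : ∀ σ τ : GQ,
      (taut 𝒪 (σ * τ)).map Θ = (taut 𝒪 σ).map Θ * (taut 𝒪 τ).map Θ := by
    intro σ τ
    have h := hmat0 (taut 𝒪 (σ * τ) - taut 𝒪 σ * taut 𝒪 τ)
      (fun n hn => (tautQ_mul_iff _ σ τ).mp ((hΘ n hn).tautQ_mul σ τ))
    rw [map_sub, map_mul, sub_eq_zero] at h
    rw [hcoe, hcoe, hcoe, h]
  have hc : MatCont (fun σ => (taut 𝒪 σ).map Θ) := by
    intro n
    obtain ⟨L, hL, hL'⟩ := (hΘ (n + 1) (Nat.succ_le_succ (Nat.zero_le _))).exists_level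
    refine ⟨L, hL, fun σ hσ i j => ?_⟩
    have h := (tautQ_eq_one_iff _ σ).mp (hL' σ hσ) i j
    have h2 : Θ ((taut 𝒪 σ - 1) i j) ∈ maximalIdeal R ^ (n + 1) := h
    have h3 : ((taut 𝒪 σ).map Θ - 1) i j = Θ ((taut 𝒪 σ - 1) i j) := by
      by_cases hij : i = j <;> simp [Matrix.sub_apply, hij]
    rw [h3]
    exact Ideal.pow_le_pow_right (Nat.le_succ n) h2
  obtain ⟨ρ, hρ⟩ := exists_rep_of_matrix (fun σ => (taut 𝒪 σ).map Θ) h1 hmul hc
  refine ⟨ρ, hρ, ?_⟩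
  -- rigidity
  have hC : ∀ c : 𝒪, Θ (MvPolynomial.C c) = algebraMap 𝒪 R c := by
    intro c
    rw [← MvPolynomial.algebraMap_eq, AlgHom.commutes]
  have hle : F.mLam ≤ Ideal.comap Θ (maximalIdeal R) := by
    obtain ⟨N, hN⟩ := (hΘ 1 le_rfl).pow_le
    rw [pow_one] at hN
    have : (Ideal.comap Θ (maximalIdeal R)).IsPrime := Ideal.comap_isPrime Θ _
    exact Ideal.IsPrime.le_of_pow_le (n := N) hN
  have hrigid : ∀ n, 1 ≤ n →
      (MvPolynomial.X (F.g0, 0, 0) ∈ Ideal.comap Θ (maximalIdeal R ^ n) ∧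
        MvPolynomial.X (F.g0, 1, 0) - 1 ∈ Ideal.comap Θ (maximalIdeal R ^ n) ∧
        MvPolynomial.X (F.g1, F.i0, F.j0) - MvPolynomial.C (F.rt F.g1 F.i0 F.j0) ∈
          Ideal.comap Θ (maximalIdeal R ^ n)) := by
    intro n hn
    obtain ⟨h1n, -, -, hloc, hrig, -⟩ := hΘ n hn
    exact (F.isRigid_tautQ_iff h1n).mp hrig
  refine ⟨fun σ i j => ?_, ?_, ?_, ?_⟩
  · have h := hle (F.X_sub_C_mem σ i j)
    rw [Ideal.mem_comap, map_sub, hC] at h
    exact h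
  · exact hzero _ (fun n hn => (hrigid n hn).1)
  · have h := hzero _ (fun n hn => (hrigid n hn).2.1)
    rw [map_sub, map_one, sub_eq_zero] at h
    exact h
  · have h := hzero _ (fun n hn => (hrigid n hn).2.2)
    rw [map_sub, hC, sub_eq_zero] at h
    exact h

/-- (F-a) the universal representation is of type `𝒟`. -/
theorem type_of_universal_rep (h𝒟 : IsDeformationCondition 𝒪 𝒟)
    {R : Type} [CommRing R] [IsLocalRing R] [IsNoetherianRing R]
    [IsAdicComplete (maximalIdeal R) R] [Algebra 𝒪 R]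
    (hloc : IsLocalHom (algebraMap 𝒪 R))
    (hsurj : Function.Surjective (IsLocalRing.residue R ∘ algebraMap 𝒪 R))
    (Θ : Lam 𝒪 →ₐ[𝒪] R)
    (hΘ : ∀ n, 1 ≤ n → F.Good 𝒟 (Ideal.comap Θ (maximalIdeal R ^ n)))
    (ρ : GaloisRepAdic R) (hm : HasMatrix ρ (fun σ => (taut 𝒪 σ).map Θ)) : 𝒟 ρ := by
  rw [h𝒟.iff_forall_surjective hloc hsurj ρ]
  intro B _ _ _ hB q hq _
  have := hB.isArtinian
  obtain ⟨n, hn⟩ := IsArtinianRing.isNilpotent_jacobson_bot (R := B)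
  rw [IsLocalRing.jacobson_eq_maximalIdeal ⊥ bot_ne_top] at hn
  have hn' : maximalIdeal B ^ (n + 1) = ⊥ := by
    rw [pow_succ, hn, Ideal.zero_eq_bot, Ideal.bot_mul]
  obtain ⟨h1, -, hfin, hlocq, hdef⟩ := hΘ (n + 1) (Nat.succ_le_succ (Nat.zero_le _))
  have hker : ∀ a ∈ Ideal.comap Θ (maximalIdeal R ^ (n + 1)), (q.comp Θ) a = 0 := by
    intro a ha
    have h2 : Θ a ∈ maximalIdeal R ^ (n + 1) := ha
    have hmap : (maximalIdeal R).map (q : R →+* B) ≤ maximalIdeal B :=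
      ((IsLocalRing.local_hom_TFAE (q : R →+* B)).out 0 2).mp hq
    have h3 : (q : R →+* B) (Θ a) ∈ maximalIdeal B ^ (n + 1) := by
      have h4 : (maximalIdeal R ^ (n + 1)).map (q : R →+* B) ≤ maximalIdeal B ^ (n + 1) := by
        rw [Ideal.map_pow]
        exact Ideal.pow_right_mono hmap _
      exact h4 (Ideal.mem_map_of_mem _ h2)
    rw [hn', Ideal.mem_bot] at h3
    exact h3
  have hA := F.isArtinianTestAlgebra_quot h1
  obtain ⟨-, ρB, hρB, hmB⟩ := hdef.map h𝒟 hA hB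
    (Ideal.Quotient.liftₐ (Ideal.comap Θ (maximalIdeal R ^ (n + 1))) (q.comp Θ) hker)
  have hmat : (fun σ => (tautQ (Ideal.comap Θ (maximalIdeal R ^ (n + 1))) σ).map
      (Ideal.Quotient.liftₐ (Ideal.comap Θ (maximalIdeal R ^ (n + 1))) (q.comp Θ) hker)) =
      (fun σ => ((taut 𝒪 σ).map Θ).map (q : R →+* B)) := by
    funext σ
    ext i j
    simp only [tautQ, Matrix.map_apply]
    rfl
  rw [hmat] at hmB
  exact h𝒟.of_isEquiv hB (hmB.isEquiv (hm.baseChangeAlong (q : R →+* B) hq)) hρB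
end FA

end Fermat.Agent.S53
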