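import Mathlib
import Fermat.Prelude.Thm_IsAdicComplete_of_module_finite

set_option autoImplicit false

namespace Fermat.Agent.S53

/-- Successive congruences give general congruences. -/
theorem h48_cauchy_of_succ {P : Type*} [CommRing P] (I : Ideal P) (w : ℕ → P)
    (h : ∀ m, w m - w (m + 1) ∈ I ^ m) {m n : ℕ} (hmn : m ≤ n) : w m - w n ∈ I ^ m := by
  induction n, hmn using Nat.le_induction with
  | base => simp
  | succ k hk ih =>
    have h1 : w k - w (k + 1) ∈ I ^ m := Ideal.pow_le_pow_right hk (h k)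
    have : w m - w (k + 1) = (w m - w k) + (w k - w (k + 1)) := by ring
    rw [this]
    exact Ideal.add_mem _ ih h1

/-- Limits of `I`-adic Cauchy sequences (given by successive congruences) in a precomplete ring. -/
theorem h48_exists_limit {P : Type*} [CommRing P] (I : Ideal P) [IsPrecomplete I P] (w : ℕ → P)
    (h : ∀ m, w m - w (m + 1) ∈ I ^ m) : ∃ L : P, ∀ m, w m - L ∈ I ^ m := by
  obtain ⟨L, hL⟩ := IsPrecomplete.prec' (I := I) w (by
    intro m n hmn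
    rw [SModEq.sub_mem, smul_eq_mul, Ideal.mul_top]
    exact h48_cauchy_of_succ I w h hmn)
  refine ⟨L, fun m => ?_⟩
  have := hL m
  rwa [SModEq.sub_mem, smul_eq_mul, Ideal.mul_top] at this

/-- Chevalley-type tower lemma: in an `I`-adically precomplete ring, a decreasing tower of
ideals `K n ⊇ I ^ n` with `K n ≤ K (n+1) ⊔ I ^ n` satisfies `K n ≤ (⨅ m, K m) ⊔ I ^ n`. -/
theorem h48_tower_le {P : Type*} [CommRing P] (I : Ideal P) [IsPrecomplete I P]
    (K : ℕ → Ideal P) (hanti : Antitone K) (hIK : ∀ n, I ^ n ≤ K n)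
    (hK : ∀ n, K n ≤ K (n + 1) ⊔ I ^ n) (n : ℕ) :
    K n ≤ (⨅ m, K m) ⊔ I ^ n := by
  intro x hx
  have key : ∃ u : ℕ → P, u 0 = x ∧ (∀ j, u j ∈ K (n + j)) ∧
      ∀ j, u j - u (j + 1) ∈ I ^ (n + j) := by
    have step : ∀ j (y : K (n + j)), ∃ z : K (n + j + 1), (y : P) - z ∈ I ^ (n + j) := by
      intro j y
      obtain ⟨a, ha, b, hb, hab⟩ := Submodule.mem_sup.mp (hK (n + j) y.2)
      refine ⟨⟨a, ha⟩, ?_⟩
      have : (y : P) - a = b := by rw [← hab]; ring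
      rw [this]; exact hb
    choose nxt hnxt using step
    let seq : (j : ℕ) → K (n + j) := fun j => Nat.rec (motive := fun j => K (n + j)) ⟨x, hx⟩
      (fun j y => nxt j y) j
    exact ⟨fun j => (seq j : P), rfl, fun j => (seq j).2, fun j => hnxt j (seq j)⟩
  obtain ⟨u, hu0, huK, huS⟩ := key
  let w : ℕ → P := fun m => u (m - n)
  have hw : ∀ m, w m - w (m + 1) ∈ I ^ m := by
    intro m
    by_cases hmn : n ≤ m
    · have h1 : m + 1 - n = (m - n) + 1 := by omega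
      have h2 : n + (m - n) = m := by omega
      have := huS (m - n)
      rw [h2] at this
      simpa only [w, h1] using this
    · have h1 : m + 1 - n = 0 := by omega
      have h2 : m - n = 0 := by omega
      simp only [w, h1, h2, sub_self, Ideal.zero_mem]
  obtain ⟨L, hL⟩ := h48_exists_limit I w hw
  have hwn : w n = x := by simp only [w, Nat.sub_self]; exact hu0
  have hLK : ∀ m, n ≤ m → L ∈ K m := by
    intro m hm
    have h2 : n + (m - n) = m := by omega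
    have h1 : w m ∈ K m := by
      have := huK (m - n)
      rw [h2] at this
      exact this
    have h3 : w m - L ∈ K m := hIK m (hL m)
    have : L = w m - (w m - L) := by ring
    rw [this]
    exact Ideal.sub_mem _ h1 h3
  have hLinf : L ∈ ⨅ m, K m := by
    rw [Ideal.mem_iInf]
    intro m
    by_cases hm : n ≤ m
    · exact hLK m hm
    · exact hanti (by omega : m ≤ n) (hLK n le_rfl)
  have hxL : x - L ∈ I ^ n := by rw [← hwn]; exact hL n
  have : x = L + (x - L) := by ring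
  rw [this]
  exact Ideal.add_mem _ (Ideal.mem_sup_left hLinf) (Ideal.mem_sup_right hxL)

/-- Nilpotent Nakayama for ideals: `𝔫 ≤ 𝔞 ⊔ 𝔫 ^ 2` and `𝔫` nilpotent imply `𝔫 ≤ 𝔞`. -/
theorem h48_le_of_le_sup_sq {Q : Type*} [CommRing Q] (𝔫 𝔞 : Ideal Q) (N : ℕ) (hN : 𝔫 ^ N = ⊥)
    (h : 𝔫 ≤ 𝔞 ⊔ 𝔫 ^ 2) : 𝔫 ≤ 𝔞 := by
  have key : ∀ k, 𝔫 ≤ 𝔞 ⊔ 𝔫 ^ (k + 1) := by
    intro k
    induction k with
    | zero => rw [zero_add, pow_one]; exact le_sup_right
    | succ k ih =>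
      have h2 : 𝔫 ^ 2 ≤ 𝔞 ⊔ 𝔫 ^ (k + 1 + 1) := by
        calc 𝔫 ^ 2 = 𝔫 * 𝔫 := sq 𝔫
          _ ≤ 𝔫 * (𝔞 ⊔ 𝔫 ^ (k + 1)) := Ideal.mul_mono_right ih
          _ = 𝔫 * 𝔞 ⊔ 𝔫 * 𝔫 ^ (k + 1) := Ideal.mul_sup _ _ _
          _ ≤ 𝔞 ⊔ 𝔫 ^ (k + 1 + 1) :=
            sup_le_sup Ideal.mul_le_right (le_of_eq (pow_succ' 𝔫 (k + 1)).symm)
      exact h.trans (sup_le le_sup_left h2)
  have h3 : 𝔫 ^ (N + 1) ≤ ⊥ := hN ▸ Ideal.pow_le_pow_right (Nat.le_succ N)
  calc 𝔫 ≤ 𝔞 ⊔ 𝔫 ^ (N + 1) := key N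
    _ ≤ 𝔞 ⊔ ⊥ := sup_le_sup le_rfl h3
    _ = 𝔞 := sup_bot_eq _

/-- A ring hom which is surjective modulo the nilpotent ideal generated by the image of `I`
is surjective. -/
theorem h48_surjective_of_nilpotent {P Q : Type*} [CommRing P] [CommRing Q] (φ : P →+* Q)
    (I : Ideal P) (N : ℕ) (hN : (I.map φ) ^ N = ⊥)
    (h1 : ∀ x : Q, ∃ p : P, x - φ p ∈ I.map φ) : Function.Surjective φ := by
  have key : ∀ k, ∀ x : Q, ∃ p : P, x - φ p ∈ (I.map φ) ^ (k + 1) := by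
    intro k
    induction k with
    | zero => intro x; simpa using h1 x
    | succ k ih =>
      intro x
      obtain ⟨p, hp⟩ := ih x
      have aux : ∀ y ∈ (I ^ (k + 1)).map φ, ∃ q : P, y - φ q ∈ (I.map φ) ^ (k + 1 + 1) := by
        intro y hy
        induction hy using Submodule.span_induction with
        | mem y hy =>
          obtain ⟨a, -, rfl⟩ := hy
          exact ⟨a, by simp⟩
        | zero => exact ⟨0, by simp⟩
        | add y z _ _ ihy ihz =>
          obtain ⟨q1, hq1⟩ := ihy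
          obtain ⟨q2, hq2⟩ := ihz
          refine ⟨q1 + q2, ?_⟩
          have : y + z - φ (q1 + q2) = (y - φ q1) + (z - φ q2) := by rw [map_add]; ring
          rw [this]; exact Ideal.add_mem _ hq1 hq2
        | smul c y hy ihy =>
          obtain ⟨q, hq⟩ := ihy
          obtain ⟨pc, hpc⟩ := h1 c
          refine ⟨pc * q, ?_⟩
          have hy' : y ∈ (I.map φ) ^ (k + 1) := by
            rw [← Ideal.map_pow]; exact hy
          have : c • y - φ (pc * q) = (c - φ pc) * y + φ pc * (y - φ q) := by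
            rw [map_mul, smul_eq_mul]; ring
          rw [this]
          refine Ideal.add_mem _ ?_ (Ideal.mul_mem_left _ _ hq)
          rw [pow_succ' (I.map φ) (k + 1)]
          exact Ideal.mul_mem_mul hpc hy'
      obtain ⟨q, hq⟩ := aux (x - φ p) (by rw [Ideal.map_pow]; exact hp)
      refine ⟨p + q, ?_⟩
      have : x - φ (p + q) = x - φ p - φ q := by rw [map_add]; ring
      rw [this]; exact hq
  intro x
  obtain ⟨p, hp⟩ := key N x
  have h3 : (I.map φ) ^ (N + 1) ≤ ⊥ := hN ▸ Ideal.pow_le_pow_right (Nat.le_succ N)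
  have := h3 hp
  rw [Ideal.mem_bot, sub_eq_zero] at this
  exact ⟨p, this.symm⟩

/-- Abstract assembly: a noetherian `I`-adically complete ring `P` with a compatible system of
surjections `ev n : P → Λ ⧸ J n` whose kernels form an `I`-adic tower gives the limit ring. -/
theorem h48_assemble
    {𝒪 : Type} [CommRing 𝒪] [IsLocalRing 𝒪]
    {Λ : Type} [CommRing Λ] [Algebra 𝒪 Λ]
    (𝔪 : Ideal Λ) [𝔪.IsMaximal]
    (hres : ∀ x : Λ, ∃ c : 𝒪, x - algebraMap 𝒪 Λ c ∈ 𝔪)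
    (J : ℕ → Ideal Λ) (hJ1 : J 1 = 𝔪)
    (P : Type) [CommRing P] [IsNoetherianRing P] [Algebra 𝒪 P] (I : Ideal P) [IsAdicComplete I P]
    (ev : ∀ n, P →+* Λ ⧸ J n)
    (hevC : ∀ n c, ev n (algebraMap 𝒪 P c) = Ideal.Quotient.mk (J n) (algebraMap 𝒪 Λ c))
    (hsurj : ∀ n, Function.Surjective (ev n))
    (hcompat : ∀ m n, m ≤ n → ∀ (f : P) (x : Λ), ev n f = Ideal.Quotient.mk (J n) x →
      ev m f = Ideal.Quotient.mk (J m) x)
    (hIK : ∀ n, I ^ n ≤ RingHom.ker (ev n))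
    (hKK : ∀ n, RingHom.ker (ev n) ≤ RingHom.ker (ev (n + 1)) ⊔ I ^ n) :
    ∃ (R : Type) (_ : CommRing R) (_ : IsLocalRing R) (_ : IsNoetherianRing R)
      (_ : IsAdicComplete (IsLocalRing.maximalIdeal R) R) (_ : Algebra 𝒪 R) (ι : Λ →ₐ[𝒪] R),
      IsLocalHom (algebraMap 𝒪 R) ∧
      Function.Surjective (IsLocalRing.residue R ∘ algebraMap 𝒪 R) ∧
      ∀ n,
        Function.Surjective (Ideal.Quotient.mk (IsLocalRing.maximalIdeal R ^ n) ∘ ι) ∧
        (IsLocalRing.maximalIdeal R ^ n).comap ι = J n := by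
  classical
  let K : ℕ → Ideal P := fun n => RingHom.ker (ev n)
  have hKmem : ∀ n f, f ∈ K n ↔ ev n f = 0 := fun n f => RingHom.mem_ker
  have hanti : Antitone K := antitone_nat_of_succ_le (fun n f hf => by
    rw [hKmem] at hf ⊢
    have := hcompat n (n + 1) (Nat.le_succ n) f 0 (by rw [hf, map_zero])
    rw [this, map_zero])
  let Kinf : Ideal P := ⨅ m, K m
  have hKeq : ∀ n, K n = Kinf ⊔ I ^ n := fun n =>
    le_antisymm (h48_tower_le I K hanti hIK hKK n) (sup_le (iInf_le K n) (hIK n))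
  let R := P ⧸ Kinf
  let π : P →+* R := Ideal.Quotient.mk Kinf
  have hπ : Function.Surjective π := Ideal.Quotient.mk_surjective
  let 𝔐 : Ideal R := I.map π
  -- the induced maps on `R`
  let evbar : ∀ n, R →+* Λ ⧸ J n := fun n =>
    Ideal.Quotient.lift Kinf (ev n) (fun a ha => (hKmem n a).mp (Ideal.mem_iInf.mp ha n))
  have hevbar : ∀ n f, evbar n (π f) = ev n f := fun n f => Ideal.Quotient.lift_mk _ _ _
  have hmemP : ∀ n (f : P), π f ∈ 𝔐 ^ n ↔ ev n f = 0 := by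
    intro n f
    rw [← hKmem, hKeq n, ← Ideal.map_pow, ← Ideal.mem_comap,
      Ideal.comap_map_of_surjective π hπ, ← RingHom.ker_eq_comap_bot, Ideal.mk_ker, sup_comm]
  have hmem : ∀ n (r : R), r ∈ 𝔐 ^ n ↔ evbar n r = 0 := by
    intro n r
    obtain ⟨f, rfl⟩ := hπ r
    rw [hevbar, hmemP]
  have hinj : ∀ r r' : R, (∀ n, evbar n r = evbar n r') → r = r' := by
    intro r r' h
    obtain ⟨f, rfl⟩ := hπ r
    obtain ⟨f', rfl⟩ := hπ r'
    rw [Ideal.Quotient.eq, Ideal.mem_iInf]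
    intro n
    rw [hKmem, map_sub, sub_eq_zero, ← hevbar, ← hevbar, h n]
  -- completeness
  have hcompl : IsAdicComplete 𝔐 R := by
    have : IsAdicComplete I R := IsAdicComplete.of_module_finite I R
    exact (IsAdicComplete.map_algebraMap_iff I R (S := R)).mpr this
  -- maximality
  have hJ1max : (J 1).IsMaximal := hJ1 ▸ ‹𝔪.IsMaximal›
  have hK1max : (K 1).IsMaximal := by
    let _ := Ideal.Quotient.field (J 1)
    exact RingHom.ker_isMaximal_of_surjective (ev 1) (hsurj 1)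
  have h𝔐eq : 𝔐 = (K 1).map π := by
    rw [hKeq 1, pow_one, Ideal.map_sup, Ideal.map_quotient_self, bot_sup_eq]
  have h𝔐max : 𝔐.IsMaximal := by
    rw [h𝔐eq]
    exact Ideal.IsMaximal.map_of_surjective_of_ker_le hπ
      (by rw [Ideal.mk_ker]; exact iInf_le K 1)
  have hloc : IsLocalRing R := isLocalRing_of_isAdicComplete_maximal 𝔐
  have hmax : 𝔐 = IsLocalRing.maximalIdeal R := IsLocalRing.eq_maximalIdeal h𝔐max
  -- the map `ι`
  have hex : ∀ x : Λ, ∃ r : R, ∀ n, evbar n r = Ideal.Quotient.mk (J n) x := by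
    intro x
    have hg : ∀ n, ∃ g : P, ev n g = Ideal.Quotient.mk (J n) x := fun n => hsurj n _
    choose g hg using hg
    have hw : ∀ m, π (g m) - π (g (m + 1)) ∈ 𝔐 ^ m := by
      intro m
      rw [hmem, map_sub, hevbar, hevbar, hg m,
        hcompat m (m + 1) (Nat.le_succ m) (g (m + 1)) x (hg (m + 1)), sub_self]
    obtain ⟨L, hL⟩ := h48_exists_limit 𝔐 (fun m => π (g m)) hw
    refine ⟨L, fun n => ?_⟩
    have := (hmem n _).mp (hL n)
    rw [map_sub, sub_eq_zero, hevbar, hg n] at this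
    exact this.symm
  choose ιf hιf using hex
  have halg : ∀ c : 𝒪, algebraMap 𝒪 R c = π (algebraMap 𝒪 P c) := fun c => rfl
  let ι : Λ →ₐ[𝒪] R :=
    { toFun := ιf
      map_one' := hinj _ _ (fun n => by simp only [hιf, map_one])
      map_mul' := fun x y => hinj _ _ (fun n => by simp only [hιf, map_mul])
      map_zero' := hinj _ _ (fun n => by simp only [hιf, map_zero])
      map_add' := fun x y => hinj _ _ (fun n => by simp only [hιf, map_add])
      commutes' := fun c => hinj _ _ (fun n => by rw [hιf, halg, hevbar, hevC]) }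
  have hι : ∀ x n, evbar n (ι x) = Ideal.Quotient.mk (J n) x := hιf
  -- kernel of `𝒪 → Λ ⧸ 𝔪`
  have hker𝒪 : ∀ c : 𝒪, c ∈ IsLocalRing.maximalIdeal 𝒪 → algebraMap 𝒪 Λ c ∈ 𝔪 := by
    intro c hc
    let φ : 𝒪 →+* Λ ⧸ 𝔪 := (Ideal.Quotient.mk 𝔪).comp (algebraMap 𝒪 Λ)
    have hφ : Function.Surjective φ := by
      intro y
      obtain ⟨x, rfl⟩ := Ideal.Quotient.mk_surjective y
      obtain ⟨c, hc⟩ := hres x
      exact ⟨c, ((Ideal.Quotient.eq).mpr hc).symm⟩
    have : (RingHom.ker φ).IsMaximal := by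
      let _ := Ideal.Quotient.field 𝔪
      exact RingHom.ker_isMaximal_of_surjective φ hφ
    have h2 : RingHom.ker φ = IsLocalRing.maximalIdeal 𝒪 := IsLocalRing.eq_maximalIdeal this
    rw [← h2, RingHom.mem_ker] at hc
    exact Ideal.Quotient.eq_zero_iff_mem.mp hc
  refine ⟨R, inferInstance, hloc, inferInstance, hmax ▸ hcompl, inferInstance, ι, ?_, ?_, ?_⟩
  · -- local hom
    refine ⟨fun c hc => ?_⟩
    by_contra hcu
    have hcm : c ∈ IsLocalRing.maximalIdeal 𝒪 := (IsLocalRing.mem_maximalIdeal c).mpr hcu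
    have h1 : algebraMap 𝒪 R c ∈ 𝔐 ^ 1 := by
      rw [halg, hmemP, hevC, Ideal.Quotient.eq_zero_iff_mem, hJ1]
      exact hker𝒪 c hcm
    rw [pow_one, hmax] at h1
    exact (IsLocalRing.mem_maximalIdeal _).mp h1 hc
  · -- residue field
    intro y
    obtain ⟨r, rfl⟩ := IsLocalRing.residue_surjective y
    obtain ⟨f, rfl⟩ := hπ r
    obtain ⟨x, hx⟩ := Ideal.Quotient.mk_surjective (ev 1 f)
    obtain ⟨c, hc⟩ := hres x
    refine ⟨c, ?_⟩
    have h1 : π (algebraMap 𝒪 P c) - π f ∈ 𝔐 ^ 1 := by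
      rw [← map_sub, hmemP, map_sub, hevC, ← hx, ← map_sub, Ideal.Quotient.eq_zero_iff_mem, hJ1]
      have : algebraMap 𝒪 Λ c - x = -(x - algebraMap 𝒪 Λ c) := by ring
      rw [this]; exact neg_mem hc
    rw [pow_one, hmax] at h1
    have h2 := (IsLocalRing.residue_eq_zero_iff _).mpr h1
    rw [map_sub, sub_eq_zero] at h2
    exact h2
  · intro n
    rw [← hmax]
    constructor
    · intro y
      obtain ⟨r, rfl⟩ := Ideal.Quotient.mk_surjective y
      obtain ⟨x, hx⟩ := Ideal.Quotient.mk_surjective (evbar n r)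
      refine ⟨x, ?_⟩
      rw [Function.comp_apply, Ideal.Quotient.eq, hmem, map_sub, hι, hx, sub_self]
    · ext x
      rw [Ideal.mem_comap, hmem, hι, Ideal.Quotient.eq_zero_iff_mem]

/-- The tower limit, for towers normalised by `J 0 = ⊤` (so that all hypotheses hold for all
`n`). -/
theorem h48_tower_limit_aux
    {𝒪 : Type} [CommRing 𝒪] [IsNoetherianRing 𝒪] [IsLocalRing 𝒪]
    {Λ : Type} [CommRing Λ] [Algebra 𝒪 Λ]
    (𝔪 : Ideal Λ) [𝔪.IsMaximal]
    (hres : Function.Surjective (Ideal.Quotient.mk 𝔪 ∘ algebraMap 𝒪 Λ))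
    (J : ℕ → Ideal Λ) (hJ0 : J 0 = ⊤) (hJ1 : J 1 = 𝔪)
    (hJ : ∀ n, J n = J (n + 1) ⊔ 𝔪 ^ n)
    (d : ℕ) (t : Fin d → Λ) (ht : 𝔪 = Ideal.span (Set.range t) ⊔ J 2) :
    ∃ (R : Type) (_ : CommRing R) (_ : IsLocalRing R) (_ : IsNoetherianRing R)
      (_ : IsAdicComplete (IsLocalRing.maximalIdeal R) R) (_ : Algebra 𝒪 R) (ι : Λ →ₐ[𝒪] R),
      IsLocalHom (algebraMap 𝒪 R) ∧
      Function.Surjective (IsLocalRing.residue R ∘ algebraMap 𝒪 R) ∧
      ∀ n,
        Function.Surjective (Ideal.Quotient.mk (IsLocalRing.maximalIdeal R ^ n) ∘ ι) ∧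
        (IsLocalRing.maximalIdeal R ^ n).comap ι = J n := by
  classical
  -- elementwise form of `hres`
  have hres' : ∀ x : Λ, ∃ c : 𝒪, x - algebraMap 𝒪 Λ c ∈ 𝔪 := by
    intro x
    obtain ⟨c, hc⟩ := hres (Ideal.Quotient.mk 𝔪 x)
    exact ⟨c, Ideal.Quotient.eq.mp hc.symm⟩
  -- basic facts on the tower
  have hsucc : ∀ n, J (n + 1) ≤ J n := fun n => le_sup_left.trans (hJ n).ge
  have hpow : ∀ n, 𝔪 ^ n ≤ J n := fun n => le_sup_right.trans (hJ n).ge
  have hantiJ : Antitone J := antitone_nat_of_succ_le hsucc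
  have ht𝔪 : ∀ i, t i ∈ 𝔪 := fun i => by
    rw [ht]; exact Ideal.mem_sup_left (Ideal.subset_span ⟨i, rfl⟩)
  have hJ2 : ∀ n, J 2 ≤ J n ⊔ 𝔪 ^ 2 := by
    intro n
    induction n with
    | zero => rw [hJ0]; exact le_top.trans le_sup_left
    | succ n ih =>
      by_cases hn : n + 1 ≤ 2
      · exact (hantiJ hn).trans le_sup_left
      · have hn2 : 2 ≤ n := by omega
        calc J 2 ≤ J n ⊔ 𝔪 ^ 2 := ih
          _ = J (n + 1) ⊔ 𝔪 ^ n ⊔ 𝔪 ^ 2 := by rw [← hJ n]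
          _ ≤ J (n + 1) ⊔ 𝔪 ^ 2 :=
            sup_le (sup_le le_sup_left ((Ideal.pow_le_pow_right hn2).trans le_sup_right))
              le_sup_right
  have h𝔪le : ∀ n, 𝔪 ≤ Ideal.span (Set.range t) ⊔ 𝔪 ^ 2 ⊔ J n := by
    intro n
    calc 𝔪 = Ideal.span (Set.range t) ⊔ J 2 := ht
      _ ≤ Ideal.span (Set.range t) ⊔ (J n ⊔ 𝔪 ^ 2) := sup_le_sup le_rfl (hJ2 n)
      _ = Ideal.span (Set.range t) ⊔ 𝔪 ^ 2 ⊔ J n := by rw [sup_comm (J n), sup_assoc]
  -- the power series ring and the evaluation maps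
  let P := MvPowerSeries (Fin d) 𝒪
  let I : Ideal P := Ideal.span (Set.range (MvPowerSeries.X : Fin d → P))
  let a : ∀ n, MvPolynomial (Fin d) 𝒪 →ₐ[𝒪] Λ ⧸ J n := fun n =>
    MvPolynomial.aeval (fun i => Ideal.Quotient.mk (J n) (t i))
  let 𝔫 : ∀ n, Ideal (Λ ⧸ J n) := fun n => 𝔪.map (Ideal.Quotient.mk (J n))
  have h𝔫pow : ∀ n, 𝔫 n ^ n = ⊥ := fun n => by
    rw [← Ideal.map_pow]; exact Ideal.map_mk_eq_bot_of_le (hpow n)
  have ha_map : ∀ n, (MvPolynomial.idealOfVars (Fin d) 𝒪).map (a n) ≤ 𝔫 n := by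
    intro n
    rw [MvPolynomial.idealOfVars, Ideal.map_span, Ideal.span_le]
    rintro _ ⟨_, ⟨i, rfl⟩, rfl⟩
    have : a n (MvPolynomial.X i) = Ideal.Quotient.mk (J n) (t i) := MvPolynomial.aeval_X _ i
    rw [this]
    exact Ideal.mem_map_of_mem _ (ht𝔪 i)
  have ha_kill : ∀ n, ∀ p ∈ MvPolynomial.idealOfVars (Fin d) 𝒪 ^ n, (a n : _ →+* Λ ⧸ J n) p = 0 := by
    intro n p hp
    have h1 : (a n) p ∈ ((MvPolynomial.idealOfVars (Fin d) 𝒪) ^ n).map (a n) :=
      Ideal.mem_map_of_mem _ hp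
    rw [Ideal.map_pow] at h1
    have h2 := Ideal.pow_right_mono (ha_map n) n h1
    rw [h𝔫pow n] at h2
    exact h2
  let b : ∀ n, (MvPolynomial (Fin d) 𝒪 ⧸ MvPolynomial.idealOfVars (Fin d) 𝒪 ^ n) →+* Λ ⧸ J n :=
    fun n => Ideal.Quotient.lift _ (a n : _ →+* Λ ⧸ J n) (ha_kill n)
  let ev : ∀ n, P →+* Λ ⧸ J n := fun n =>
    (b n).comp (MvPowerSeries.truncTotalAlgHom (Fin d) 𝒪 n : P →+* _)
  have hev : ∀ n (f : P), ev n f = a n (MvPowerSeries.truncTotal n f) := by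
    intro n f
    show b n (MvPowerSeries.truncTotalAlgHom (Fin d) 𝒪 n f) = _
    rw [MvPowerSeries.truncTotalAlgHom_apply]
    exact Ideal.Quotient.lift_mk _ _ _
  have hev_poly : ∀ n (p : MvPolynomial (Fin d) 𝒪), ev n (p : P) = a n p := by
    intro n p
    show b n (MvPowerSeries.truncTotalAlgHom (Fin d) 𝒪 n
      (algebraMap (MvPolynomial (Fin d) 𝒪) P p)) = _
    rw [AlgHom.commutes]
    exact Ideal.Quotient.lift_mk _ _ _
  have hevC : ∀ n c, ev n (algebraMap 𝒪 P c) = Ideal.Quotient.mk (J n) (algebraMap 𝒪 Λ c) := by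
    intro n c
    have h1 : algebraMap 𝒪 P c = ((MvPolynomial.C c : MvPolynomial (Fin d) 𝒪) : P) := by
      rw [MvPolynomial.coe_C]; rfl
    rw [h1, hev_poly]
    have : a n (MvPolynomial.C c) = algebraMap 𝒪 (Λ ⧸ J n) c := MvPolynomial.aeval_C _ c
    rw [this]; rfl
  have hevX : ∀ n i, ev n (MvPowerSeries.X i) = Ideal.Quotient.mk (J n) (t i) := by
    intro n i
    rw [← MvPolynomial.coe_X, hev_poly]
    exact MvPolynomial.aeval_X _ i
  have hImap : ∀ n, I.map (ev n) ≤ 𝔫 n := by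
    intro n
    rw [Ideal.map_span, Ideal.span_le]
    rintro _ ⟨_, ⟨i, rfl⟩, rfl⟩
    rw [hevX]
    exact Ideal.mem_map_of_mem _ (ht𝔪 i)
  have hIK : ∀ n, I ^ n ≤ RingHom.ker (ev n) := by
    intro n f hf
    have h1 : ev n f ∈ (I ^ n).map (ev n) := Ideal.mem_map_of_mem _ hf
    rw [Ideal.map_pow] at h1
    have h2 := Ideal.pow_right_mono (hImap n) n h1
    rw [h𝔫pow n] at h2
    exact RingHom.mem_ker.mpr h2
  have hfac : ∀ m n (h : m ≤ n) (p : MvPolynomial (Fin d) 𝒪),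
      Ideal.Quotient.factor (hantiJ h) (a n p) = a m p := by
    intro m n h p
    have : ((Ideal.Quotient.factor (hantiJ h)).comp (a n : MvPolynomial (Fin d) 𝒪 →+* Λ ⧸ J n)) =
        (a m : MvPolynomial (Fin d) 𝒪 →+* Λ ⧸ J m) := by
      apply MvPolynomial.ringHom_ext
      · intro c
        have h1 : a n (MvPolynomial.C c) = Ideal.Quotient.mk (J n) (algebraMap 𝒪 Λ c) :=
          MvPolynomial.aeval_C _ c
        have h2 : a m (MvPolynomial.C c) = Ideal.Quotient.mk (J m) (algebraMap 𝒪 Λ c) :=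
          MvPolynomial.aeval_C _ c
        simp only [RingHom.comp_apply, RingHom.coe_coe, h1, h2, Ideal.Quotient.factor_mk]
      · intro i
        have h1 : a n (MvPolynomial.X i) = Ideal.Quotient.mk (J n) (t i) :=
          MvPolynomial.aeval_X _ i
        have h2 : a m (MvPolynomial.X i) = Ideal.Quotient.mk (J m) (t i) :=
          MvPolynomial.aeval_X _ i
        simp only [RingHom.comp_apply, RingHom.coe_coe, h1, h2, Ideal.Quotient.factor_mk]
    exact congrArg (fun φ : MvPolynomial (Fin d) 𝒪 →+* Λ ⧸ J m => φ p) this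
  have hcompat : ∀ m n, m ≤ n → ∀ (f : P) (x : Λ), ev n f = Ideal.Quotient.mk (J n) x →
      ev m f = Ideal.Quotient.mk (J m) x := by
    intro m n h f x hx
    have h1 : Ideal.Quotient.factor (hantiJ h) (ev n f) = ev m f := by
      rw [hev, hev, hfac m n h]
      have h2 := ha_kill m _
        (MvPowerSeries.truncTotal_sub_truncTotal_mem_pow_idealOfVars h (le_refl m) f)
      rw [map_sub, sub_eq_zero] at h2
      exact h2
    rw [← h1, hx, Ideal.Quotient.factor_mk]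
  have h𝔫eq : ∀ n, I.map (ev n) = 𝔫 n := by
    intro n
    refine le_antisymm (hImap n) (h48_le_of_le_sup_sq (𝔫 n) (I.map (ev n)) n (h𝔫pow n) ?_)
    have h1 : 𝔫 n ≤ (Ideal.span (Set.range t) ⊔ 𝔪 ^ 2 ⊔ J n).map (Ideal.Quotient.mk (J n)) :=
      Ideal.map_mono (h𝔪le n)
    rw [Ideal.map_sup, Ideal.map_sup, Ideal.map_quotient_self, sup_bot_eq, Ideal.map_pow] at h1
    refine h1.trans (sup_le_sup ?_ le_rfl)
    rw [Ideal.map_span, Ideal.span_le]
    rintro _ ⟨_, ⟨i, rfl⟩, rfl⟩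
    rw [← hevX]
    exact Ideal.mem_map_of_mem _ (Ideal.subset_span ⟨i, rfl⟩)
  have hsurj : ∀ n, Function.Surjective (ev n) := by
    intro n
    refine h48_surjective_of_nilpotent (ev n) I n (by rw [h𝔫eq]; exact h𝔫pow n) ?_
    intro x
    obtain ⟨y, rfl⟩ := Ideal.Quotient.mk_surjective x
    obtain ⟨c, hc⟩ := hres' y
    refine ⟨algebraMap 𝒪 P c, ?_⟩
    rw [hevC, ← map_sub, h𝔫eq]
    exact Ideal.mem_map_of_mem _ hc
  have hKK : ∀ n, RingHom.ker (ev n) ≤ RingHom.ker (ev (n + 1)) ⊔ I ^ n := by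
    intro n f hf
    rw [RingHom.mem_ker] at hf
    obtain ⟨x, hx⟩ := Ideal.Quotient.mk_surjective (ev (n + 1) f)
    have h1 := hcompat n (n + 1) (Nat.le_succ n) f x hx.symm
    rw [hf] at h1
    have h2 : x ∈ J (n + 1) ⊔ 𝔪 ^ n := by
      rw [← hJ n]; exact Ideal.Quotient.eq_zero_iff_mem.mp h1.symm
    obtain ⟨u, hu, v, hv, huv⟩ := Submodule.mem_sup.mp h2
    have h3 : ev (n + 1) f = Ideal.Quotient.mk (J (n + 1)) v := by
      rw [← hx, ← huv, map_add, Ideal.Quotient.eq_zero_iff_mem.mpr hu, zero_add]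
    have h4 : Ideal.Quotient.mk (J (n + 1)) v ∈ (I ^ n).map (ev (n + 1)) := by
      rw [Ideal.map_pow, h𝔫eq, ← Ideal.map_pow]
      exact Ideal.mem_map_of_mem _ hv
    obtain ⟨g, hg, hg2⟩ := (Ideal.mem_map_iff_of_surjective (ev (n + 1)) (hsurj (n + 1))).mp h4
    have h5 : f - g ∈ RingHom.ker (ev (n + 1)) := by
      rw [RingHom.mem_ker, map_sub, h3, hg2, sub_self]
    have : f = (f - g) + g := by ring
    rw [this]
    exact Ideal.add_mem _ (Ideal.mem_sup_left h5) (Ideal.mem_sup_right hg)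
  exact h48_assemble 𝔪 hres' J hJ1 P I ev hevC hsurj hcompat hIK hKK

/-- **Tower limit** (backup implementation, same statement as `exists_tower_limit`). -/
theorem h48_exists_tower_limit
    {𝒪 : Type} [CommRing 𝒪] [IsNoetherianRing 𝒪] [IsLocalRing 𝒪]
    {Λ : Type} [CommRing Λ] [Algebra 𝒪 Λ]
    (𝔪 : Ideal Λ) [𝔪.IsMaximal]
    (hres : Function.Surjective (Ideal.Quotient.mk 𝔪 ∘ algebraMap 𝒪 Λ))
    (J : ℕ → Ideal Λ) (hJ1 : J 1 = 𝔪)
    (hJ : ∀ n, 1 ≤ n → J n = J (n + 1) ⊔ 𝔪 ^ n)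
    (d : ℕ) (t : Fin d → Λ) (ht : 𝔪 = Ideal.span (Set.range t) ⊔ J 2) :
    ∃ (R : Type) (_ : CommRing R) (_ : IsLocalRing R) (_ : IsNoetherianRing R)
      (_ : IsAdicComplete (IsLocalRing.maximalIdeal R) R) (_ : Algebra 𝒪 R) (ι : Λ →ₐ[𝒪] R),
      IsLocalHom (algebraMap 𝒪 R) ∧
      Function.Surjective (IsLocalRing.residue R ∘ algebraMap 𝒪 R) ∧
      ∀ n, 1 ≤ n →
        Function.Surjective (Ideal.Quotient.mk (IsLocalRing.maximalIdeal R ^ n) ∘ ι) ∧
        (IsLocalRing.maximalIdeal R ^ n).comap ι = J n := by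
  let J' : ℕ → Ideal Λ := fun n => if n = 0 then ⊤ else J n
  have hJ'pos : ∀ n, 1 ≤ n → J' n = J n := fun n hn => if_neg (by omega)
  have hJ'0 : J' 0 = ⊤ := if_pos rfl
  have hJ' : ∀ n, J' n = J' (n + 1) ⊔ 𝔪 ^ n := by
    intro n
    rcases Nat.eq_zero_or_pos n with rfl | hn
    · rw [hJ'0, pow_zero, Ideal.one_eq_top, sup_top_eq]
    · rw [hJ'pos n hn, hJ'pos (n + 1) (by omega)]
      exact hJ n hn
  obtain ⟨R, i1, i2, i3, i4, i5, ι, h1, h2, h3⟩ :=
    h48_tower_limit_aux 𝔪 hres J' hJ'0 ((hJ'pos 1 le_rfl).trans hJ1) hJ' d t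
      (by rw [hJ'pos 2 (by norm_num)]; exact ht)
  exact ⟨R, i1, i2, i3, i4, i5, ι, h1, h2, fun n hn => by rw [← hJ'pos n hn]; exact h3 n⟩

end Fermat.Agent.S53
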