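import Mathlib

/-!
# Tower lemma, part 1 (helper74): ideal-theoretic approximation lemmas

Setting: an `𝒪`-algebra `Λ`, a maximal ideal `𝔪`, a decreasing chain of ideals `J n` with
`J n = J (n+1) ⊔ 𝔪 ^ n`, and finitely many elements `t i ∈ 𝔪` generating `𝔪` modulo `J 2`.
We show that every element of `J n` is, modulo `J (n+1)`, the value of a polynomial in the `t i`
with coefficients in `𝒪` all of whose monomials have degree `≥ n`.
-/

namespace Fermat.Agent.S53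

namespace H74

open MvPolynomial

/-- Hypotheses for the tower construction (internal form, normalised with `J 0 = ⊤`). -/
structure TowerData (𝒪 : Type) [CommRing 𝒪] {Λ : Type} [CommRing Λ] [Algebra 𝒪 Λ]
    (𝔪 : Ideal Λ) (J : ℕ → Ideal Λ) {e : ℕ} (t : Fin e → Λ) : Prop where
  J_zero : J 0 = ⊤
  J_one : J 1 = 𝔪
  pow_le : ∀ n, 𝔪 ^ n ≤ J n
  step : ∀ n, J n = J (n + 1) ⊔ 𝔪 ^ n
  res : ∀ x : Λ, ∃ c : 𝒪, x - algebraMap 𝒪 Λ c ∈ 𝔪
  t_mem : ∀ i, t i ∈ 𝔪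
  gen : 𝔪 ≤ Ideal.span (Set.range t) ⊔ J 2

theorem sup_pow_le {R : Type*} [CommRing R] (A B : Ideal R) (n : ℕ) :
    (A ⊔ B) ^ n ≤ A ^ n ⊔ B := by
  induction n with
  | zero => simp
  | succ n ih =>
    rw [pow_succ, pow_succ]
    refine (Ideal.mul_mono_left ih).trans ?_
    rw [Ideal.sup_mul, Ideal.mul_sup, Ideal.mul_sup]
    refine sup_le (sup_le le_sup_left ?_) (sup_le ?_ ?_)
    · exact le_sup_of_le_right Ideal.mul_le_right
    · exact le_sup_of_le_right Ideal.mul_le_left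
    · exact le_sup_of_le_right Ideal.mul_le_left

variable {𝒪 : Type} [CommRing 𝒪] {Λ : Type} [CommRing Λ] [Algebra 𝒪 Λ]
  {𝔪 : Ideal Λ} {J : ℕ → Ideal Λ} {e : ℕ} {t : Fin e → Λ}

namespace TowerData

theorem succ_le (h : TowerData 𝒪 𝔪 J t) (n : ℕ) : J (n + 1) ≤ J n := by
  rw [h.step n]; exact le_sup_left

theorem le_of_le (h : TowerData 𝒪 𝔪 J t) {m n : ℕ} (hmn : m ≤ n) : J n ≤ J m :=
  antitone_nat_of_succ_le h.succ_le hmn

theorem J_two_le (h : TowerData 𝒪 𝔪 J t) (n : ℕ) : J 2 ≤ J (n + 2) ⊔ 𝔪 ^ 2 := by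
  induction n with
  | zero => exact le_sup_left
  | succ n ih =>
    refine ih.trans (sup_le ?_ le_sup_right)
    rw [h.step (n + 2)]
    exact sup_le_sup_left (Ideal.pow_le_pow_right (by omega)) _

theorem span_le (h : TowerData 𝒪 𝔪 J t) : Ideal.span (Set.range t) ≤ 𝔪 := by
  rw [Ideal.span_le]
  rintro _ ⟨i, rfl⟩
  exact h.t_mem i

/-- `𝔪` is generated by the `t i` modulo every `J (n+1)` (nilpotent Nakayama). -/
theorem m_le (h : TowerData 𝒪 𝔪 J t) (n : ℕ) : 𝔪 ≤ Ideal.span (Set.range t) ⊔ J (n + 1) := by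
  cases n with
  | zero => rw [h.J_one]; exact le_sup_right
  | succ n =>
    set Q := Ideal.span (Set.range t) ⊔ J (n + 2) with hQ
    have h0 : 𝔪 ≤ Q ⊔ 𝔪 ^ 2 := by
      refine h.gen.trans ?_
      rw [hQ, sup_assoc]
      exact sup_le_sup_left (h.J_two_le n) _
    have hk : ∀ k : ℕ, 𝔪 ≤ Q ⊔ 𝔪 ^ (k + 2) := by
      intro k
      induction k with
      | zero => exact h0
      | succ k ih =>
        refine ih.trans (sup_le le_sup_left ?_)
        have h1 : 𝔪 ^ (k + 2) = 𝔪 ^ (k + 1) * 𝔪 := pow_succ _ _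
        rw [h1]
        refine (Ideal.mul_mono_right h0).trans ?_
        rw [Ideal.mul_sup]
        refine sup_le (le_sup_of_le_left Ideal.mul_le_right) (le_sup_of_le_right ?_)
        rw [← pow_add]
    refine (hk n).trans (sup_le le_rfl ?_)
    exact (h.pow_le (n + 2)).trans le_sup_right

theorem pow_m_le (h : TowerData 𝒪 𝔪 J t) (n : ℕ) :
    𝔪 ^ n ≤ Ideal.span (Set.range t) ^ n ⊔ J (n + 1) :=
  (Ideal.pow_right_mono (h.m_le n) n).trans (sup_pow_le _ _ n)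

end TowerData

variable (𝒪) in
/-- Evaluation of polynomials at the `t i`. -/
noncomputable abbrev tauHom (t : Fin e → Λ) : MvPolynomial (Fin e) 𝒪 →ₐ[𝒪] Λ := aeval t

theorem map_tauHom_idealOfVars (t : Fin e → Λ) :
    Ideal.map (tauHom 𝒪 t) (idealOfVars (Fin e) 𝒪) = Ideal.span (Set.range t) := by
  rw [idealOfVars, Ideal.map_span]
  congr 1
  ext x
  constructor
  · rintro ⟨_, ⟨i, rfl⟩, rfl⟩
    exact ⟨i, by simp⟩
  · rintro ⟨i, rfl⟩
    exact ⟨X i, ⟨i, rfl⟩, by simp⟩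

theorem tauHom_mem_span_pow (t : Fin e → Λ) {n : ℕ} {g : MvPolynomial (Fin e) 𝒪}
    (hg : g ∈ idealOfVars (Fin e) 𝒪 ^ n) : tauHom 𝒪 t g ∈ Ideal.span (Set.range t) ^ n := by
  rw [← map_tauHom_idealOfVars (𝒪 := 𝒪), ← Ideal.map_pow]
  exact Ideal.mem_map_of_mem _ hg

namespace TowerData

/-- Elements of `(t)^k` are polynomial values modulo `(t)^(k+1) + J (n+1)`. -/
theorem exists_poly_of_mem_span_pow (h : TowerData 𝒪 𝔪 J t) (n k : ℕ) {y : Λ}
    (hy : y ∈ Ideal.span (Set.range t) ^ k) :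
    ∃ g ∈ idealOfVars (Fin e) 𝒪 ^ k,
      y - tauHom 𝒪 t g ∈ Ideal.span (Set.range t) ^ (k + 1) ⊔ J (n + 1) := by
  rw [← map_tauHom_idealOfVars (𝒪 := 𝒪), ← Ideal.map_pow, Ideal.map] at hy
  rw [← map_tauHom_idealOfVars (𝒪 := 𝒪)] at *
  induction hy using Submodule.span_induction with
  | mem x hx =>
    obtain ⟨g, hg, rfl⟩ := hx
    exact ⟨g, hg, by simp⟩
  | zero => exact ⟨0, Ideal.zero_mem _, by simp⟩
  | add x y _ _ hx hy =>
    obtain ⟨g₁, hg₁, h₁⟩ := hx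
    obtain ⟨g₂, hg₂, h₂⟩ := hy
    refine ⟨g₁ + g₂, Ideal.add_mem _ hg₁ hg₂, ?_⟩
    have : x + y - (tauHom 𝒪 t) (g₁ + g₂) = (x - tauHom 𝒪 t g₁) + (y - tauHom 𝒪 t g₂) := by
      rw [map_add]; ring
    rw [this]
    exact Ideal.add_mem _ h₁ h₂
  | smul a x _ hx =>
    obtain ⟨g, hg, h₁⟩ := hx
    obtain ⟨c, hc⟩ := h.res a
    refine ⟨C c * g, Ideal.mul_mem_left _ _ hg, ?_⟩
    have e1 : a • x - (tauHom 𝒪 t) (C c * g) =
        a * (x - tauHom 𝒪 t g) + (a - algebraMap 𝒪 Λ c) * tauHom 𝒪 t g := by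
      rw [map_mul, smul_eq_mul]
      simp only [tauHom, aeval_C]
      ring
    rw [e1]
    refine Ideal.add_mem _ (Ideal.mul_mem_left _ _ h₁) ?_
    have h2 : (a - algebraMap 𝒪 Λ c) ∈ Ideal.map (tauHom 𝒪 t) (idealOfVars (Fin e) 𝒪) ⊔ J (n + 1) := by
      have := h.m_le n hc
      rwa [← map_tauHom_idealOfVars (𝒪 := 𝒪)] at this
    have h3 : tauHom 𝒪 t g ∈ Ideal.map (tauHom 𝒪 t) (idealOfVars (Fin e) 𝒪) ^ k := by
      rw [← Ideal.map_pow]; exact Ideal.mem_map_of_mem _ hg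
    have h4 := Ideal.mul_mem_mul h2 h3
    rw [Ideal.sup_mul] at h4
    refine SetLike.le_def.mp (sup_le ?_ ?_) h4
    · rw [← pow_succ']; exact le_sup_left
    · exact le_sup_of_le_right Ideal.mul_le_left

/-- Key approximation step: an element of `J n` is, modulo `J (n+1)`, the value at `t` of a
polynomial in the `n`-th power of the ideal of variables. -/
theorem exists_poly (h : TowerData 𝒪 𝔪 J t) (n : ℕ) {x : Λ} (hx : x ∈ J n) :
    ∃ g ∈ idealOfVars (Fin e) 𝒪 ^ n, x - tauHom 𝒪 t g ∈ J (n + 1) := by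
  rw [h.step n] at hx
  obtain ⟨z, hz, w, hw, rfl⟩ := Submodule.mem_sup.mp hx
  obtain ⟨y, hy, z', hz', rfl⟩ := Submodule.mem_sup.mp (h.pow_m_le n hw)
  obtain ⟨g, hg, hg'⟩ := h.exists_poly_of_mem_span_pow n n hy
  refine ⟨g, hg, ?_⟩
  have e1 : z + (y + z') - tauHom 𝒪 t g = z + z' + (y - tauHom 𝒪 t g) := by ring
  rw [e1]
  refine Ideal.add_mem _ (Ideal.add_mem _ hz hz') ?_
  refine SetLike.le_def.mp (sup_le ?_ le_rfl) hg'
  exact (Ideal.pow_right_mono h.span_le (n + 1)).trans (h.pow_le (n + 1))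

end TowerData

end H74

end Fermat.Agent.S53
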