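import Mathlib
import Fermat.Agent.S53.Helper74TowerAlg

/-!
# Tower lemma, part 2 (helper74): the inverse limit ring

We define the inverse limit `towerAlg 𝒪 J` of the quotients `Λ ⧸ J n` and show, under
`TowerData`, that it is a quotient of a power series ring (`AdicCompletion` of a polynomial ring).
-/

namespace Fermat.Agent.S53

namespace H74

open MvPolynomial

section Defs

variable (𝒪 : Type) [CommRing 𝒪] {Λ : Type} [CommRing Λ] [Algebra 𝒪 Λ]

/-- The inverse limit of the quotients `Λ ⧸ J n`, as an `𝒪`-subalgebra of the product. -/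
def towerAlg (J : ℕ → Ideal Λ) : Subalgebra 𝒪 (∀ n, Λ ⧸ J n) where
  carrier := {a | ∀ (m n : ℕ) (_ : m ≤ n) (h : J n ≤ J m), Ideal.Quotient.factor h (a n) = a m}
  mul_mem' := by
    intro a b ha hb m n hmn h
    rw [Pi.mul_apply, Pi.mul_apply, map_mul, ha m n hmn h, hb m n hmn h]
  one_mem' := by
    intro m n _ h
    rw [Pi.one_apply, Pi.one_apply, map_one]
  add_mem' := by
    intro a b ha hb m n hmn h
    rw [Pi.add_apply, Pi.add_apply, map_add, ha m n hmn h, hb m n hmn h]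
  zero_mem' := by
    intro m n _ h
    rw [Pi.zero_apply, Pi.zero_apply, map_zero]
  algebraMap_mem' := by
    intro c m n _ h
    rw [Pi.algebraMap_apply, Pi.algebraMap_apply, ← Ideal.Quotient.mk_algebraMap,
      ← Ideal.Quotient.mk_algebraMap, Ideal.Quotient.factor_mk]

variable (J : ℕ → Ideal Λ)

/-- The projection of the inverse limit to its `n`-th stage. -/
def towerProj (n : ℕ) : towerAlg 𝒪 J →ₐ[𝒪] Λ ⧸ J n :=
  (Pi.evalAlgHom 𝒪 (fun n => Λ ⧸ J n) n).comp (towerAlg 𝒪 J).val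

/-- The canonical map into the inverse limit. -/
def towerOf : Λ →ₐ[𝒪] towerAlg 𝒪 J :=
  (AlgHom.pi (fun n => Ideal.Quotient.mkₐ 𝒪 (J n))).codRestrict
    (towerAlg 𝒪 J) (fun x m n _ h => by
      simp only [AlgHom.pi_apply, Ideal.Quotient.mkₐ_eq_mk, Ideal.Quotient.factor_mk])

variable {𝒪 J}

@[simp]
theorem towerProj_towerOf (n : ℕ) (x : Λ) :
    towerProj 𝒪 J n (towerOf 𝒪 J x) = Ideal.Quotient.mk (J n) x := rfl

theorem towerProj_apply (n : ℕ) (a : towerAlg 𝒪 J) : towerProj 𝒪 J n a = a.1 n := rfl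

theorem tower_ext {a b : towerAlg 𝒪 J} (h : ∀ n, towerProj 𝒪 J n a = towerProj 𝒪 J n b) :
    a = b :=
  Subtype.ext (funext h)

theorem towerProj_compat {m n : ℕ} (hmn : m ≤ n) (h : J n ≤ J m) (a : towerAlg 𝒪 J) :
    Ideal.Quotient.factor h (towerProj 𝒪 J n a) = towerProj 𝒪 J m a :=
  a.2 m n hmn h

theorem towerProj_surjective (n : ℕ) : Function.Surjective (towerProj 𝒪 J n) := by
  intro y
  obtain ⟨x, rfl⟩ := Ideal.Quotient.mk_surjective y
  exact ⟨towerOf 𝒪 J x, rfl⟩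

variable (𝒪 J) in
/-- The kernel of the `n`-th projection. -/
def towerK (n : ℕ) : Ideal (towerAlg 𝒪 J) := RingHom.ker (towerProj 𝒪 J n)

theorem mem_towerK {n : ℕ} {a : towerAlg 𝒪 J} : a ∈ towerK 𝒪 J n ↔ towerProj 𝒪 J n a = 0 :=
  Iff.rfl

theorem towerOf_mem_towerK {n : ℕ} {x : Λ} : towerOf 𝒪 J x ∈ towerK 𝒪 J n ↔ x ∈ J n := by
  rw [mem_towerK, towerProj_towerOf, Ideal.Quotient.eq_zero_iff_mem]

/-- Every element of the tower is approximated by an element of `Λ` modulo `towerK n`. -/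
theorem exists_towerOf_sub_mem (n : ℕ) (a : towerAlg 𝒪 J) :
    ∃ x : Λ, a - towerOf 𝒪 J x ∈ towerK 𝒪 J n := by
  obtain ⟨x, hx⟩ := Ideal.Quotient.mk_surjective (towerProj 𝒪 J n a)
  refine ⟨x, ?_⟩
  rw [mem_towerK, map_sub, towerProj_towerOf, hx, sub_self]

end Defs

section Main

variable {𝒪 : Type} [CommRing 𝒪] {Λ : Type} [CommRing Λ] [Algebra 𝒪 Λ]
  {𝔪 : Ideal Λ} {J : ℕ → Ideal Λ} {e : ℕ} {t : Fin e → Λ}

namespace TowerData

theorem tau_mem_J (h : TowerData 𝒪 𝔪 J t) {n : ℕ} {g : MvPolynomial (Fin e) 𝒪}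
    (hg : g ∈ idealOfVars (Fin e) 𝒪 ^ n) : tauHom 𝒪 t g ∈ J n :=
  h.pow_le n (Ideal.pow_right_mono h.span_le n (tauHom_mem_span_pow t hg))

/-- The `n`-th component of the map from the completed polynomial ring to the tower. -/
noncomputable def phiN (h : TowerData 𝒪 𝔪 J t) (n : ℕ) :
    AdicCompletion (idealOfVars (Fin e) 𝒪) (MvPolynomial (Fin e) 𝒪) →+* Λ ⧸ J n :=
  (Ideal.Quotient.lift (idealOfVars (Fin e) 𝒪 ^ n)
    ((Ideal.Quotient.mk (J n)).comp (tauHom 𝒪 t : MvPolynomial (Fin e) 𝒪 →+* Λ))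
    (fun _ ha => Ideal.Quotient.eq_zero_iff_mem.mpr (h.tau_mem_J ha))).comp
    (AdicCompletion.evalₐ (idealOfVars (Fin e) 𝒪) n : _ →+* _)

theorem phiN_mk (h : TowerData 𝒪 𝔪 J t) (n : ℕ)
    (S : AdicCompletion.AdicCauchySequence (idealOfVars (Fin e) 𝒪) (MvPolynomial (Fin e) 𝒪)) :
    h.phiN n (AdicCompletion.mk _ _ S) = Ideal.Quotient.mk (J n) (tauHom 𝒪 t (S n)) := by
  simp [phiN]

theorem phiN_of (h : TowerData 𝒪 𝔪 J t) (n : ℕ) (p : MvPolynomial (Fin e) 𝒪) :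
    h.phiN n (AdicCompletion.of _ _ p) = Ideal.Quotient.mk (J n) (tauHom 𝒪 t p) := by
  simp [phiN]

theorem phiN_compat (h : TowerData 𝒪 𝔪 J t) {m n : ℕ} (hmn : m ≤ n) (hJ : J n ≤ J m)
    (F : AdicCompletion (idealOfVars (Fin e) 𝒪) (MvPolynomial (Fin e) 𝒪)) :
    Ideal.Quotient.factor hJ (h.phiN n F) = h.phiN m F := by
  obtain ⟨S, rfl⟩ := AdicCompletion.mk_surjective _ _ F
  rw [phiN_mk, phiN_mk, Ideal.Quotient.factor_mk, Ideal.Quotient.eq, ← map_sub]
  apply h.tau_mem_J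
  have h1 := S.2 hmn
  rw [SModEq.sub_mem, smul_eq_mul, Ideal.mul_top] at h1
  have h2 : S n - S m = -(S m - S n) := by ring
  rw [h2]
  exact neg_mem h1

/-- The map from the completed polynomial ring (a power series ring) to the tower. -/
noncomputable def phi (h : TowerData 𝒪 𝔪 J t) :
    AdicCompletion (idealOfVars (Fin e) 𝒪) (MvPolynomial (Fin e) 𝒪) →+* towerAlg 𝒪 J :=
  (RingHom.pi h.phiN).codRestrict (towerAlg 𝒪 J) (fun F _ _ hmn hJ => h.phiN_compat hmn hJ F)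

theorem towerProj_phi (h : TowerData 𝒪 𝔪 J t) (n : ℕ)
    (F : AdicCompletion (idealOfVars (Fin e) 𝒪) (MvPolynomial (Fin e) 𝒪)) :
    towerProj 𝒪 J n (h.phi F) = h.phiN n F := rfl

theorem phi_of (h : TowerData 𝒪 𝔪 J t) (p : MvPolynomial (Fin e) 𝒪) :
    h.phi (AdicCompletion.of _ _ p) = towerOf 𝒪 J (tauHom 𝒪 t p) :=
  tower_ext fun n => by rw [towerProj_phi, phiN_of, towerProj_towerOf]

open Classical in
/-- A choice of polynomial approximation (zero whenever possible). -/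
noncomputable def approx (h : TowerData 𝒪 𝔪 J t) (n : ℕ) (x : Λ) : MvPolynomial (Fin e) 𝒪 :=
  if x ∈ J (n + 1) then 0 else if hx' : x ∈ J n then (h.exists_poly n hx').choose else 0

theorem approx_mem (h : TowerData 𝒪 𝔪 J t) (n : ℕ) (x : Λ) :
    h.approx n x ∈ idealOfVars (Fin e) 𝒪 ^ n := by
  unfold approx
  split_ifs with h1 h2
  · exact Ideal.zero_mem _
  · exact (h.exists_poly n h2).choose_spec.1
  · exact Ideal.zero_mem _

theorem approx_spec (h : TowerData 𝒪 𝔪 J t) (n : ℕ) {x : Λ} (hx : x ∈ J n) :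
    x - tauHom 𝒪 t (h.approx n x) ∈ J (n + 1) := by
  unfold approx
  split_ifs with h1
  · simpa using h1
  · exact (h.exists_poly n hx).choose_spec.2

theorem approx_eq_zero (h : TowerData 𝒪 𝔪 J t) (n : ℕ) {x : Λ} (hx : x ∈ J (n + 1)) :
    h.approx n x = 0 := by
  unfold approx
  rw [if_pos hx]

/-- Successive polynomial approximations of a `J`-Cauchy sequence. -/
noncomputable def approxSeq (h : TowerData 𝒪 𝔪 J t) (y : ℕ → Λ) : ℕ → MvPolynomial (Fin e) 𝒪
  | 0 => 0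
  | n + 1 => approxSeq h y n + h.approx n (y (n + 1) - tauHom 𝒪 t (approxSeq h y n))

theorem approxSeq_spec (h : TowerData 𝒪 𝔪 J t) {y : ℕ → Λ} (hy : ∀ n, y (n + 1) - y n ∈ J n)
    (n : ℕ) : y n - tauHom 𝒪 t (h.approxSeq y n) ∈ J n := by
  induction n with
  | zero => rw [h.J_zero]; exact Submodule.mem_top
  | succ n ih =>
    have h1 : y (n + 1) - tauHom 𝒪 t (h.approxSeq y n) ∈ J n := by
      have : y (n + 1) - tauHom 𝒪 t (h.approxSeq y n) =
          (y (n + 1) - y n) + (y n - tauHom 𝒪 t (h.approxSeq y n)) := by ring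
      rw [this]
      exact Ideal.add_mem _ (hy n) ih
    have h2 := h.approx_spec n h1
    have h3 : y (n + 1) - tauHom 𝒪 t (h.approxSeq y (n + 1)) =
        y (n + 1) - tauHom 𝒪 t (h.approxSeq y n) -
          tauHom 𝒪 t (h.approx n (y (n + 1) - tauHom 𝒪 t (h.approxSeq y n))) := by
      rw [approxSeq, map_add]; ring
    rw [h3]
    exact h2

theorem approxSeq_succ_sub (h : TowerData 𝒪 𝔪 J t) (y : ℕ → Λ) (n : ℕ) :
    h.approxSeq y (n + 1) - h.approxSeq y n ∈ idealOfVars (Fin e) 𝒪 ^ n := by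
  rw [approxSeq, add_sub_cancel_left]
  exact h.approx_mem n _

theorem approxSeq_eq_zero (h : TowerData 𝒪 𝔪 J t) {y : ℕ → Λ} {n : ℕ}
    (hy : ∀ j ≤ n, y j ∈ J j) : ∀ j ≤ n, h.approxSeq y j = 0 := by
  intro j
  induction j with
  | zero => intro _; rfl
  | succ j ih =>
    intro hj
    rw [approxSeq, ih (by omega), map_zero, sub_zero, zero_add]
    exact h.approx_eq_zero j (hy (j + 1) hj)

theorem towerK_zero (h : TowerData 𝒪 𝔪 J t) : towerK 𝒪 J 0 = ⊤ := by
  rw [Ideal.eq_top_iff_one, mem_towerK]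
  have : Subsingleton (Λ ⧸ J 0) := by
    rw [h.J_zero]; exact Ideal.Quotient.subsingleton_iff.mpr rfl
  exact Subsingleton.elim _ _

/-- Surjectivity of `phi`, in a refined form keeping track of the filtrations. -/
theorem exists_phi_eq (h : TowerData 𝒪 𝔪 J t) (n : ℕ) (a : towerAlg 𝒪 J)
    (ha : a ∈ towerK 𝒪 J n) :
    ∃ F, AdicCompletion.evalₐ (idealOfVars (Fin e) 𝒪) n F = 0 ∧ h.phi F = a := by
  set y : ℕ → Λ := fun k => Quotient.out (towerProj 𝒪 J k a) with hydef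
  have hmk : ∀ k, Ideal.Quotient.mk (J k) (y k) = towerProj 𝒪 J k a := fun k =>
    Ideal.Quotient.mk_out _
  have hy : ∀ k, y (k + 1) - y k ∈ J k := by
    intro k
    rw [← Ideal.Quotient.eq, hmk k, ← towerProj_compat (Nat.le_succ k) (h.succ_le k) a,
      ← hmk (k + 1), Ideal.Quotient.factor_mk]
  have hyn : ∀ j ≤ n, y j ∈ J j := by
    intro j hj
    rw [← Ideal.Quotient.eq_zero_iff_mem, hmk j, ← towerProj_compat hj (h.le_of_le hj) a,
      mem_towerK.mp ha, map_zero]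
  let S : AdicCompletion.AdicCauchySequence (idealOfVars (Fin e) 𝒪) (MvPolynomial (Fin e) 𝒪) :=
    AdicCompletion.AdicCauchySequence.mk _ _ (h.approxSeq y) (fun k => by
      rw [SModEq.sub_mem, smul_eq_mul, Ideal.mul_top]
      have h2 : h.approxSeq y k - h.approxSeq y (k + 1) =
          -(h.approxSeq y (k + 1) - h.approxSeq y k) := by ring
      rw [h2]
      exact neg_mem (h.approxSeq_succ_sub y k))
  refine ⟨AdicCompletion.mk _ _ S, ?_, ?_⟩
  · rw [AdicCompletion.evalₐ_mk]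
    have : S.1 n = 0 := h.approxSeq_eq_zero hyn n le_rfl
    rw [this, map_zero]
  · refine tower_ext fun k => ?_
    rw [towerProj_phi, phiN_mk, ← hmk k, eq_comm, Ideal.Quotient.eq]
    exact h.approxSeq_spec hy k

theorem phi_surjective (h : TowerData 𝒪 𝔪 J t) : Function.Surjective h.phi := by
  intro a
  obtain ⟨F, -, hF⟩ := h.exists_phi_eq 0 a (by rw [h.towerK_zero]; exact Submodule.mem_top)
  exact ⟨F, hF⟩

theorem map_towerOf_le (h : TowerData 𝒪 𝔪 J t) :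
    Ideal.map (towerOf 𝒪 J) 𝔪 ≤ towerK 𝒪 J 1 := by
  rw [Ideal.map_le_iff_le_comap]
  intro x hx
  rw [Ideal.mem_comap, towerOf_mem_towerK, h.J_one]
  exact hx

theorem phi_mem_pow (h : TowerData 𝒪 𝔪 J t) (n : ℕ)
    {F : AdicCompletion (idealOfVars (Fin e) 𝒪) (MvPolynomial (Fin e) 𝒪)}
    (hF : AdicCompletion.evalₐ (idealOfVars (Fin e) 𝒪) n F = 0) :
    h.phi F ∈ towerK 𝒪 J 1 ^ n := by
  have h1 : F ∈ LinearMap.ker
      (AdicCompletion.eval (idealOfVars (Fin e) 𝒪) (MvPolynomial (Fin e) 𝒪) n) := by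
    have h0 : idealOfVars (Fin e) 𝒪 ^ n ≤ idealOfVars (Fin e) 𝒪 ^ n • ⊤ := by
      rw [smul_eq_mul, Ideal.mul_top]
    rw [LinearMap.mem_ker, ← AdicCompletion.factor_evalₐ_eq_eval _ F h0, hF, map_zero]
  rw [← AdicCompletion.pow_smul_top_eq_ker_eval (idealOfVars_fg (Fin e) 𝒪)] at h1
  refine Submodule.smul_induction_on h1 ?_ ?_
  · intro p hp c _
    rw [Algebra.smul_def, map_mul, AdicCompletion.algebraMap_apply, Algebra.algebraMap_self,
      RingHom.id_apply, phi_of]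
    refine Ideal.mul_mem_right _ _ ?_
    have h2 : tauHom 𝒪 t p ∈ 𝔪 ^ n :=
      Ideal.pow_right_mono h.span_le n (tauHom_mem_span_pow t hp)
    have h3 := Ideal.mem_map_of_mem (towerOf 𝒪 J) h2
    rw [Ideal.map_pow] at h3
    exact Ideal.pow_right_mono h.map_towerOf_le n h3
  · intro x y hx hy
    rw [map_add]
    exact Ideal.add_mem _ hx hy

theorem towerK_eq_pow (h : TowerData 𝒪 𝔪 J t) (n : ℕ) :
    towerK 𝒪 J n = towerK 𝒪 J 1 ^ n := by
  refine le_antisymm ?_ ?_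
  · intro a ha
    obtain ⟨F, hF, rfl⟩ := h.exists_phi_eq n a ha
    exact h.phi_mem_pow n hF
  · rcases Nat.eq_zero_or_pos n with rfl | hn
    · rw [h.towerK_zero]; exact le_top
    · have key : towerK 𝒪 J 1 ≤
          Ideal.comap (towerProj 𝒪 J n) (Ideal.map (Ideal.Quotient.mk (J n)) 𝔪) := by
        intro a ha
        rw [Ideal.mem_comap]
        obtain ⟨x, hx⟩ := Ideal.Quotient.mk_surjective (towerProj 𝒪 J n a)
        rw [← hx]
        apply Ideal.mem_map_of_mem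
        rw [← h.J_one, ← Ideal.Quotient.eq_zero_iff_mem,
          ← Ideal.Quotient.factor_mk (h.le_of_le hn) x, hx, towerProj_compat hn,
          mem_towerK.mp ha]
      intro a ha
      have h1 := Ideal.le_comap_pow (towerProj 𝒪 J n) n (Ideal.pow_right_mono key n ha)
      rw [Ideal.mem_comap, ← Ideal.map_pow] at h1
      have h2 : Ideal.map (Ideal.Quotient.mk (J n)) (𝔪 ^ n) ≤ ⊥ := by
        rw [← Ideal.map_quotient_self (J n)]
        exact Ideal.map_mono (h.pow_le n)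
      exact mem_towerK.mpr ((Submodule.mem_bot _).mp (h2 h1))

end TowerData

namespace TowerData

theorem isNoetherianRing_tower [IsNoetherianRing 𝒪] (h : TowerData 𝒪 𝔪 J t) :
    IsNoetherianRing (towerAlg 𝒪 J) := by
  have : IsNoetherianRing
      (AdicCompletion (idealOfVars (Fin e) 𝒪) (MvPolynomial (Fin e) 𝒪)) :=
    isNoetherianRing_of_ringEquiv (MvPowerSeries (Fin e) 𝒪)
      (MvPowerSeries.toAdicCompletionAlgEquiv (Fin e) 𝒪).toRingEquiv
  exact isNoetherianRing_of_surjective _ _ h.phi h.phi_surjective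

theorem isMaximal_towerK_one [𝔪.IsMaximal] (h : TowerData 𝒪 𝔪 J t) :
    (towerK 𝒪 J 1).IsMaximal := by
  have : (⊥ : Ideal (Λ ⧸ J 1)).IsMaximal := by
    rw [Ideal.bot_quotient_isMaximal_iff, h.J_one]; infer_instance
  have h1 : towerK 𝒪 J 1 = Ideal.comap (towerProj 𝒪 J 1) ⊥ := rfl
  rw [h1]
  exact Ideal.comap_isMaximal_of_surjective _ (towerProj_surjective 1)

theorem isAdicComplete_tower (h : TowerData 𝒪 𝔪 J t) :
    IsAdicComplete (towerK 𝒪 J 1) (towerAlg 𝒪 J) where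
  haus' := by
    intro x hx
    refine tower_ext fun n => ?_
    have h1 := hx n
    rw [SModEq.zero, smul_eq_mul, Ideal.mul_top, ← h.towerK_eq_pow n] at h1
    rw [mem_towerK.mp h1, map_zero]
  prec' := by
    intro f hf
    refine ⟨⟨fun n => towerProj 𝒪 J n (f n), ?_⟩, ?_⟩
    · intro m n hmn hJ
      have h1 := hf hmn
      rw [SModEq.sub_mem, smul_eq_mul, Ideal.mul_top, ← h.towerK_eq_pow m, mem_towerK, map_sub,
        sub_eq_zero] at h1
      rw [towerProj_compat hmn hJ]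
      exact h1.symm
    · intro n
      rw [SModEq.sub_mem, smul_eq_mul, Ideal.mul_top, ← h.towerK_eq_pow n, mem_towerK, map_sub,
        sub_eq_zero]
      rfl

theorem tower_main [IsNoetherianRing 𝒪] [IsLocalRing 𝒪] [𝔪.IsMaximal] (h : TowerData 𝒪 𝔪 J t)
    (hϖ : ∀ c ∈ IsLocalRing.maximalIdeal 𝒪, algebraMap 𝒪 Λ c ∈ 𝔪) :
    ∃ (R : Type) (_ : CommRing R) (_ : IsLocalRing R) (_ : IsNoetherianRing R)
      (_ : IsAdicComplete (IsLocalRing.maximalIdeal R) R) (_ : Algebra 𝒪 R)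
      (_ : IsLocalHom (algebraMap 𝒪 R)) (π : Λ →ₐ[𝒪] R),
      Function.Surjective (IsLocalRing.residue R ∘ algebraMap 𝒪 R) ∧
      (∀ n, Ideal.comap π (IsLocalRing.maximalIdeal R ^ n) = J n) ∧
      (∀ n (r : R), ∃ x : Λ, r - π x ∈ IsLocalRing.maximalIdeal R ^ n) := by
  have hmax := h.isMaximal_towerK_one
  have hcomp := h.isAdicComplete_tower
  have hloc : IsLocalRing (towerAlg 𝒪 J) := isLocalRing_of_isAdicComplete_maximal (towerK 𝒪 J 1)
  have hM : towerK 𝒪 J 1 = IsLocalRing.maximalIdeal (towerAlg 𝒪 J) :=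
    IsLocalRing.eq_maximalIdeal hmax
  have := h.isNoetherianRing_tower
  refine ⟨towerAlg 𝒪 J, inferInstance, hloc, inferInstance, hM ▸ hcomp, inferInstance, ?_,
    towerOf 𝒪 J, ?_, ?_, ?_⟩
  · refine ⟨fun c hc => ?_⟩
    by_contra hcu
    have h1 : algebraMap 𝒪 (towerAlg 𝒪 J) c ∈ towerK 𝒪 J 1 := by
      rw [mem_towerK, AlgHom.commutes, ← Ideal.Quotient.mk_algebraMap,
        Ideal.Quotient.eq_zero_iff_mem, h.J_one]
      exact hϖ c hcu
    rw [hM] at h1
    exact (IsLocalRing.mem_maximalIdeal _).mp h1 hc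
  · intro r
    obtain ⟨a, rfl⟩ := IsLocalRing.residue_surjective r
    obtain ⟨x, hx⟩ := Ideal.Quotient.mk_surjective (towerProj 𝒪 J 1 a)
    obtain ⟨c, hc⟩ := h.res x
    refine ⟨c, ?_⟩
    rw [Function.comp_apply, ← sub_eq_zero, ← map_sub, IsLocalRing.residue_eq_zero_iff, ← hM,
      mem_towerK, map_sub, AlgHom.commutes, ← hx, ← Ideal.Quotient.mk_algebraMap, ← map_sub,
      Ideal.Quotient.eq_zero_iff_mem, h.J_one]
    have h2 : algebraMap 𝒪 Λ c - x = -(x - algebraMap 𝒪 Λ c) := by ring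
    rw [h2]
    exact neg_mem hc
  · intro n
    rw [← hM, ← h.towerK_eq_pow n]
    ext x
    rw [Ideal.mem_comap, towerOf_mem_towerK]
  · intro n r
    rw [← hM, ← h.towerK_eq_pow n]
    exact exists_towerOf_sub_mem n r

end TowerData

end Main

end H74

/-- **Tower lemma (construction).** From a chain of ideals `J n` (`n ≥ 1`) of an `𝒪`-algebra `Λ`
with `J 1 = 𝔪` maximal, `𝔪 ^ n ≤ J n`, `J n = J (n+1) ⊔ 𝔪 ^ n`, residue field generated by `𝒪`,
and `𝔪` generated modulo `J 2` by finitely many elements, we get a complete Noetherian local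
`𝒪`-algebra `R` with a map `π : Λ → R` with dense image such that the preimage of `𝔪_R ^ n` is
exactly `J n`. -/
theorem h74_tower_exists {𝒪 : Type} [CommRing 𝒪] [IsNoetherianRing 𝒪] [IsLocalRing 𝒪]
    {Λ : Type} [CommRing Λ] [Algebra 𝒪 Λ] (𝔪 : Ideal Λ) [𝔪.IsMaximal]
    (hres : ∀ x : Λ, ∃ c : 𝒪, x - algebraMap 𝒪 Λ c ∈ 𝔪)
    (hϖ : ∀ c ∈ IsLocalRing.maximalIdeal 𝒪, algebraMap 𝒪 Λ c ∈ 𝔪)
    (J : ℕ → Ideal Λ) (hJ1 : J 1 = 𝔪) (hJpow : ∀ n, 1 ≤ n → 𝔪 ^ n ≤ J n)
    (hJstep : ∀ n, 1 ≤ n → J n = J (n + 1) ⊔ 𝔪 ^ n)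
    (d : ℕ) (t : Fin d → Λ) (ht𝔪 : ∀ i, t i ∈ 𝔪)
    (ht : 𝔪 ≤ Ideal.span (Set.range t) ⊔ J 2) :
    ∃ (R : Type) (_ : CommRing R) (_ : IsLocalRing R) (_ : IsNoetherianRing R)
      (_ : IsAdicComplete (IsLocalRing.maximalIdeal R) R) (_ : Algebra 𝒪 R)
      (_ : IsLocalHom (algebraMap 𝒪 R)) (π : Λ →ₐ[𝒪] R),
      Function.Surjective (IsLocalRing.residue R ∘ algebraMap 𝒪 R) ∧
      (∀ n, 1 ≤ n → Ideal.comap π (IsLocalRing.maximalIdeal R ^ n) = J n) ∧
      (∀ n (r : R), ∃ x : Λ, r - π x ∈ IsLocalRing.maximalIdeal R ^ n) := by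
  set J' : ℕ → Ideal Λ := fun n => if n = 0 then ⊤ else J n with hJ'
  have hJ'succ : ∀ n, J' (n + 1) = J (n + 1) := fun n => by simp [hJ']
  have hdata : H74.TowerData 𝒪 𝔪 J' t :=
    { J_zero := by simp [hJ']
      J_one := by rw [hJ'succ 0]; exact hJ1
      pow_le := by
        intro n
        cases n with
        | zero => simp [hJ']
        | succ n => rw [hJ'succ]; exact hJpow (n + 1) (by omega)
      step := by
        intro n
        cases n with
        | zero => simp [hJ']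
        | succ n => rw [hJ'succ, hJ'succ]; exact hJstep (n + 1) (by omega)
      res := hres
      t_mem := ht𝔪
      gen := by rw [hJ'succ 1]; exact ht }
  obtain ⟨R, i1, i2, i3, i4, i5, i6, π, h1, h2, h3⟩ := hdata.tower_main hϖ
  refine ⟨R, i1, i2, i3, i4, i5, i6, π, h1, ?_, h3⟩
  intro n hn
  rw [h2 n]
  obtain ⟨k, rfl⟩ := Nat.exists_eq_succ_of_ne_zero (by omega : n ≠ 0)
  exact hJ'succ k

end Fermat.Agent.S53
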