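import Mathlib
import Fermat.Agent.S53.Good
import Fermat.Agent.S53.GoodKer

/-!
# S53 — truncations of a rigid deformation over a complete local ring give good ideals
-/

set_option autoImplicit false

namespace Fermat.Agent.S53

open IsLocalRing GaloisRep

variable {𝒪 : Type} [CommRing 𝒪] [IsLocalRing 𝒪]
  {𝒟 : ∀ ⦃A : Type⦄ [CommRing A] [IsLocalRing A] [Algebra 𝒪 A], GaloisRepAdic A → Prop}
  {F : Frame 𝒪}

/-- (F-d) truncations of a rigid type-`𝒟` deformation over a complete noetherian local ring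
give good ideals. -/
theorem good_comap_evMat [Finite (ResidueField 𝒪)] (h𝒟 : IsDeformationCondition 𝒪 𝒟)
    {A : Type} [CommRing A] [IsLocalRing A] [IsNoetherianRing A]
    [IsAdicComplete (maximalIdeal A) A] [Algebra 𝒪 A]
    (hloc : IsLocalHom (algebraMap 𝒪 A))
    (hsurj : Function.Surjective (IsLocalRing.residue A ∘ algebraMap 𝒪 A))
    (ρ : GaloisRepAdic A) (hρ : 𝒟 ρ) {r : GQ → Matrix (Fin 2) (Fin 2) A} (hm : HasMatrix ρ r)
    (hr : IsRigid F.rt F.g0 F.g1 F.i0 F.j0 r) (n : ℕ) (hn : 1 ≤ n) :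
    F.Good 𝒟 (Ideal.comap (evMat r : Lam 𝒪 →ₐ[𝒪] A) (maximalIdeal A ^ n)) := by
  have hIle : maximalIdeal A ^ n ≤ maximalIdeal A := by
    calc maximalIdeal A ^ n ≤ maximalIdeal A ^ 1 := Ideal.pow_le_pow_right hn
      _ = maximalIdeal A := pow_one _
  have hIne : maximalIdeal A ^ n ≠ ⊤ := fun h =>
    (IsLocalRing.maximalIdeal.isMaximal A).ne_top (top_le_iff.mp (h ▸ hIle))
  haveI : Nontrivial (A ⧸ maximalIdeal A ^ n) := Ideal.Quotient.nontrivial_iff.mpr hIne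
  haveI : IsLocalRing (A ⧸ maximalIdeal A ^ n) :=
    IsLocalRing.of_surjective' (Ideal.Quotient.mk (maximalIdeal A ^ n))
      Ideal.Quotient.mk_surjective
  have hB : IsArtinianTestAlgebra 𝒪 (A ⧸ maximalIdeal A ^ n) :=
    isArtinianTestAlgebra_quotient_pow 𝒪 hloc hsurj n hn
  haveI : Finite (A ⧸ maximalIdeal A ^ n) := finite_of_isArtinianTestAlgebra 𝒪 hB
  have hq : IsLocalHom ((Ideal.Quotient.mkₐ 𝒪 (maximalIdeal A ^ n) :
      A →ₐ[𝒪] A ⧸ maximalIdeal A ^ n) : A →+* A ⧸ maximalIdeal A ^ n) :=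
    isLocalHom_of_algHom 𝒪 hB.residue_surjective hB.isLocalHom _
  have hqsurj : Function.Surjective (Ideal.Quotient.mkₐ 𝒪 (maximalIdeal A ^ n)) :=
    Ideal.Quotient.mk_surjective
  have h𝒟q := (h𝒟.iff_forall_surjective hloc hsurj ρ).mp hρ hB
    (Ideal.Quotient.mkₐ 𝒪 (maximalIdeal A ^ n)) hq hqsurj
  have hdef : F.IsDefo 𝒟 (A ⧸ maximalIdeal A ^ n)
      (fun σ => (r σ).map (Ideal.Quotient.mkₐ 𝒪 (maximalIdeal A ^ n))) :=
    ⟨isRigid_map _ hq hr, _, h𝒟q, hm.baseChangeAlong _ hq⟩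
  have hgood := F.good_ker h𝒟 hB hdef
  have hker : RingHom.ker (evMat (fun σ => (r σ).map (Ideal.Quotient.mkₐ 𝒪 (maximalIdeal A ^ n))) :
      Lam 𝒪 →ₐ[𝒪] A ⧸ maximalIdeal A ^ n) =
      Ideal.comap (evMat r : Lam 𝒪 →ₐ[𝒪] A) (maximalIdeal A ^ n) := by
    rw [← evMat_comp r (Ideal.Quotient.mkₐ 𝒪 (maximalIdeal A ^ n))]
    ext x
    rw [RingHom.mem_ker, Ideal.mem_comap, AlgHom.comp_apply, Ideal.Quotient.mkₐ_eq_mk,
      Ideal.Quotient.eq_zero_iff_mem]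
  rwa [hker] at hgood

end Fermat.Agent.S53
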